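import Fermat.Agent.S30.Defs2

/-!
# S35 / S36 wiring: structural form of the S30 assembly (helper89; cluster R)

`Stmt_AssembleS` is the STRUCTURAL form of `Fermat.Agent.S30.Stmt_Assemble`: instead of a list
of transfer clauses it says where the `2 × 2` representation `ρ₂` comes from:

* either `ρ₂` is a subrepresentation of `ρ ⊗ 𝒪''` (intertwiner `P` with retraction `Q`),
* or `ρ₂ = ψ ⊕ ε ψ⁻¹` for a character `ψ` carried by a stable line of `ρ ⊗ 𝒪''`;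

in both cases `det ρ₂ = ε`.  Every transfer clause (Frobenius characteristic polynomials,
unramified, unipotent, Steinberg, no inertia invariants) follows from this by pure algebra:
see `Fermat/Agent/S35/H89_Transfer.lean`.
-/

set_option autoImplicit false

open Polynomial

namespace Fermat.Agent.S35

open Fermat.Agent.S30

/-- **Structural assembly.** -/
def Stmt_AssembleS : Prop :=
  ∀ (𝒪 : Type) [CommRing 𝒪] [IsDomain 𝒪] [IsDiscreteValuationRing 𝒪]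
    [IsAdicComplete (IsLocalRing.maximalIdeal 𝒪) 𝒪] [Finite (IsLocalRing.ResidueField 𝒪)]
    [CharZero 𝒪]
    (S : Finset ℕ) (a : ℕ → 𝒪) (r : ℕ) (_hr : 0 < r) (ρ : GQ →* Matrix (Fin r) (Fin r) 𝒪)
    (ε : GQ →* 𝒪ˣ), MatAdicCont ρ → CharAdicCont ε → MatES ρ a S → CharCycAt ε S →
    ∃ (𝒪'' : Type) (_ : CommRing 𝒪'') (_ : IsDomain 𝒪'') (_ : IsDiscreteValuationRing 𝒪'')
      (_ : IsAdicComplete (IsLocalRing.maximalIdeal 𝒪'') 𝒪'')
      (_ : Finite (IsLocalRing.ResidueField 𝒪'')) (_ : CharZero 𝒪'')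
      (_ : Algebra 𝒪 𝒪'') (_ : Module.Finite 𝒪 𝒪'') (_ : IsLocalHom (algebraMap 𝒪 𝒪'')),
      Function.Injective (algebraMap 𝒪 𝒪'') ∧
      ∃ ρ₂ : GQ →* Matrix (Fin 2) (Fin 2) 𝒪'', MatAdicCont ρ₂ ∧
        (∀ g : GQ, (ρ₂ g).det = algebraMap 𝒪 𝒪'' (ε g : 𝒪)) ∧
        ((∃ (P : Matrix (Fin r) (Fin 2) 𝒪'') (Q : Matrix (Fin 2) (Fin r) 𝒪''),
            Q * P = 1 ∧ ∀ g : GQ, (ρ g).map (algebraMap 𝒪 𝒪'') * P = P * ρ₂ g) ∨
         (∃ (ψ : GQ →* 𝒪''ˣ) (v : Fin r → 𝒪''), v ≠ 0 ∧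
            (∀ g : GQ, ((ρ g).map (algebraMap 𝒪 𝒪'')).mulVec v = (ψ g : 𝒪'') • v) ∧
            ∀ g : GQ, ρ₂ g =
              Matrix.diagonal ![(ψ g : 𝒪''),
                algebraMap 𝒪 𝒪'' (ε g : 𝒪) * (((ψ g)⁻¹ : 𝒪''ˣ) : 𝒪'')]))

end Fermat.Agent.S35
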