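import Mathlib
import Fermat.Agent.R.H89_Quad

/-!
# `2 × 2` algebra for the S35 / S36 transfer clauses (helper89)

* `two_quad_charpoly` : `B² - t B + e = 0`, `det B = e ≠ 0` ⇒ `charpoly B = X² - t X + e`.
* `two_prod_charpoly` : `∏ (B - c) = 0` ⇒ `charpoly B = (X - c)(X - d)` for some `c` in the list.
* `kolchin_two` : a group of `2 × 2` matrices with characteristic polynomial `(X - 1)²` over a
  domain in which `2 ≠ 0` has a common nonzero fixed vector.
-/

set_option autoImplicit false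

open Polynomial Matrix

namespace Fermat.Agent.S35.H89

open Fermat.Agent.R.H89

variable {R : Type} [CommRing R] [IsDomain R]

/-- A `2 × 2` matrix with `B² - t B + e = 0` and `det B = e ≠ 0` has characteristic polynomial
`X² - t X + e`. -/
theorem two_quad_charpoly (B : Matrix (Fin 2) (Fin 2) R) (t e : R)
    (h : B * B - t • B + e • (1 : Matrix (Fin 2) (Fin 2) R) = 0) (hdet : B.det = e)
    (he : e ≠ 0) : B.charpoly = X ^ 2 - C t * X + C e := by
  by_cases hs : IsScalar B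
  · obtain ⟨c, rfl⟩ := hs
    have hdet' : c * c = e := by
      rw [← hdet]
      simp
      ring
    have h00 := congrFun (congrFun h 0) 0
    simp at h00
    -- c * c - t * c + e = 0
    have hc : c ≠ 0 := by
      rintro rfl
      apply he
      rw [← hdet']
      ring
    have ht : t = 2 * c := by
      have h1 : c * (2 * c - t) = 0 := by
        have : c * (2 * c - t) = (c * c - t * c + e) + (c * c - e) := by ring
        rw [this, h00, hdet']
        ring
      rcases mul_eq_zero.1 h1 with h2 | h2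
      · exact absurd h2 hc
      · exact (sub_eq_zero.1 h2).symm
    rw [charpoly_two, ← hdet']
    have htr : (c • (1 : Matrix (Fin 2) (Fin 2) R)).trace = 2 * c := by
      simp
      ring
    have hd : (c • (1 : Matrix (Fin 2) (Fin 2) R)).det = c * c := by
      simp
      ring
    rw [htr, hd, ht]
  · obtain ⟨h1, h2⟩ := quad_trace_det h hs
    rw [charpoly_two, h1, h2]

/-- If a product of factors `B - c` vanishes then one of the `c` is an eigenvalue, and the
characteristic polynomial splits accordingly. -/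
theorem two_prod_charpoly (B : Matrix (Fin 2) (Fin 2) R) (cs : List R)
    (h : (cs.map (fun c => B - c • (1 : Matrix (Fin 2) (Fin 2) R))).prod = 0) :
    ∃ c ∈ cs, ∃ d : R, c * d = B.det ∧ B.charpoly = (X - C c) * (X - C d) := by
  have hdet : ((cs.map (fun c => B - c • (1 : Matrix (Fin 2) (Fin 2) R))).prod).det = 0 := by
    rw [h, Matrix.det_zero]
  have hex : ∃ c ∈ cs, (B - c • (1 : Matrix (Fin 2) (Fin 2) R)).det = 0 := by
    clear h
    induction cs with
    | nil => simp at hdet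
    | cons c cs ih =>
      rw [List.map_cons, List.prod_cons, Matrix.det_mul] at hdet
      rcases mul_eq_zero.1 hdet with h1 | h1
      · exact ⟨c, List.mem_cons_self, h1⟩
      · obtain ⟨c', hc', h2⟩ := ih h1
        exact ⟨c', List.mem_cons_of_mem _ hc', h2⟩
  obtain ⟨c, hc, hc0⟩ := hex
  refine ⟨c, hc, B.trace - c, ?_, ?_⟩
  · rw [Matrix.det_fin_two] at hc0 ⊢
    simp only [Matrix.sub_apply, Matrix.smul_apply, Matrix.one_apply_eq, smul_eq_mul, mul_one,
      Matrix.one_apply_ne, ne_eq, one_ne_zero, not_false_eq_true, zero_ne_one, mul_zero,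
      sub_zero] at hc0
    rw [Matrix.trace_fin_two]
    linear_combination -hc0
  · rw [charpoly_two]
    rw [Matrix.det_fin_two] at hc0 ⊢
    simp only [Matrix.sub_apply, Matrix.smul_apply, Matrix.one_apply_eq, smul_eq_mul, mul_one,
      Matrix.one_apply_ne, ne_eq, one_ne_zero, not_false_eq_true, zero_ne_one, mul_zero,
      sub_zero] at hc0
    rw [Matrix.trace_fin_two]
    have hC : C (B 0 0 * B 1 1 - B 0 1 * B 1 0) = C c * C (B 0 0 + B 1 1 - c) := by
      rw [← C_mul]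
      congr 1
      linear_combination hc0
    rw [hC]
    simp only [C_sub, C_add]
    ring

/-- Trace and determinant of a `2 × 2` matrix with characteristic polynomial `(X - 1)²`. -/
theorem unip_trace_det (A : Matrix (Fin 2) (Fin 2) R) (h : A.charpoly = (X - 1) ^ 2) :
    A.trace = 2 ∧ A.det = 1 := by
  rw [charpoly_two] at h
  have h1 := congrArg (fun p : R[X] => p.coeff 1) h
  have h0 := congrArg (fun p : R[X] => p.coeff 0) h
  have e : ((X : R[X]) - 1) ^ 2 = X ^ 2 - C 2 * X + C 1 := by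
    simp only [map_ofNat, map_one]
    ring
  rw [e] at h1 h0
  simp only [coeff_add, coeff_sub, coeff_X_pow, coeff_C_mul, coeff_X_one, coeff_C, coeff_X_zero,
    mul_one, mul_zero] at h1 h0
  norm_num at h1 h0
  exact ⟨h1, h0⟩

/-- The polynomial identities behind Kolchin's theorem in rank two. -/
theorem kolchin_key (h2 : (2 : R) ≠ 0) (a b c a' b' c' : R) (h1 : a * a + b * c = 0)
    (h1' : a' * a' + b' * c' = 0) (h3 : 2 * a * a' + b * c' + b' * c = 0) :
    a' * a + b' * c = 0 ∧ a' * b - b' * a = 0 ∧ c' * a - a' * c = 0 ∧ c' * b + a' * a = 0 := by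
  have e1 : (a' * b - b' * a) ^ 2 = 0 := by
    linear_combination b ^ 2 * h1' + b' ^ 2 * h1 - b * b' * h3
  have e2 : (c' * a - a' * c) ^ 2 = 0 := by
    linear_combination c' ^ 2 * h1 + c ^ 2 * h1' - c * c' * h3
  have e3 : (b' * c - b * c') ^ 2 = 0 := by
    linear_combination (b * c' + b' * c - 2 * a * a') * h3 + 4 * a' ^ 2 * h1 - 4 * b * c * h1'
  have f1 := pow_eq_zero_iff (two_ne_zero) |>.1 e1
  have f2 := pow_eq_zero_iff (two_ne_zero) |>.1 e2
  have f3 := pow_eq_zero_iff (two_ne_zero) |>.1 e3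
  have g1 : 2 * (a' * a + b' * c) = 0 := by linear_combination h3 + f3
  have g2 : 2 * (c' * b + a' * a) = 0 := by linear_combination h3 - f3
  refine ⟨?_, f1, f2, ?_⟩
  · exact (mul_eq_zero.1 g1).resolve_left h2
  · exact (mul_eq_zero.1 g2).resolve_left h2

/-- **Kolchin in rank two.** A group of `2 × 2` matrices with characteristic polynomial
`(X - 1)²` over a domain with `2 ≠ 0` has a common nonzero fixed vector. -/
theorem kolchin_two {G : Type*} [Group G] (ρ₂ : G →* Matrix (Fin 2) (Fin 2) R)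
    (h2 : (2 : R) ≠ 0) (H : Subgroup G)
    (hU : ∀ σ ∈ H, (ρ₂ σ).charpoly = (X - 1) ^ 2) :
    ∃ w : Fin 2 → R, w ≠ 0 ∧ ∀ σ ∈ H, (ρ₂ σ).mulVec w = w := by
  by_cases hall : ∀ σ ∈ H, ρ₂ σ = 1
  · refine ⟨![1, 0], ?_, fun σ hσ => ?_⟩
    · intro h
      have := congrFun h 0
      simp at this
    · rw [hall σ hσ, Matrix.one_mulVec]
  rw [not_forall] at hall
  obtain ⟨σ₀, hσ₀⟩ := hall
  rw [Classical.not_imp] at hσ₀
  obtain ⟨hσ₀H, hne⟩ := hσ₀
  obtain ⟨ht0, hd0⟩ := unip_trace_det _ (hU σ₀ hσ₀H)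
  rw [Matrix.trace_fin_two] at ht0
  rw [Matrix.det_fin_two] at hd0
  -- entries of `N₀ = (ρ₂ σ₀) - 1`
  have r0 : ((ρ₂ σ₀) 0 0 - 1) * ((ρ₂ σ₀) 0 0 - 1) + (ρ₂ σ₀) 0 1 * (ρ₂ σ₀) 1 0 = 0 := by
    have : (ρ₂ σ₀) 1 1 = 2 - (ρ₂ σ₀) 0 0 := by linear_combination ht0
    rw [this] at hd0
    linear_combination -hd0
  -- for every `σ ∈ H`, `(ρ₂ σ - 1) * ((ρ₂ σ₀) - 1) = 0`
  have hkill : ∀ σ ∈ H,
      (ρ₂ σ 0 0 - 1) * ((ρ₂ σ₀) 0 0 - 1) + ρ₂ σ 0 1 * (ρ₂ σ₀) 1 0 = 0 ∧
      (ρ₂ σ 0 0 - 1) * (ρ₂ σ₀) 0 1 - ρ₂ σ 0 1 * ((ρ₂ σ₀) 0 0 - 1) = 0 ∧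
      ρ₂ σ 1 0 * ((ρ₂ σ₀) 0 0 - 1) - (ρ₂ σ 0 0 - 1) * (ρ₂ σ₀) 1 0 = 0 ∧
      ρ₂ σ 1 0 * (ρ₂ σ₀) 0 1 + (ρ₂ σ 0 0 - 1) * ((ρ₂ σ₀) 0 0 - 1) = 0 := by
    intro σ hσ
    obtain ⟨ht, hd⟩ := unip_trace_det _ (hU σ hσ)
    rw [Matrix.trace_fin_two] at ht
    rw [Matrix.det_fin_two] at hd
    have r1 : (ρ₂ σ 0 0 - 1) * (ρ₂ σ 0 0 - 1) + ρ₂ σ 0 1 * ρ₂ σ 1 0 = 0 := by
      have : ρ₂ σ 1 1 = 2 - ρ₂ σ 0 0 := by linear_combination ht
      rw [this] at hd
      linear_combination -hd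
    obtain ⟨ht', -⟩ := unip_trace_det _ (hU (σ * σ₀) (H.mul_mem hσ hσ₀H))
    rw [map_mul, Matrix.trace_fin_two] at ht'
    simp only [Matrix.mul_apply, Fin.sum_univ_two] at ht'
    have r3 : 2 * ((ρ₂ σ₀) 0 0 - 1) * (ρ₂ σ 0 0 - 1) + (ρ₂ σ₀) 0 1 * ρ₂ σ 1 0 + ρ₂ σ 0 1 * (ρ₂ σ₀) 1 0 = 0 := by
      have e1 : ρ₂ σ 1 1 = 2 - ρ₂ σ 0 0 := by linear_combination ht
      have e2 : (ρ₂ σ₀) 1 1 = 2 - (ρ₂ σ₀) 0 0 := by linear_combination ht0
      linear_combination ht' - (ρ₂ σ₀) 1 1 * e1 - (2 - ρ₂ σ 0 0) * e2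
    exact kolchin_key h2 _ _ _ _ _ _ r0 r1 r3
  -- a nonzero column of `N₀`
  have hN0 : (ρ₂ σ₀) 0 0 - 1 ≠ 0 ∨ (ρ₂ σ₀) 0 1 ≠ 0 ∨ (ρ₂ σ₀) 1 0 ≠ 0 := by
    by_contra hcon
    rw [not_or, not_or, not_not, not_not, not_not] at hcon
    obtain ⟨k1, k2, k3⟩ := hcon
    apply hne
    have k4 : (ρ₂ σ₀) 1 1 = 1 := by
      have : (ρ₂ σ₀) 0 0 = 1 := by linear_combination k1
      rw [this] at ht0
      linear_combination ht0
    ext i j
    fin_cases i <;> fin_cases j
    · simpa using sub_eq_zero.1 k1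
    · simpa using k2
    · simpa using k3
    · simpa using k4
  have hfix : ∀ (w : Fin 2 → R) (σ : G),
      (ρ₂ σ 0 0 - 1) * w 0 + ρ₂ σ 0 1 * w 1 = 0 →
      ρ₂ σ 1 0 * w 0 + (ρ₂ σ 1 1 - 1) * w 1 = 0 → (ρ₂ σ).mulVec w = w := by
    intro w σ e1 e2
    ext i
    fin_cases i
    · simp only [Matrix.mulVec, dotProduct, Fin.sum_univ_two, Fin.zero_eta]
      linear_combination e1
    · simp only [Matrix.mulVec, dotProduct, Fin.sum_univ_two, Fin.mk_one]
      linear_combination e2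
  by_cases hcol : (ρ₂ σ₀) 0 0 - 1 ≠ 0 ∨ (ρ₂ σ₀) 1 0 ≠ 0
  · -- first column `(a, c)`
    refine ⟨![(ρ₂ σ₀) 0 0 - 1, (ρ₂ σ₀) 1 0], ?_, fun σ hσ => ?_⟩
    · intro h
      rcases hcol with h1 | h1
      · exact h1 (by simpa using congrFun h 0)
      · exact h1 (by simpa using congrFun h 1)
    · obtain ⟨k1, k2, k3, k4⟩ := hkill σ hσ
      obtain ⟨ht, -⟩ := unip_trace_det _ (hU σ hσ)
      rw [Matrix.trace_fin_two] at ht
      apply hfix
      · simp only [Matrix.cons_val_zero, Matrix.cons_val_one]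
        linear_combination k1
      · simp only [Matrix.cons_val_zero, Matrix.cons_val_one]
        have e1 : ρ₂ σ 1 1 = 2 - ρ₂ σ 0 0 := by linear_combination ht
        rw [e1]
        linear_combination k3
  · -- second column `(b, -a)` with `a = 0`, `c = 0`
    rw [not_or, not_not, not_not] at hcol
    obtain ⟨ha, hc⟩ := hcol
    have hb : (ρ₂ σ₀) 0 1 ≠ 0 := by
      rcases hN0 with h | h | h
      · exact absurd ha h
      · exact h
      · exact absurd hc h
    refine ⟨![(ρ₂ σ₀) 0 1, 0], ?_, fun σ hσ => ?_⟩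
    · intro h
      exact hb (by simpa using congrFun h 0)
    · obtain ⟨k1, k2, k3, k4⟩ := hkill σ hσ
      apply hfix
      · simp only [Matrix.cons_val_zero, Matrix.cons_val_one]
        rw [ha] at k2
        linear_combination k2
      · simp only [Matrix.cons_val_zero, Matrix.cons_val_one]
        rw [ha] at k4
        linear_combination k4

end Fermat.Agent.S35.H89
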