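import Mathlib
import Fermat.Agent.S35.Defs2
import Fermat.Agent.S35.H89_Two
import Fermat.Agent.S30.H2_MatToRep

/-!
# Transfer clauses from the structural assembly (helper89; cluster R, rows S30/S30U/S35/S36)

`Stmt_AssembleX` : the assembly with ALL transfer clauses:

* (F) Frobenius characteristic polynomials at the primes outside `S`;
* (T) `ρ σ = 1`, `ε σ = 1` ⇒ `ρ'' σ = 1`;
* (Q) `ρ σ² - t ρ σ + ε σ = 0` ⇒ `charpoly (ρ'' σ) = X² - t X + ε σ`;
* (P) `∏_{c ∈ cs} (ρ σ - c) = 0` ⇒ `charpoly (ρ'' σ) = (X - c)(X - d)`, `c ∈ cs`, `c d = ε σ`;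
* (N) a subgroup `H` without nonzero fixed vector in `𝒪^r` is not unipotent in `ρ''`.

`assembleX_of_assembleS : Stmt_AssembleS → Stmt_AssembleX` and
`assemble_of_assembleX : Stmt_AssembleX → Fermat.Agent.S30.Stmt_Assemble`.
-/

set_option autoImplicit false

open Polynomial Matrix

namespace Fermat.Agent.S35

open Fermat.Agent.S30

/-- The assembly with all transfer clauses. -/
def Stmt_AssembleX : Prop :=
  ∀ (𝒪 : Type) [CommRing 𝒪] [IsDomain 𝒪] [IsDiscreteValuationRing 𝒪]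
    [IsAdicComplete (IsLocalRing.maximalIdeal 𝒪) 𝒪] [Finite (IsLocalRing.ResidueField 𝒪)]
    [CharZero 𝒪]
    (S : Finset ℕ) (a : ℕ → 𝒪) (r : ℕ) (_hr : 0 < r) (ρ : GQ →* Matrix (Fin r) (Fin r) 𝒪)
    (ε : GQ →* 𝒪ˣ), MatAdicCont ρ → CharAdicCont ε → MatES ρ a S → CharCycAt ε S →
    ∃ (𝒪'' : Type) (_ : CommRing 𝒪'') (_ : IsDomain 𝒪'') (_ : IsDiscreteValuationRing 𝒪'')
      (_ : IsAdicComplete (IsLocalRing.maximalIdeal 𝒪'') 𝒪'')
      (_ : Finite (IsLocalRing.ResidueField 𝒪'')) (_ : CharZero 𝒪'')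
      (_ : Algebra 𝒪 𝒪'') (_ : Module.Finite 𝒪 𝒪'') (_ : IsLocalHom (algebraMap 𝒪 𝒪'')),
      Function.Injective (algebraMap 𝒪 𝒪'') ∧
      ∃ ρ'' : GaloisRepAdic 𝒪'',
        (∀ ℓ : ℕ, ℓ.Prime → ℓ ∉ S →
          ∀ A : ValuationSubring (AlgebraicClosure ℚ), A.LiesOverPrime ℓ →
            ∀ σ : GQ, A.IsFrobeniusAt σ ℓ →
              LinearMap.charpoly (ρ''.ρ σ) =
                X ^ 2 - C (algebraMap 𝒪 𝒪'' (a ℓ)) * X + C ((ℓ : 𝒪''))) ∧
        (∀ σ : GQ, ρ σ = 1 → ε σ = 1 → ρ''.ρ σ = 1) ∧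
        (∀ (σ : GQ) (t : 𝒪),
          ρ σ * ρ σ - t • ρ σ + (ε σ : 𝒪) • (1 : Matrix (Fin r) (Fin r) 𝒪) = 0 →
          LinearMap.charpoly (ρ''.ρ σ) =
            X ^ 2 - C (algebraMap 𝒪 𝒪'' t) * X + C (algebraMap 𝒪 𝒪'' (ε σ : 𝒪))) ∧
        (∀ (σ : GQ) (cs : List 𝒪),
          (cs.map (fun c => ρ σ - c • (1 : Matrix (Fin r) (Fin r) 𝒪))).prod = 0 →
          ∃ c ∈ cs, ∃ d : 𝒪'', algebraMap 𝒪 𝒪'' c * d = algebraMap 𝒪 𝒪'' (ε σ : 𝒪) ∧
            LinearMap.charpoly (ρ''.ρ σ) = (X - C (algebraMap 𝒪 𝒪'' c)) * (X - C d)) ∧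
        (∀ H : Subgroup GQ,
          (∀ v : Fin r → 𝒪, (∀ σ ∈ H, (ρ σ).mulVec v = v) → v = 0) →
          ∃ σ ∈ H, LinearMap.charpoly (ρ''.ρ σ) ≠ (X - 1) ^ 2)

namespace H89

section Plane

variable {R : Type} [CommRing R] {r : ℕ}

theorem plane_pow {A : Matrix (Fin r) (Fin r) R} {B : Matrix (Fin 2) (Fin 2) R}
    {P : Matrix (Fin r) (Fin 2) R} (h : A * P = P * B) :
    A * A * P = P * (B * B) := by
  rw [Matrix.mul_assoc, h, ← Matrix.mul_assoc, h, Matrix.mul_assoc]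

theorem plane_quad {A : Matrix (Fin r) (Fin r) R} {B : Matrix (Fin 2) (Fin 2) R}
    {P : Matrix (Fin r) (Fin 2) R} {Q : Matrix (Fin 2) (Fin r) R} (hQP : Q * P = 1)
    (h : A * P = P * B) (t e : R)
    (hA : A * A - t • A + e • (1 : Matrix (Fin r) (Fin r) R) = 0) :
    B * B - t • B + e • (1 : Matrix (Fin 2) (Fin 2) R) = 0 := by
  have h1 : P * (B * B - t • B + e • (1 : Matrix (Fin 2) (Fin 2) R)) =
      (A * A - t • A + e • (1 : Matrix (Fin r) (Fin r) R)) * P := by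
    rw [Matrix.mul_add, Matrix.mul_sub, Matrix.add_mul, Matrix.sub_mul, plane_pow h,
      Matrix.mul_smul, Matrix.smul_mul, h, Matrix.mul_smul, Matrix.smul_mul, Matrix.mul_one,
      Matrix.one_mul]
  rw [hA, Matrix.zero_mul] at h1
  have h2 := congrArg (fun X => Q * X) h1
  simp only [Matrix.mul_zero] at h2
  rw [← Matrix.mul_assoc, hQP, Matrix.one_mul] at h2
  exact h2

theorem plane_prod {A : Matrix (Fin r) (Fin r) R} {B : Matrix (Fin 2) (Fin 2) R}
    {P : Matrix (Fin r) (Fin 2) R} {Q : Matrix (Fin 2) (Fin r) R} (hQP : Q * P = 1)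
    (h : A * P = P * B) (cs : List R)
    (hA : (cs.map (fun c => A - c • (1 : Matrix (Fin r) (Fin r) R))).prod = 0) :
    (cs.map (fun c => B - c • (1 : Matrix (Fin 2) (Fin 2) R))).prod = 0 := by
  have key : ∀ cs : List R,
      (cs.map (fun c => A - c • (1 : Matrix (Fin r) (Fin r) R))).prod * P =
        P * (cs.map (fun c => B - c • (1 : Matrix (Fin 2) (Fin 2) R))).prod := by
    intro cs
    induction cs with
    | nil => simp
    | cons c cs ih =>
      rw [List.map_cons, List.prod_cons, List.map_cons, List.prod_cons, Matrix.mul_assoc, ih,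
        ← Matrix.mul_assoc, ← Matrix.mul_assoc]
      congr 1
      rw [Matrix.sub_mul, Matrix.mul_sub, h, Matrix.smul_mul, Matrix.mul_smul, Matrix.one_mul,
        Matrix.mul_one]
  have h1 := key cs
  rw [hA, Matrix.zero_mul] at h1
  have h2 := congrArg (fun X => Q * X) h1
  simp only [Matrix.mul_zero] at h2
  rw [← Matrix.mul_assoc, hQP, Matrix.one_mul] at h2
  exact h2.symm

theorem plane_one {A : Matrix (Fin r) (Fin r) R} {B : Matrix (Fin 2) (Fin 2) R}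
    {P : Matrix (Fin r) (Fin 2) R} {Q : Matrix (Fin 2) (Fin r) R} (hQP : Q * P = 1)
    (h : A * P = P * B) (hA : A = 1) : B = 1 := by
  rw [hA, Matrix.one_mul] at h
  have h2 : Q * P = Q * (P * B) := congrArg (fun X => Q * X) h
  rw [← Matrix.mul_assoc, hQP, Matrix.one_mul] at h2
  exact h2.symm

theorem plane_fixed {A : Matrix (Fin r) (Fin r) R} {B : Matrix (Fin 2) (Fin 2) R}
    {P : Matrix (Fin r) (Fin 2) R} (h : A * P = P * B) (w : Fin 2 → R)
    (hw : B.mulVec w = w) : A.mulVec (P.mulVec w) = P.mulVec w := by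
  rw [Matrix.mulVec_mulVec, h, ← Matrix.mulVec_mulVec, hw]

theorem plane_ne_zero {P : Matrix (Fin r) (Fin 2) R} {Q : Matrix (Fin 2) (Fin r) R}
    (hQP : Q * P = 1) (w : Fin 2 → R) (hw : w ≠ 0) : P.mulVec w ≠ 0 := by
  intro h
  apply hw
  have := congrArg (fun x => Q.mulVec x) h
  simp only [Matrix.mulVec_mulVec, hQP, Matrix.one_mulVec, Matrix.mulVec_zero] at this
  exact this

end Plane

section Line

variable {R : Type} [CommRing R] [IsDomain R] {r : ℕ}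

theorem line_scalar {v : Fin r → R} (hv : v ≠ 0) (c : R) (h : c • v = 0) : c = 0 := by
  by_contra hc
  apply hv
  ext i
  have := congrFun h i
  simp only [Pi.smul_apply, smul_eq_mul, Pi.zero_apply] at this ⊢
  exact (mul_eq_zero.1 this).resolve_left hc

theorem line_quad {A : Matrix (Fin r) (Fin r) R} {v : Fin r → R} (hv : v ≠ 0) (ψ : R)
    (h : A.mulVec v = ψ • v) (t e : R)
    (hA : A * A - t • A + e • (1 : Matrix (Fin r) (Fin r) R) = 0) :
    ψ * ψ - t * ψ + e = 0 := by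
  apply line_scalar hv
  have h1 : (A * A - t • A + e • (1 : Matrix (Fin r) (Fin r) R)).mulVec v =
      (ψ * ψ - t * ψ + e) • v := by
    rw [Matrix.add_mulVec, Matrix.sub_mulVec, ← Matrix.mulVec_mulVec, h, Matrix.mulVec_smul, h,
      Matrix.smul_mulVec, h, Matrix.smul_mulVec, Matrix.one_mulVec, add_smul, sub_smul,
      smul_smul, smul_smul]
  rw [← h1, hA, Matrix.zero_mulVec]

theorem line_prod {A : Matrix (Fin r) (Fin r) R} {v : Fin r → R} (hv : v ≠ 0) (ψ : R)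
    (h : A.mulVec v = ψ • v) (cs : List R)
    (hA : (cs.map (fun c => A - c • (1 : Matrix (Fin r) (Fin r) R))).prod = 0) :
    ∃ c ∈ cs, ψ = c := by
  have key : ∀ cs : List R,
      ((cs.map (fun c => A - c • (1 : Matrix (Fin r) (Fin r) R))).prod).mulVec v =
        ((cs.map (fun c => ψ - c)).prod) • v := by
    intro cs
    induction cs with
    | nil => simp
    | cons c cs ih =>
      rw [List.map_cons, List.prod_cons, List.map_cons, List.prod_cons,
        ← Matrix.mulVec_mulVec, ih, Matrix.mulVec_smul, Matrix.sub_mulVec, h,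
        Matrix.smul_mulVec, Matrix.one_mulVec, ← sub_smul, smul_smul, mul_comm]
  have h1 := key cs
  rw [hA, Matrix.zero_mulVec] at h1
  have h2 := line_scalar hv _ h1.symm
  rw [List.prod_eq_zero_iff] at h2
  obtain ⟨c, hc, hc0⟩ := List.mem_map.1 h2
  exact ⟨c, hc, sub_eq_zero.1 hc0⟩

theorem line_one {A : Matrix (Fin r) (Fin r) R} {v : Fin r → R} (hv : v ≠ 0) (ψ : R)
    (h : A.mulVec v = ψ • v) (hA : A = 1) : ψ = 1 := by
  rw [hA, Matrix.one_mulVec] at h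
  have h1 : (ψ - 1) • v = 0 := by rw [sub_smul, one_smul, ← h, sub_self]
  exact sub_eq_zero.1 (line_scalar hv _ h1)

end Line

section Descent

/-- Fixed vectors descend along a finite free extension. -/
theorem descent_fixed {𝒪 𝒪'' : Type} [CommRing 𝒪] [IsDomain 𝒪] [IsPrincipalIdealRing 𝒪]
    [CommRing 𝒪''] [IsDomain 𝒪''] [Algebra 𝒪 𝒪''] [Module.Finite 𝒪 𝒪'']
    (hinj : Function.Injective (algebraMap 𝒪 𝒪'')) {r : ℕ} {ι : Type*}
    (A : ι → Matrix (Fin r) (Fin r) 𝒪) (v : Fin r → 𝒪'') (hv : v ≠ 0)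
    (hfix : ∀ i, ((A i).map (algebraMap 𝒪 𝒪'')).mulVec v = v) :
    ∃ v₀ : Fin r → 𝒪, v₀ ≠ 0 ∧ ∀ i, (A i).mulVec v₀ = v₀ := by
  have : Module.IsTorsionFree 𝒪 𝒪'' := Module.isTorsionFree_iff_algebraMap_injective.2 hinj
  have : Module.Free 𝒪 𝒪'' := Module.free_of_finite_type_torsion_free'
  let b := Module.Free.chooseBasis 𝒪 𝒪''
  have hk : ∃ k, v k ≠ 0 := by
    by_contra hcon
    rw [not_exists] at hcon
    apply hv
    ext k
    exact not_not.1 (hcon k)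
  obtain ⟨k, hk⟩ := hk
  have hj : ∃ j, b.repr (v k) j ≠ 0 := by
    by_contra hcon
    rw [not_exists] at hcon
    apply hk
    apply b.repr.injective
    ext j
    rw [map_zero, Finsupp.zero_apply]
    exact not_not.1 (hcon j)
  obtain ⟨j, hj⟩ := hj
  refine ⟨fun m => b.coord j (v m), ?_, fun i => ?_⟩
  · intro h
    exact hj (congrFun h k)
  · ext m
    have h1 := congrFun (hfix i) m
    simp only [Matrix.mulVec, dotProduct, Matrix.map_apply] at h1 ⊢
    rw [← h1, map_sum]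
    refine Finset.sum_congr rfl (fun n _ => ?_)
    rw [← Algebra.smul_def, map_smul, smul_eq_mul]

end Descent

section MapLemmas

variable {R R' : Type} [CommRing R] [CommRing R'] {n : ℕ}

theorem map_quad (f : R →+* R') (A : Matrix (Fin n) (Fin n) R) (t e : R)
    (h : A * A - t • A + e • (1 : Matrix (Fin n) (Fin n) R) = 0) :
    A.map f * A.map f - f t • A.map f + f e • (1 : Matrix (Fin n) (Fin n) R') = 0 := by
  have h1 := congrArg (fun M => f.mapMatrix M) h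
  simp only [map_add, map_sub, map_mul, map_zero] at h1
  rw [RingHom.mapMatrix_apply] at h1
  have e1 : f.mapMatrix (t • A) = f t • A.map f := by
    ext i j
    simp [RingHom.mapMatrix_apply]
  have e2 : f.mapMatrix (e • (1 : Matrix (Fin n) (Fin n) R)) =
      f e • (1 : Matrix (Fin n) (Fin n) R') := by
    ext i j
    simp [RingHom.mapMatrix_apply, Matrix.one_apply]
    split_ifs <;> simp
  rw [e1, e2] at h1
  exact h1

theorem map_prod (f : R →+* R') (A : Matrix (Fin n) (Fin n) R) (cs : List R)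
    (h : (cs.map (fun c => A - c • (1 : Matrix (Fin n) (Fin n) R))).prod = 0) :
    ((cs.map f).map (fun c => A.map f - c • (1 : Matrix (Fin n) (Fin n) R'))).prod = 0 := by
  have h1 := congrArg (fun M => f.mapMatrix M) h
  simp only [map_zero, map_list_prod, List.map_map] at h1
  rw [List.map_map]
  rw [← h1]
  congr 1
  apply List.map_congr_left
  intro c _
  simp only [Function.comp_apply, map_sub]
  congr 1
  ext i j
  simp [RingHom.mapMatrix_apply, Matrix.one_apply]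
  split_ifs <;> simp

theorem map_one_of_eq_one (f : R →+* R') (A : Matrix (Fin n) (Fin n) R) (h : A = 1) :
    A.map f = 1 := by
  rw [h]
  ext i j
  simp [Matrix.one_apply]

theorem map_mulVec_map (f : R →+* R') (A : Matrix (Fin n) (Fin n) R) (v : Fin n → R) :
    (A.map f).mulVec (fun i => f (v i)) = fun i => f (A.mulVec v i) := by
  ext i
  simp [Matrix.mulVec, dotProduct, map_sum]

theorem charpoly_diag2 [Nontrivial R] (x y : R) :
    (Matrix.diagonal ![x, y]).charpoly = (X - C x) * (X - C y) := by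
  rw [Matrix.charpoly_fin_two]
  simp
  ring

end MapLemmas

section Struct

variable {R R' : Type} [CommRing R] [CommRing R'] [IsDomain R'] [Algebra R R']
  {G : Type} [Group G] {r : ℕ}

/-- The structural alternative of `Stmt_AssembleS`. -/
def Struct (ρ : G →* Matrix (Fin r) (Fin r) R) (ε : G →* Rˣ)
    (ρ₂ : G →* Matrix (Fin 2) (Fin 2) R') : Prop :=
  (∃ (P : Matrix (Fin r) (Fin 2) R') (Q : Matrix (Fin 2) (Fin r) R'),
      Q * P = 1 ∧ ∀ g : G, (ρ g).map (algebraMap R R') * P = P * ρ₂ g) ∨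
   (∃ (ψ : G →* R'ˣ) (v : Fin r → R'), v ≠ 0 ∧
      (∀ g : G, ((ρ g).map (algebraMap R R')).mulVec v = (ψ g : R') • v) ∧
      ∀ g : G, ρ₂ g =
        Matrix.diagonal ![(ψ g : R'),
          algebraMap R R' (ε g : R) * (((ψ g)⁻¹ : R'ˣ) : R')])

variable {ρ : G →* Matrix (Fin r) (Fin r) R} {ε : G →* Rˣ}
  {ρ₂ : G →* Matrix (Fin 2) (Fin 2) R'}

theorem algebraMap_unit_ne_zero (u : Rˣ) : algebraMap R R' (u : R) ≠ 0 := by
  have h : IsUnit (algebraMap R R' (u : R)) := (Units.isUnit u).map (algebraMap R R')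
  exact h.ne_zero

theorem struct_quad (hs : Struct ρ ε ρ₂) (hdet : ∀ g, (ρ₂ g).det = algebraMap R R' (ε g : R))
    (σ : G) (t : R)
    (h : ρ σ * ρ σ - t • ρ σ + (ε σ : R) • (1 : Matrix (Fin r) (Fin r) R) = 0) :
    (ρ₂ σ).charpoly = X ^ 2 - C (algebraMap R R' t) * X + C (algebraMap R R' (ε σ : R)) := by
  have h' := map_quad (algebraMap R R') _ _ _ h
  rcases hs with ⟨P, Q, hQP, hP⟩ | ⟨ψ, v, hv, hψ, hρ₂⟩
  · exact two_quad_charpoly _ _ _ (plane_quad hQP (hP σ) _ _ h') (hdet σ)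
      (algebraMap_unit_ne_zero _)
  · have hq := line_quad hv _ (hψ σ) _ _ h'
    rw [hρ₂ σ, charpoly_diag2]
    have hu : ((ψ σ : R'ˣ) : R') * (((ψ σ)⁻¹ : R'ˣ) : R') = 1 := by
      rw [← Units.val_mul, mul_inv_cancel, Units.val_one]
    have hsum : (ψ σ : R') + algebraMap R R' (ε σ : R) * (((ψ σ)⁻¹ : R'ˣ) : R') =
        algebraMap R R' t := by
      have h2 : ((ψ σ : R'ˣ) : R') *
          ((ψ σ : R') + algebraMap R R' (ε σ : R) * (((ψ σ)⁻¹ : R'ˣ) : R')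
            - algebraMap R R' t) = 0 := by
        calc ((ψ σ : R'ˣ) : R') *
            ((ψ σ : R') + algebraMap R R' (ε σ : R) * (((ψ σ)⁻¹ : R'ˣ) : R')
              - algebraMap R R' t)
            = ((ψ σ : R') * ψ σ - algebraMap R R' t * ψ σ) +
                algebraMap R R' (ε σ : R) * ((ψ σ : R') * (((ψ σ)⁻¹ : R'ˣ) : R')) := by ring
          _ = ((ψ σ : R') * ψ σ - algebraMap R R' t * ψ σ) + algebraMap R R' (ε σ : R) := by
                rw [hu, mul_one]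
          _ = 0 := hq
      exact sub_eq_zero.1 ((Units.mul_right_eq_zero (ψ σ)).1 h2)
    have hprod : (ψ σ : R') * (algebraMap R R' (ε σ : R) * (((ψ σ)⁻¹ : R'ˣ) : R')) =
        algebraMap R R' (ε σ : R) := by
      calc (ψ σ : R') * (algebraMap R R' (ε σ : R) * (((ψ σ)⁻¹ : R'ˣ) : R'))
          = algebraMap R R' (ε σ : R) * ((ψ σ : R') * (((ψ σ)⁻¹ : R'ˣ) : R')) := by ring
        _ = algebraMap R R' (ε σ : R) := by rw [hu, mul_one]
    have e1 : ∀ x y : R', (X - C x) * (X - C y) = X ^ 2 - C (x + y) * X + C (x * y) := by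
      intro x y
      simp only [C_add, C_mul]
      ring
    rw [e1, hsum, hprod]

theorem struct_prod (hs : Struct ρ ε ρ₂) (hdet : ∀ g, (ρ₂ g).det = algebraMap R R' (ε g : R))
    (σ : G) (cs : List R)
    (h : (cs.map (fun c => ρ σ - c • (1 : Matrix (Fin r) (Fin r) R))).prod = 0) :
    ∃ c ∈ cs, ∃ d : R', algebraMap R R' c * d = algebraMap R R' (ε σ : R) ∧
      (ρ₂ σ).charpoly = (X - C (algebraMap R R' c)) * (X - C d) := by
  have h' := map_prod (algebraMap R R') _ _ h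
  rcases hs with ⟨P, Q, hQP, hP⟩ | ⟨ψ, v, hv, hψ, hρ₂⟩
  · obtain ⟨c', hc', d, hcd, hcp⟩ := two_prod_charpoly _ _ (plane_prod hQP (hP σ) _ h')
    obtain ⟨c, hc, rfl⟩ := List.mem_map.1 hc'
    exact ⟨c, hc, d, by rw [hcd, hdet σ], hcp⟩
  · obtain ⟨c', hc', hψc⟩ := line_prod hv _ (hψ σ) _ h'
    obtain ⟨c, hc, rfl⟩ := List.mem_map.1 hc'
    have hu : ((ψ σ : R'ˣ) : R') * (((ψ σ)⁻¹ : R'ˣ) : R') = 1 := by
      rw [← Units.val_mul, mul_inv_cancel, Units.val_one]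
    refine ⟨c, hc, algebraMap R R' (ε σ : R) * (((ψ σ)⁻¹ : R'ˣ) : R'), ?_, ?_⟩
    · rw [← hψc]
      calc (ψ σ : R') * (algebraMap R R' (ε σ : R) * (((ψ σ)⁻¹ : R'ˣ) : R'))
          = algebraMap R R' (ε σ : R) * ((ψ σ : R') * (((ψ σ)⁻¹ : R'ˣ) : R')) := by ring
        _ = algebraMap R R' (ε σ : R) := by rw [hu, mul_one]
    · rw [hρ₂ σ, charpoly_diag2, hψc]

theorem struct_one (hs : Struct ρ ε ρ₂) (σ : G) (h : ρ σ = 1) (hε : ε σ = 1) : ρ₂ σ = 1 := by
  have h' := map_one_of_eq_one (algebraMap R R') _ h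
  rcases hs with ⟨P, Q, hQP, hP⟩ | ⟨ψ, v, hv, hψ, hρ₂⟩
  · exact plane_one hQP (hP σ) h'
  · have h1 := line_one hv _ (hψ σ) h'
    have h2 : ψ σ = 1 := Units.ext h1
    rw [hρ₂ σ, hε, h2]
    simp only [Units.val_one, map_one, inv_one, mul_one]
    ext i j
    fin_cases i <;> fin_cases j <;> simp

end Struct

section StructNU

variable {R R' : Type} [CommRing R] [IsDomain R] [IsPrincipalIdealRing R]
  [CommRing R'] [IsDomain R'] [Algebra R R'] [Module.Finite R R']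
  {G : Type} [Group G] {r : ℕ}
  {ρ : G →* Matrix (Fin r) (Fin r) R} {ε : G →* Rˣ}
  {ρ₂ : G →* Matrix (Fin 2) (Fin 2) R'}

theorem struct_NU (hinj : Function.Injective (algebraMap R R')) (h2 : (2 : R') ≠ 0)
    (hs : Struct ρ ε ρ₂) (H : Subgroup G)
    (hNU : ∀ v : Fin r → R, (∀ σ ∈ H, (ρ σ).mulVec v = v) → v = 0) :
    ∃ σ ∈ H, (ρ₂ σ).charpoly ≠ (X - 1) ^ 2 := by
  by_contra hcon
  have hU : ∀ σ ∈ H, (ρ₂ σ).charpoly = (X - 1) ^ 2 := by
    intro σ hσ
    by_contra hne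
    exact hcon ⟨σ, hσ, hne⟩
  -- a nonzero vector of `R'^r` fixed by `H`
  have hv : ∃ v : Fin r → R', v ≠ 0 ∧
      ∀ σ : H, ((ρ (σ : G)).map (algebraMap R R')).mulVec v = v := by
    rcases hs with ⟨P, Q, hQP, hP⟩ | ⟨ψ, v, hv, hψ, hρ₂⟩
    · obtain ⟨w, hw, hfix⟩ := kolchin_two ρ₂ h2 H hU
      exact ⟨P.mulVec w, plane_ne_zero hQP w hw,
        fun σ => plane_fixed (hP σ) w (hfix σ σ.2)⟩
    · refine ⟨v, hv, fun σ => ?_⟩
      have h1 := hU σ σ.2
      rw [hρ₂ σ, charpoly_diag2] at h1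
      have h3 := congrArg (fun p : R'[X] => p.eval ((ψ (σ : G) : R'ˣ) : R')) h1
      simp only [eval_mul, eval_sub, eval_X, eval_C, sub_self, zero_mul, eval_pow,
        eval_one] at h3
      have h4 : ((ψ (σ : G) : R'ˣ) : R') = 1 :=
        sub_eq_zero.1 ((pow_eq_zero_iff (two_ne_zero)).1 h3.symm)
      rw [hψ σ, h4, one_smul]
  obtain ⟨v, hv0, hfix⟩ := hv
  obtain ⟨v₀, hv₀, hfix₀⟩ := descent_fixed hinj (fun σ : H => ρ (σ : G)) v hv0 hfix
  exact hv₀ (hNU v₀ (fun σ hσ => hfix₀ ⟨σ, hσ⟩))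

end StructNU

end H89

open H89 in
/-- **All transfer clauses from the structural assembly.** -/
theorem assembleX_of_assembleS (hS : Stmt_AssembleS) : Stmt_AssembleX := by
  intro 𝒪 _ _ _ _ _ _ S a r hr ρ ε hρ hε hES hCyc
  obtain ⟨𝒪'', i1, i2, i3, i4, i5, i6, i7, i8, i9, hinj, ρ₂, hc, hdet, hstruct⟩ :=
    hS 𝒪 S a r hr ρ ε hρ hε hES hCyc
  have hs : H89.Struct ρ ε ρ₂ := hstruct
  refine ⟨𝒪'', i1, i2, i3, i4, i5, i6, i7, i8, i9, hinj,
    { V := Fin 2 → 𝒪''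
      finrank_eq := by simp
      ρ := Fermat.Agent.S30.H2.matToEnd ρ₂
      isAdicContinuous := Fermat.Agent.S30.H2.matToEnd_adicContinuous ρ₂ hc }, ?_, ?_, ?_, ?_, ?_⟩
  · -- (F)
    intro ℓ hℓ hℓS A hA σ hσ
    show LinearMap.charpoly (Matrix.toLin' (ρ₂ σ)) = _
    rw [Matrix.charpoly_toLin']
    have h1 := hES ℓ hℓ hℓS A hA σ hσ
    have h2 : ((ε σ : 𝒪ˣ) : 𝒪) = (ℓ : 𝒪) := hCyc ℓ hℓ hℓS A hA σ hσ
    rw [← h2] at h1
    rw [H89.struct_quad hs hdet σ (a ℓ) h1, h2, map_natCast]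
  · -- (T)
    intro σ h1 h2
    show Matrix.toLin' (ρ₂ σ) = 1
    rw [H89.struct_one hs σ h1 h2, Matrix.toLin'_one]
    rfl
  · -- (Q)
    intro σ t h
    show LinearMap.charpoly (Matrix.toLin' (ρ₂ σ)) = _
    rw [Matrix.charpoly_toLin']
    exact H89.struct_quad hs hdet σ t h
  · -- (P)
    intro σ cs h
    obtain ⟨c, hc, d, hcd, hcp⟩ := H89.struct_prod hs hdet σ cs h
    refine ⟨c, hc, d, hcd, ?_⟩
    show LinearMap.charpoly (Matrix.toLin' (ρ₂ σ)) = _
    rw [Matrix.charpoly_toLin']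
    exact hcp
  · -- (N)
    intro H hNU
    have h2 : (2 : 𝒪'') ≠ 0 := two_ne_zero
    obtain ⟨σ, hσ, hne⟩ := H89.struct_NU hinj h2 hs H hNU
    refine ⟨σ, hσ, ?_⟩
    show LinearMap.charpoly (Matrix.toLin' (ρ₂ σ)) ≠ _
    rw [Matrix.charpoly_toLin']
    exact hne

/-- The assembly statement of the S30 wiring follows from the extended one. -/
theorem assemble_of_assembleX (hX : Stmt_AssembleX) : Fermat.Agent.S30.Stmt_Assemble := by
  intro 𝒪 _ _ _ _ _ _ S a r hr ρ ε hρ hε hES hCyc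
  obtain ⟨𝒪'', i1, i2, i3, i4, i5, i6, i7, i8, i9, hinj, ρ'', hF, hT, hQ, -, -⟩ :=
    hX 𝒪 S a r hr ρ ε hρ hε hES hCyc
  refine ⟨𝒪'', i1, i2, i3, i4, i5, i6, i7, i8, i9, hinj, ρ'', hF, hT, ?_⟩
  intro σ h1 h2
  have h3 : ρ σ * ρ σ - (2 : 𝒪) • ρ σ + ((ε σ : 𝒪ˣ) : 𝒪) • (1 : Matrix (Fin r) (Fin r) 𝒪) = 0 := by
    rw [h2, Units.val_one, one_smul]
    have : (ρ σ - 1) ^ 2 = ρ σ * ρ σ - (2 : 𝒪) • ρ σ + 1 := by
      rw [pow_two, Matrix.sub_mul, Matrix.mul_sub, Matrix.mul_sub, Matrix.mul_one,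
        Matrix.one_mul, Matrix.one_mul, two_smul]
      abel
    rw [← this, h1]
  rw [hQ σ 2 h3, h2, Units.val_one, map_one, map_ofNat]
  have e2 : (C (2 : 𝒪'') : 𝒪''[X]) = 2 := by
    rw [← Nat.cast_ofNat, map_natCast]; rfl
  rw [e2, map_one]
  ring

end Fermat.Agent.S35
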