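import Mathlib
import Fermat.Prelude.Def_CuspForm_HeckeGaloisRepDatum
import Fermat.Prelude.Def_CuspForm_Newforms
import Fermat.Prelude.Def_GaloisRep_LocalConditions
import Fermat.Prelude.Def_GaloisRep_Residual
import Fermat.Agent.S35.H89_Transfer
import Fermat.Agent.R.H89_CycChar

/-!
# S35 and S36 from enriched Tate pieces (helper89; cluster R)

Interfaces to the geometry (item 65, BAD):

* `Stmt_TatePieceSt` : for the eigensystem of a NEWFORM `g` of level `M`, an Eichler–Shimura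
  piece `ρ` (any rank) such that at the primes `q ∥ M`, `q ≠ lam`, every Frobenius lift `φ`
  satisfies `(ρ φ - 1)(ρ φ + 1)(ρ φ - q)(ρ φ + q) = 0`.
* `Stmt_TatePieceNU` : the same with: at the primes `q² ∥ M`, `q ≠ lam`, some inertia group at
  `q` has no nonzero fixed vector.

Wirings (sorry-free):

* `s35_of : Stmt_AssembleS → Stmt_TatePieceSt → <frozen type of S35>`
* `s36_of : Stmt_AssembleS → Stmt_TatePieceNU → <frozen type of S36>`
-/

set_option autoImplicit false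

open Polynomial
open CuspForm CuspForm.IsNewform

namespace Fermat.Agent.S35

open Fermat.Agent.S30

/-- **Interface to the geometry, Steinberg primes.** -/
def Stmt_TatePieceSt : Prop :=
  ∀ {M : ℕ} [NeZero M] {g : CuspForm (CongruenceSubgroup.Gamma0 M) 2} (_hg : g.IsNewform)
    (lam : ℕ) [Fact lam.Prime]
    (S : Finset ℕ)
    (O' : Type) [CommRing O'] [IsDomain O'] [IsDiscreteValuationRing O']
    [IsAdicComplete (IsLocalRing.maximalIdeal O') O'] [Finite (IsLocalRing.ResidueField O')]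
    [CharZero O'] (_hlamO' : (lam : O') ∈ IsLocalRing.maximalIdeal O')
    (chig : CuspForm.heckeAlgebra M 2 (↑S : Set ℕ) →+* ℂ)
    (_hchig : ∀ (ℓ : ℕ) (hℓ : ℓ.Prime) (hℓM : ¬ ℓ ∣ M) (hℓS : ℓ ∉ (↑S : Set ℕ)),
      chig (CuspForm.heckeAlgebra.T hℓ hℓM hℓS) = ModularFormClass.qCoeff g ℓ)
    (iota : chig.range →+* O')
    (_hlamS : lam ∈ S) (_hMS : ∀ q : ℕ, q.Prime → q ∣ M → q ∈ S),
    ∃ (r : ℕ) (ρ : GQ →* Matrix (Fin r) (Fin r) O'), 0 < r ∧ MatAdicCont ρ ∧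
      (∀ (ℓ : ℕ) (hℓ : ℓ.Prime) (hℓM : ¬ ℓ ∣ M) (hℓS : ℓ ∉ (↑S : Set ℕ)),
        ∀ A : ValuationSubring (AlgebraicClosure ℚ), A.LiesOverPrime ℓ →
          ∀ σ : GQ, A.IsFrobeniusAt σ ℓ →
            ρ σ * ρ σ - (iota.comp chig.rangeRestrict) (CuspForm.heckeAlgebra.T hℓ hℓM hℓS) • ρ σ
              + (ℓ : O') • (1 : Matrix _ _ O') = 0) ∧
      (∀ q : ℕ, q.Prime → q ≠ lam → q ∣ M → ¬ q ^ 2 ∣ M →
        ∀ A : ValuationSubring (AlgebraicClosure ℚ), A.LiesOverPrime q →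
          ∀ σ : GQ, A.IsFrobeniusAt σ q →
            (([1, -1, (q : O'), -(q : O')] : List O').map
              (fun c => ρ σ - c • (1 : Matrix (Fin r) (Fin r) O'))).prod = 0)

/-- **Interface to the geometry, primes `q² ∥ M`.** -/
def Stmt_TatePieceNU : Prop :=
  ∀ {M : ℕ} [NeZero M] {g : CuspForm (CongruenceSubgroup.Gamma0 M) 2} (_hg : g.IsNewform)
    (lam : ℕ) [Fact lam.Prime]
    (S : Finset ℕ)
    (O' : Type) [CommRing O'] [IsDomain O'] [IsDiscreteValuationRing O']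
    [IsAdicComplete (IsLocalRing.maximalIdeal O') O'] [Finite (IsLocalRing.ResidueField O')]
    [CharZero O'] (_hlamO' : (lam : O') ∈ IsLocalRing.maximalIdeal O')
    (chig : CuspForm.heckeAlgebra M 2 (↑S : Set ℕ) →+* ℂ)
    (_hchig : ∀ (ℓ : ℕ) (hℓ : ℓ.Prime) (hℓM : ¬ ℓ ∣ M) (hℓS : ℓ ∉ (↑S : Set ℕ)),
      chig (CuspForm.heckeAlgebra.T hℓ hℓM hℓS) = ModularFormClass.qCoeff g ℓ)
    (iota : chig.range →+* O')
    (_hlamS : lam ∈ S) (_hMS : ∀ q : ℕ, q.Prime → q ∣ M → q ∈ S),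
    ∃ (r : ℕ) (ρ : GQ →* Matrix (Fin r) (Fin r) O'), 0 < r ∧ MatAdicCont ρ ∧
      (∀ (ℓ : ℕ) (hℓ : ℓ.Prime) (hℓM : ¬ ℓ ∣ M) (hℓS : ℓ ∉ (↑S : Set ℕ)),
        ∀ A : ValuationSubring (AlgebraicClosure ℚ), A.LiesOverPrime ℓ →
          ∀ σ : GQ, A.IsFrobeniusAt σ ℓ →
            ρ σ * ρ σ - (iota.comp chig.rangeRestrict) (CuspForm.heckeAlgebra.T hℓ hℓM hℓS) • ρ σ
              + (ℓ : O') • (1 : Matrix _ _ O') = 0) ∧
      (∀ q : ℕ, q.Prime → q ≠ lam → M.factorization q = 2 →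
        ∃ P : ValuationSubring (AlgebraicClosure ℚ), P.LiesOverPrime q ∧
          ∀ v : Fin r → O', (∀ σ ∈ P.inertiaSubgroupIn ℚ, (ρ σ).mulVec v = v) → v = 0)

namespace H89

open Classical in
/-- The eigenvalue function of an eigensystem, extended by `0`. -/
noncomputable def aOf {M : ℕ} [NeZero M] (S : Finset ℕ) {O' : Type} [CommRing O']
    (χ : CuspForm.heckeAlgebra M 2 (↑S : Set ℕ) →+* O') (ℓ : ℕ) : O' :=
  if h : ℓ.Prime ∧ ¬ ℓ ∣ M ∧ ℓ ∉ (↑S : Set ℕ) then χ (CuspForm.heckeAlgebra.T h.1 h.2.1 h.2.2)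
  else 0

theorem aOf_eq {M : ℕ} [NeZero M] (S : Finset ℕ) {O' : Type} [CommRing O']
    (χ : CuspForm.heckeAlgebra M 2 (↑S : Set ℕ) →+* O') (ℓ : ℕ) (hℓ : ℓ.Prime) (hℓM : ¬ ℓ ∣ M)
    (hℓS : ℓ ∉ (↑S : Set ℕ)) : aOf S χ ℓ = χ (CuspForm.heckeAlgebra.T hℓ hℓM hℓS) := by
  unfold aOf
  rw [dif_pos ⟨hℓ, hℓM, hℓS⟩]

/-- The common core: an Eichler–Shimura piece gives the hypotheses of the assembly. -/
theorem core {M : ℕ} [NeZero M] (lam : ℕ) [Fact lam.Prime] (S : Finset ℕ)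
    (O' : Type) [CommRing O'] [IsDomain O'] [IsDiscreteValuationRing O']
    [IsAdicComplete (IsLocalRing.maximalIdeal O') O'] [Finite (IsLocalRing.ResidueField O')]
    [CharZero O'] (hlamO' : (lam : O') ∈ IsLocalRing.maximalIdeal O')
    (χ : CuspForm.heckeAlgebra M 2 (↑S : Set ℕ) →+* O')
    (hlamS : lam ∈ S) (hMS : ∀ q : ℕ, q.Prime → q ∣ M → q ∈ S)
    (r : ℕ) (ρ : GQ →* Matrix (Fin r) (Fin r) O')
    (hES : ∀ (ℓ : ℕ) (hℓ : ℓ.Prime) (hℓM : ¬ ℓ ∣ M) (hℓS : ℓ ∉ (↑S : Set ℕ)),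
        ∀ A : ValuationSubring (AlgebraicClosure ℚ), A.LiesOverPrime ℓ →
          ∀ σ : GQ, A.IsFrobeniusAt σ ℓ →
            ρ σ * ρ σ - χ (CuspForm.heckeAlgebra.T hℓ hℓM hℓS) • ρ σ
              + (ℓ : O') • (1 : Matrix _ _ O') = 0) :
    ∃ ε : GQ →* O'ˣ, CharAdicCont ε ∧ CharCycAt ε S ∧ MatES ρ (aOf S χ) S ∧
      ∀ q : ℕ, q.Prime → q ≠ lam →
        ∀ A : ValuationSubring (AlgebraicClosure ℚ), A.LiesOverPrime q →
          ∀ σ : GQ, A.IsFrobeniusAt σ q → ((ε σ : O'ˣ) : O') = (q : O') := by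
  obtain ⟨ε, hε1, hε2, -⟩ :=
    Fermat.Agent.R.H89.stmt_CycChar lam O' hlamO' {lam} (Finset.mem_singleton_self lam)
  refine ⟨ε, hε1, ?_, ?_, ?_⟩
  · intro ℓ hℓ hℓS A hA σ hσ
    refine hε2 ℓ hℓ ?_ A hA σ hσ
    intro h
    rw [Finset.mem_singleton] at h
    exact hℓS (h ▸ hlamS)
  · intro ℓ hℓ hℓS A hA σ hσ
    have hℓM : ¬ ℓ ∣ M := fun h => hℓS (hMS ℓ hℓ h)
    have hℓS' : ℓ ∉ (↑S : Set ℕ) := fun h => hℓS (Finset.mem_coe.1 h)
    rw [aOf_eq S χ ℓ hℓ hℓM hℓS']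
    exact hES ℓ hℓ hℓM hℓS' A hA σ hσ
  · intro q hq hqlam A hA σ hσ
    refine hε2 q hq ?_ A hA σ hσ
    intro h
    rw [Finset.mem_singleton] at h
    exact hqlam h

end H89

/-- **S35 from the structural assembly and the Steinberg Tate piece.** -/
theorem s35_of (hS : Stmt_AssembleS) (hT : Stmt_TatePieceSt)
    {M : ℕ} [NeZero M] {g : CuspForm (CongruenceSubgroup.Gamma0 M) 2} (hg : g.IsNewform)
    (lam : ℕ) [Fact lam.Prime]
    (S : Finset ℕ)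
    (O' : Type) [CommRing O'] [IsDomain O'] [IsDiscreteValuationRing O']
    [IsAdicComplete (IsLocalRing.maximalIdeal O') O'] [Finite (IsLocalRing.ResidueField O')]
    [CharZero O'] (hlamO' : (lam : O') ∈ IsLocalRing.maximalIdeal O')
    (chig : CuspForm.heckeAlgebra M 2 (↑S : Set ℕ) →+* ℂ)
    (hchig : ∀ (ℓ : ℕ) (hℓ : ℓ.Prime) (hℓM : ¬ ℓ ∣ M) (hℓS : ℓ ∉ (↑S : Set ℕ)),
      chig (CuspForm.heckeAlgebra.T hℓ hℓM hℓS) = ModularFormClass.qCoeff g ℓ)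
    (iota : chig.range →+* O')
    (hlamS : lam ∈ S) (hMS : ∀ q : ℕ, q.Prime → q ∣ M → q ∈ S)
    :
    ∃ (O'' : Type) (_ : CommRing O'') (_ : IsDomain O'') (_ : IsDiscreteValuationRing O'')
      (_ : IsAdicComplete (IsLocalRing.maximalIdeal O'') O'') (_ : Finite (IsLocalRing.ResidueField O''))
      (_ : CharZero O'') (_ : Algebra O' O'') (_ : Module.Finite O' O'') (_ : IsLocalHom (algebraMap O' O'')),
      Function.Injective (algebraMap O' O'') ∧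
      ∃ ρ : GaloisRepAdic O'',
        (∀ (ℓ : ℕ) (hℓ : ℓ.Prime) (hℓM : ¬ ℓ ∣ M) (hℓS : ℓ ∉ (↑S : Set ℕ)),
          ∀ A : ValuationSubring (AlgebraicClosure ℚ), A.LiesOverPrime ℓ →
            ∀ σ : AlgebraicClosure ℚ ≃ₐ[ℚ] AlgebraicClosure ℚ, A.IsFrobeniusAt σ ℓ →
              LinearMap.charpoly (ρ.ρ σ) =
                X ^ 2 - C (algebraMap O' O'' ((iota.comp chig.rangeRestrict) (CuspForm.heckeAlgebra.T hℓ hℓM hℓS))) * X
                  + C ((ℓ : O''))) ∧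
        (∀ q : ℕ, q.Prime → q ≠ lam → q ∣ M → ¬ q ^ 2 ∣ M →
          ∀ A : ValuationSubring (AlgebraicClosure ℚ), A.LiesOverPrime q →
            ∀ σ : AlgebraicClosure ℚ ≃ₐ[ℚ] AlgebraicClosure ℚ, A.IsFrobeniusAt σ q →
              LinearMap.charpoly (ρ.ρ σ) = X ^ 2 - C ((q : O'') + 1) * X + C ((q : O'')) ∨
              LinearMap.charpoly (ρ.ρ σ) = X ^ 2 + C ((q : O'') + 1) * X + C ((q : O''))) := by
  obtain ⟨r, ρ, hr, hcont, hES, hSt⟩ := hT hg lam S O' hlamO' chig hchig iota hlamS hMS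
  obtain ⟨ε, hε1, hε2, hES', hεq⟩ :=
    H89.core lam S O' hlamO' (iota.comp chig.rangeRestrict) hlamS hMS r ρ hES
  obtain ⟨O'', i1, i2, i3, i4, i5, i6, i7, i8, i9, hinj, ρ'', hF, -, -, hP, -⟩ :=
    assembleX_of_assembleS hS O' S (H89.aOf S (iota.comp chig.rangeRestrict)) r hr ρ ε
      hcont hε1 hES' hε2
  refine ⟨O'', i1, i2, i3, i4, i5, i6, i7, i8, i9, hinj, ρ'', ?_, ?_⟩
  · intro ℓ hℓ hℓM hℓS A hA σ hσ
    have hℓS' : ℓ ∉ S := fun h => hℓS (Finset.mem_coe.2 h)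
    rw [hF ℓ hℓ hℓS' A hA σ hσ, H89.aOf_eq S _ ℓ hℓ hℓM hℓS]
  · intro q hq hqlam hqM hq2 A hA σ hσ
    obtain ⟨c, hc, d, hcd, hcp⟩ := hP σ _ (hSt q hq hqlam hqM hq2 A hA σ hσ)
    rw [hεq q hq hqlam A hA σ hσ, map_natCast] at hcd
    have hq0 : (q : O'') ≠ 0 := Nat.cast_ne_zero.2 hq.ne_zero
    simp only [List.mem_cons, List.not_mem_nil, or_false] at hc
    rcases hc with rfl | rfl | rfl | rfl
    · -- c = 1, d = q
      left
      rw [map_one, one_mul] at hcd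
      rw [hcp, map_one, hcd]
      simp only [map_add, map_one]
      ring
    · -- c = -1, d = -q
      right
      rw [map_neg, map_one] at hcd
      have hd : d = -(q : O'') := by linear_combination -hcd
      rw [hcp, map_neg, map_one, hd]
      simp only [map_add, map_one, map_neg]
      ring
    · -- c = q, d = 1
      left
      rw [map_natCast] at hcd
      have hd : d = 1 := by
        have : (q : O'') * (d - 1) = 0 := by linear_combination hcd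
        exact sub_eq_zero.1 ((mul_eq_zero.1 this).resolve_left hq0)
      rw [hcp, map_natCast, hd]
      simp only [map_add, map_one]
      ring
    · -- c = -q, d = -1
      right
      rw [map_neg, map_natCast] at hcd
      have hd : d = -1 := by
        have : (q : O'') * (d + 1) = 0 := by linear_combination -hcd
        exact eq_neg_of_add_eq_zero_left ((mul_eq_zero.1 this).resolve_left hq0)
      rw [hcp, map_neg, map_natCast, hd]
      simp only [map_add, map_one, map_neg]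
      ring

/-- **S36 from the structural assembly and the Tate piece without inertia invariants.** -/
theorem s36_of (hS : Stmt_AssembleS) (hT : Stmt_TatePieceNU)
    {M : ℕ} [NeZero M] {g : CuspForm (CongruenceSubgroup.Gamma0 M) 2} (hg : g.IsNewform)
    (lam : ℕ) [Fact lam.Prime]
    (S : Finset ℕ)
    (O' : Type) [CommRing O'] [IsDomain O'] [IsDiscreteValuationRing O']
    [IsAdicComplete (IsLocalRing.maximalIdeal O') O'] [Finite (IsLocalRing.ResidueField O')]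
    [CharZero O'] (hlamO' : (lam : O') ∈ IsLocalRing.maximalIdeal O')
    (_hlam2 : lam ≠ 2)
    (chig : CuspForm.heckeAlgebra M 2 (↑S : Set ℕ) →+* ℂ)
    (hchig : ∀ (ℓ : ℕ) (hℓ : ℓ.Prime) (hℓM : ¬ ℓ ∣ M) (hℓS : ℓ ∉ (↑S : Set ℕ)),
      chig (CuspForm.heckeAlgebra.T hℓ hℓM hℓS) = ModularFormClass.qCoeff g ℓ)
    (iota : chig.range →+* O')
    (hlamS : lam ∈ S) (hMS : ∀ q : ℕ, q.Prime → q ∣ M → q ∈ S)
    (_hres : ∀ (O'' : Type) [CommRing O''] [IsDomain O''] [IsDiscreteValuationRing O'']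
      [IsAdicComplete (IsLocalRing.maximalIdeal O'') O''] [Finite (IsLocalRing.ResidueField O'')] [CharZero O'']
      [Algebra O' O''] [Module.Finite O' O''] [IsLocalHom (algebraMap O' O'')],
      Function.Injective (algebraMap O' O'') → ∀ (ρ : GaloisRepAdic O''),
      (∀ (ℓ : ℕ) (hℓ : ℓ.Prime) (_hℓlam : ℓ ≠ lam) (hℓM : ¬ ℓ ∣ M) (hℓS : ℓ ∉ (↑S : Set ℕ)),
        ∀ A : ValuationSubring (AlgebraicClosure ℚ), A.LiesOverPrime ℓ →
          ∀ σ : AlgebraicClosure ℚ ≃ₐ[ℚ] AlgebraicClosure ℚ, A.IsFrobeniusAt σ ℓ →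
            LinearMap.charpoly (ρ.ρ σ) =
              X ^ 2 - C (algebraMap O' O'' ((iota.comp chig.rangeRestrict) (CuspForm.heckeAlgebra.T hℓ hℓM hℓS))) * X
                + C ((ℓ : O'')))
      → ρ.residual.IsAbsolutelyIrreducible ∧ ρ.residual.IsOdd)
    :
    ∃ (O'' : Type) (_ : CommRing O'') (_ : IsDomain O'') (_ : IsDiscreteValuationRing O'')
      (_ : IsAdicComplete (IsLocalRing.maximalIdeal O'') O'') (_ : Finite (IsLocalRing.ResidueField O''))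
      (_ : CharZero O'') (_ : Algebra O' O'') (_ : Module.Finite O' O'') (_ : IsLocalHom (algebraMap O' O'')),
      Function.Injective (algebraMap O' O'') ∧
      ∃ ρ : GaloisRepAdic O'',
        (∀ (ℓ : ℕ) (hℓ : ℓ.Prime) (hℓM : ¬ ℓ ∣ M) (hℓS : ℓ ∉ (↑S : Set ℕ)),
          ∀ A : ValuationSubring (AlgebraicClosure ℚ), A.LiesOverPrime ℓ →
            ∀ σ : AlgebraicClosure ℚ ≃ₐ[ℚ] AlgebraicClosure ℚ, A.IsFrobeniusAt σ ℓ →
              LinearMap.charpoly (ρ.ρ σ) =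
                X ^ 2 - C (algebraMap O' O'' ((iota.comp chig.rangeRestrict) (CuspForm.heckeAlgebra.T hℓ hℓM hℓS))) * X
                  + C ((ℓ : O''))) ∧
        (∀ q : ℕ, q.Prime → q ≠ lam → M.factorization q = 2 → ¬ ρ.IsUnipotentOnInertiaAt q) := by
  obtain ⟨r, ρ, hr, hcont, hES, hNU⟩ := hT hg lam S O' hlamO' chig hchig iota hlamS hMS
  obtain ⟨ε, hε1, hε2, hES', -⟩ :=
    H89.core lam S O' hlamO' (iota.comp chig.rangeRestrict) hlamS hMS r ρ hES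
  obtain ⟨O'', i1, i2, i3, i4, i5, i6, i7, i8, i9, hinj, ρ'', hF, -, -, -, hN⟩ :=
    assembleX_of_assembleS hS O' S (H89.aOf S (iota.comp chig.rangeRestrict)) r hr ρ ε
      hcont hε1 hES' hε2
  refine ⟨O'', i1, i2, i3, i4, i5, i6, i7, i8, i9, hinj, ρ'', ?_, ?_⟩
  · intro ℓ hℓ hℓM hℓS A hA σ hσ
    have hℓS' : ℓ ∉ S := fun h => hℓS (Finset.mem_coe.2 h)
    rw [hF ℓ hℓ hℓS' A hA σ hσ, H89.aOf_eq S _ ℓ hℓ hℓM hℓS]
  · intro q hq hqlam hq2 hU
    obtain ⟨P, hP, hfix⟩ := hNU q hq hqlam hq2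
    obtain ⟨σ, hσ, hne⟩ := hN (P.inertiaSubgroupIn ℚ) hfix
    exact hne (hU P hP σ hσ)

end Fermat.Agent.S35
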