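import Fermat.Agent.RED.H17_FF
import Fermat.Prelude.Def_AlgebraicCurve_BaseChangeGalois

/-!
# S35, package FROB-FIN (helper89): finiteness of the Frobenius-fixed divisor classes

`E / k` a function field over an algebraically closed field, `Φ` a semilinear automorphism of
`E` acting on `k` by `a ↦ a ^ Q` (`Q > 1`; e.g. `k = 𝔽̄_q`, `E` the function field of
`X₀(M)` over `k` inside `k((t))`, `Φ` = the square of the coefficientwise Frobenius, `Q = q²`),
fixing a non-constant function.  Then only finitely many classes of `Pic⁰(E)` are fixed by `Φ`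
("`Pic⁰(X)(𝔽_Q)` is finite").

Proof (elementary, no Jacobian):
1. (fixed vector) a `Φ`-semilinear injective additive self-map `Ψ` of a non-zero
   finite-dimensional `k`-space has a non-zero fixed vector: on the cyclic subspace of `v₀` with
   `Ψ^m v₀ = ∑_{i<m} b_i Ψ^i v₀` look for `w = ∑ c_i Ψ^i v₀`; `Ψ w = w` becomes one polynomial
   equation `R(c) = 0`, `R = ∑ b_i^{Q^{m-1-i}} X^{Q^{m-i} - 1} - 1`, `R(0) = -1`, `R` not
   constant (`Ψ` injective), so `R` has a root, which is not `0`.
2. `A` := a large multiple of the pole divisor of the fixed function `x` (`Φ • A = A`).  If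
   `Φ • [D] = [D]`, `Φ • D = D + div u`, then `Ψ f = u · Φ f` is such a map on `L(D + A) ≠ 0`
   (Riemann), a fixed vector `f` gives `E' = D + A + div f ≥ 0` with `Φ • E' = E'`.
3. The support of `E'` consists of places fixed by `Φ^{d!}`, `d = deg A`; a place `v` fixed by
   `Θ = Φ^N` which is not a pole of `x` has `x(v)^{Q^N} = x(v)`: finitely many values, finitely
   many places over each.  So there are finitely many such `E'`.

This file contains the statement only.
-/

set_option autoImplicit false

noncomputable section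

open AlgebraicCurve

namespace Fermat.Agent.S35.H89

open Fermat.Agent.RED.H17

/-- **FROB-FIN**: finitely many classes of `Pic⁰` are fixed by a Frobenius-semilinear
automorphism which fixes a non-constant function. -/
def Stmt_FrobFin : Prop :=
  ∀ (k E : Type) [Field k] [Field E] [Algebra k E] [IsAlgClosed k],
    FFHyp k E → ∀ (g : ℕ) (c : ℤ), IsGenus k E g c →
    ∀ (Φ : SemilinearAut k E) (Q : ℕ), 1 < Q → (∀ a : k, SemilinearAut.baseAut Φ a = a ^ Q) →
    (∃ x : E, x ∉ Set.range (algebraMap k E) ∧ Φ • x = x) →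
    Set.Finite {y : Pic0 k E | Φ • y = y}

/-- The form used for S35: the `Φ`-fixed `p`-power torsion classes have bounded exponent. -/
def Stmt_FrobFinExp : Prop :=
  ∀ (k E : Type) [Field k] [Field E] [Algebra k E] [IsAlgClosed k],
    FFHyp k E → ∀ (g : ℕ) (c : ℤ), IsGenus k E g c →
    ∀ (Φ : SemilinearAut k E) (Q : ℕ), 1 < Q → (∀ a : k, SemilinearAut.baseAut Φ a = a ^ Q) →
    (∃ x : E, x ∉ Set.range (algebraMap k E) ∧ Φ • x = x) →
    ∀ p : ℕ, ∃ e : ℕ, ∀ y : Pic0 k E, Φ • y = y → (∃ m : ℕ, p ^ m • y = 0) → p ^ e • y = 0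

/-- `Stmt_FrobFin` implies `Stmt_FrobFinExp`. -/
theorem frobFinExp_of (h : Stmt_FrobFin) : Stmt_FrobFinExp := by
  intro k E _ _ _ _ H g c hg Φ Q hQ hΦ hx p
  have hfin := h k E H g c hg Φ Q hQ hΦ hx
  classical
  -- the finite set of fixed classes; for each a minimal exponent
  let S : Finset (Pic0 k E) := hfin.toFinset
  let ex : Pic0 k E → ℕ := fun y => if hy : ∃ m : ℕ, p ^ m • y = 0 then Nat.find hy else 0
  refine ⟨S.sup ex, fun y hy hm => ?_⟩
  have hyS : y ∈ S := hfin.mem_toFinset.2 hy
  have hle : ex y ≤ S.sup ex := Finset.le_sup hyS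
  have hex : p ^ ex y • y = 0 := by
    simp only [ex, dif_pos hm]
    exact Nat.find_spec hm
  obtain ⟨d, hd⟩ := Nat.exists_eq_add_of_le hle
  rw [hd, pow_add, mul_comm, mul_smul, hex, smul_zero]

end Fermat.Agent.S35.H89
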