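import Fermat.Agent.S35.H89_GlueGen

/-!
# S35 (helper89): the abstract Steinberg relation `(τ - 1)(τ - Q) = 0` on `q`-new classes

Setting: helper28's semistable Deuring datum `S` for `F / K` with both residue fields equal to
`E / k` (modular: `F = F_{Mq} ℚ̄`, `E` = the function field of `X₀(M)` over `k = 𝔽̄_q`,
`red₂ = red₁ ∘ w_q`), a Frobenius-like `τ` (modular: `τ = φ²`, `Q = q²`) inducing `φ̄²` on `E`,
and the laws of TOTAL conservation for the two degeneracy maps (helper79's `tot` for `α` and its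
`w_q`-mirror for `β`):

  `∑_{ρ P = z} ord_P f = ord_z ψ₁ + ord_{β z} ψ₂`,   `∑_{ρ' P = z} ord_P f = ord_z ψ₂ + ord_{β z} ψ₁`,

`ψ_i` the scaled reductions of `f`, with `ord_{β z} ψ = ord_z (φ̄ ψ)` (`β` = inverse Frobenius on
the points of `X₀(M)_k`).

If `n ∣ div f` and `f` is `q`-new (`ρ_* div f = n div h_α`, `ρ'_* div f = n div h_β`: the
push-forwards of `(1/n) div f` to level `M` are principal), then
`ψ₁ · φ̄ ψ₂ = a h_αⁿ`, `ψ₂ · φ̄ ψ₁ = a' h_βⁿ`, hence `φ̄² ψ_i / ψ_i` are `n`-th powers: the class of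
`τ f / f` lies in the toric part EXACTLY, and GLUE gives

  `τ² f · f^Q / (τ f)^(Q+1) ∈ (F^×)ⁿ`,   i.e.  `(τ - 1)(τ - Q) x = 0`.

No finiteness of `Pic⁰` over finite fields, no bounded loss.
-/

set_option autoImplicit false
set_option linter.style.haveILetI false
set_option maxHeartbeats 1000000

noncomputable section

open AlgebraicCurve

attribute [local instance] Classical.propDecidable

namespace Fermat.Agent.S35.H89

open Fermat.Agent.RED.H17 Fermat.Agent.RED Fermat.Agent.BAD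

section OneField

variable {k E : Type*} [Field k] [Field E] [Algebra k E]

/-- A function all of whose orders vanish is a non-zero constant. -/
theorem const_of_ord_eq_zero (HE : FFHyp k E) {w : E} (hw : w ≠ 0)
    (h : ∀ z : Place k E, z.ord w = 0) : ∃ a : k, a ≠ 0 ∧ w = algebraMap k E a := by
  obtain ⟨a, ha⟩ := HE.const_of_regular (f := w) (fun z => le_of_eq (h z).symm)
  refine ⟨a, ?_, ha⟩
  rintro rfl
  rw [map_zero] at ha
  exact hw ha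

/-- Orders of the image under a semilinear automorphism. -/
theorem ord_smul_eq (σ : SemilinearAut k E) (z : Place k E) (ψ : E) :
    z.ord (σ • ψ) = (σ⁻¹ • z).ord ψ := by
  have := SemilinearAut.ord_smul σ (σ⁻¹ • z) ψ
  rwa [smul_inv_smul] at this

theorem smul_ne_zero_of_ne_zero (σ : SemilinearAut k E) {ψ : E} (hψ : ψ ≠ 0) : σ • ψ ≠ 0 := by
  intro h0
  apply hψ
  have := congrArg (fun z => σ⁻¹ • z) h0
  simpa using this

end OneField

/-- **The abstract Steinberg relation.** -/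
theorem st_abs (hG : Stmt_GlueFrobGen)
    {K F k E : Type} [Field K] [Field F] [Algebra K F] [Field k] [Field E] [Algebra k E]
    [IsAlgClosed K] [IsAlgClosed k]
    (S : SSD K F k E E) (H : FFHyp K F) (HE : FFHyp k E)
    (g g₁ : ℕ) (c c₁ : ℤ) (hR : IsGenus K F g c) (hRE : IsGenus k E g₁ c₁)
    (hnum : g + 1 ≤ g₁ + g₁ + S.nodes.card)
    (n : ℕ) (hn : (n : k) ≠ 0)
    (τ : SemilinearAut K F) (φb : SemilinearAut k E) (τb : E →+* E)
    (hτb : ∀ ψ : E, τb ψ = φb • (φb • ψ)) (Q : ℕ)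
    (hτ : S.IsFrobLike τ τb τb Q)
    (ρ ρ' : Place K F → Place k E) (β : Place k E → Place k E)
    (htot : ∀ (u₁ : S.c₁.V) (u₂ : S.c₂.V), S.c₁.red u₁ ≠ 0 → S.c₂.red u₂ ≠ 0 →
      (∃ a : K, (u₂ : F) = algebraMap K F a * (u₁ : F)) →
      ∀ D : Divisor K F, (∀ P, D P = P.ord (u₁ : F)) → ∀ z : Place k E,
        Finsupp.mapDomain ρ D z = z.ord (S.c₁.red u₁) + (β z).ord (S.c₂.red u₂))
    (htot' : ∀ (u₁ : S.c₁.V) (u₂ : S.c₂.V), S.c₁.red u₁ ≠ 0 → S.c₂.red u₂ ≠ 0 →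
      (∃ a : K, (u₂ : F) = algebraMap K F a * (u₁ : F)) →
      ∀ D : Divisor K F, (∀ P, D P = P.ord (u₁ : F)) → ∀ z : Place k E,
        Finsupp.mapDomain ρ' D z = z.ord (S.c₂.red u₂) + (β z).ord (S.c₁.red u₁))
    (hβ : ∀ (z : Place k E) (ψ : E), (β z).ord ψ = z.ord (φb • ψ))
    (f : F) (hf : f ≠ 0) (hdiv : ∀ P : Place K F, (n : ℤ) ∣ P.ord f)
    (hnewα : ∃ hα : E, hα ≠ 0 ∧ ∀ D : Divisor K F, (∀ P, D P = P.ord f) →
      ∀ z : Place k E, Finsupp.mapDomain ρ D z = n * z.ord hα)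
    (hnewβ : ∃ hβ : E, hβ ≠ 0 ∧ ∀ D : Divisor K F, (∀ P, D P = P.ord f) →
      ∀ z : Place k E, Finsupp.mapDomain ρ' D z = n * z.ord hβ) :
    ∃ t : F, t ^ n = (τ • (τ • f)) * f ^ Q / (τ • f) ^ (Q + 1) := by
  have hn0 : n ≠ 0 := by
    rintro rfl
    exact hn Nat.cast_zero
  have hnpos : 0 < n := Nat.pos_of_ne_zero hn0
  -- scaling of `f` for the two valuations
  obtain ⟨a₁, ha₁, hm₁, hψ₁⟩ := S.c₁.exists_scale f hf
  obtain ⟨a₂, ha₂, hm₂, hψ₂⟩ := S.c₂.exists_scale f hf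
  set ψ₁ : E := S.c₁.red ⟨_, hm₁⟩ with hψ₁def
  set ψ₂ : E := S.c₂.red ⟨_, hm₂⟩ with hψ₂def
  have hA₁ : algebraMap K F a₁ ≠ 0 := fun h0 => ha₁ ((map_eq_zero (algebraMap K F)).mp h0)
  have hA₂ : algebraMap K F a₂ ≠ 0 := fun h0 => ha₂ ((map_eq_zero (algebraMap K F)).mp h0)
  have hrel : ∃ a : K, algebraMap K F a₂ * f = algebraMap K F a * (algebraMap K F a₁ * f) := by
    refine ⟨a₂ / a₁, ?_⟩
    rw [map_div₀]
    field_simp
  have hordu : ∀ P : Place K F, P.ord (algebraMap K F a₁ * f) = P.ord f := by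
    intro P
    rw [P.ord_mul hA₁ hf, ord_algebraMap, zero_add]
  obtain ⟨hα, hα0, hαD⟩ := hnewα
  obtain ⟨hβ', hβ0, hβD⟩ := hnewβ
  -- the two norm relations
  have hN₁ : ∀ z : Place k E, z.ord (ψ₁ * (φb • ψ₂) / hα ^ n) = 0 := by
    intro z
    have h1 := htot ⟨_, hm₁⟩ ⟨_, hm₂⟩ hψ₁ hψ₂ hrel (dv H.principal f)
      (fun P => by rw [dv_apply]; exact (hordu P).symm) z
    have h2 := hαD (dv H.principal f) (fun P => dv_apply H.principal f P) z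
    rw [h2, hβ] at h1
    rw [ord_div z (mul_ne_zero hψ₁ (smul_ne_zero_of_ne_zero φb hψ₂)) (pow_ne_zero _ hα0),
      z.ord_mul hψ₁ (smul_ne_zero_of_ne_zero φb hψ₂), ord_pow]
    change (n : ℤ) * z.ord hα = z.ord ψ₁ + z.ord (φb • ψ₂) at h1
    omega
  have hN₂ : ∀ z : Place k E, z.ord (ψ₂ * (φb • ψ₁) / hβ' ^ n) = 0 := by
    intro z
    have h1 := htot' ⟨_, hm₁⟩ ⟨_, hm₂⟩ hψ₁ hψ₂ hrel (dv H.principal f)
      (fun P => by rw [dv_apply]; exact (hordu P).symm) z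
    have h2 := hβD (dv H.principal f) (fun P => dv_apply H.principal f P) z
    rw [h2, hβ] at h1
    rw [ord_div z (mul_ne_zero hψ₂ (smul_ne_zero_of_ne_zero φb hψ₁)) (pow_ne_zero _ hβ0),
      z.ord_mul hψ₂ (smul_ne_zero_of_ne_zero φb hψ₁), ord_pow]
    change (n : ℤ) * z.ord hβ' = z.ord ψ₂ + z.ord (φb • ψ₁) at h1
    omega
  have hφψ₁ : φb • ψ₁ ≠ 0 := smul_ne_zero_of_ne_zero φb hψ₁
  have hφψ₂ : φb • ψ₂ ≠ 0 := smul_ne_zero_of_ne_zero φb hψ₂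
  obtain ⟨b₁, hb₁0, hb₁⟩ := const_of_ord_eq_zero HE
    (div_ne_zero (mul_ne_zero hψ₁ hφψ₂) (pow_ne_zero _ hα0)) hN₁
  obtain ⟨b₂, hb₂0, hb₂⟩ := const_of_ord_eq_zero HE
    (div_ne_zero (mul_ne_zero hψ₂ hφψ₁) (pow_ne_zero _ hβ0)) hN₂
  -- `ψ₁ φ̄ψ₂ = b₁ hαⁿ`, `ψ₂ φ̄ψ₁ = b₂ hβⁿ`
  have e₁ : ψ₁ * (φb • ψ₂) = algebraMap k E b₁ * hα ^ n := by
    rw [← hb₁]
    field_simp
  have e₂ : ψ₂ * (φb • ψ₁) = algebraMap k E b₂ * hβ' ^ n := by
    rw [← hb₂]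
    field_simp
  -- apply `φ̄`
  have e₁' : (φb • ψ₁) * (φb • (φb • ψ₂)) =
      algebraMap k E (SemilinearAut.baseAut φb b₁) * (φb • hα) ^ n := by
    have := congrArg (fun w => φb • w) e₁
    simp only [smul_mul', smul_pow', SemilinearAut.smul_algebraMap] at this
    exact this
  have e₂' : (φb • ψ₂) * (φb • (φb • ψ₁)) =
      algebraMap k E (SemilinearAut.baseAut φb b₂) * (φb • hβ') ^ n := by
    have := congrArg (fun w => φb • w) e₂
    simp only [smul_mul', smul_pow', SemilinearAut.smul_algebraMap] at this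
    exact this
  have hB₁ : algebraMap k E b₁ ≠ 0 := fun h0 => hb₁0 ((map_eq_zero (algebraMap k E)).mp h0)
  have hB₂ : algebraMap k E b₂ ≠ 0 := fun h0 => hb₂0 ((map_eq_zero (algebraMap k E)).mp h0)
  have hφα0 : φb • hα ≠ 0 := smul_ne_zero_of_ne_zero φb hα0
  have hφβ0 : φb • hβ' ≠ 0 := smul_ne_zero_of_ne_zero φb hβ0
  -- `n`-th roots of the constants
  obtain ⟨d₁, hd₁⟩ := IsAlgClosed.exists_pow_nat_eq (SemilinearAut.baseAut φb b₂ / b₁) hnpos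
  obtain ⟨d₂, hd₂⟩ := IsAlgClosed.exists_pow_nat_eq (SemilinearAut.baseAut φb b₁ / b₂) hnpos
  have hD₁ : algebraMap k E d₁ ^ n =
      algebraMap k E (SemilinearAut.baseAut φb b₂) / algebraMap k E b₁ := by
    rw [← map_pow, hd₁, map_div₀]
  have hD₂ : algebraMap k E d₂ ^ n =
      algebraMap k E (SemilinearAut.baseAut φb b₁) / algebraMap k E b₂ := by
    rw [← map_pow, hd₂, map_div₀]
  -- the reductions of `τ u_i / u_i` are `n`-th powers
  have hpow₁ : τb ψ₁ / ψ₁ = (algebraMap k E d₁ * (φb • hβ') / hα) ^ n := by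
    rw [hτb, div_pow, mul_pow, hD₁]
    have hx : (φb • (φb • ψ₁)) * (φb • ψ₂) * (algebraMap k E b₁ * hα ^ n) =
        (algebraMap k E (SemilinearAut.baseAut φb b₂) * (φb • hβ') ^ n) *
          (ψ₁ * (φb • ψ₂)) := by
      rw [← e₂', ← e₁]
      ring
    have hαn : hα ^ n ≠ 0 := pow_ne_zero _ hα0
    rw [div_eq_div_iff hψ₁ hαn]
    have hx' := mul_right_cancel₀ hφψ₂ (by
      linear_combination (exp := 1) hx :
        (φb • (φb • ψ₁)) * (algebraMap k E b₁ * hα ^ n) * (φb • ψ₂) =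
          (algebraMap k E (SemilinearAut.baseAut φb b₂) * (φb • hβ') ^ n) * ψ₁ * (φb • ψ₂))
    field_simp
    linear_combination hx'
  have hpow₂ : τb ψ₂ / ψ₂ = (algebraMap k E d₂ * (φb • hα) / hβ') ^ n := by
    rw [hτb, div_pow, mul_pow, hD₂]
    have hx : (φb • (φb • ψ₂)) * (φb • ψ₁) * (algebraMap k E b₂ * hβ' ^ n) =
        (algebraMap k E (SemilinearAut.baseAut φb b₁) * (φb • hα) ^ n) *
          (ψ₂ * (φb • ψ₁)) := by
      rw [← e₁', ← e₂]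
      ring
    have hβn : hβ' ^ n ≠ 0 := pow_ne_zero _ hβ0
    rw [div_eq_div_iff hψ₂ hβn]
    have hx' := mul_right_cancel₀ hφψ₁ (by
      linear_combination (exp := 1) hx :
        (φb • (φb • ψ₂)) * (algebraMap k E b₂ * hβ' ^ n) * (φb • ψ₁) =
          (algebraMap k E (SemilinearAut.baseAut φb b₁) * (φb • hα) ^ n) * ψ₂ * (φb • ψ₁))
    field_simp
    linear_combination hx'
  -- the function `gg = τ f / f`
  have hτf0 : τ • f ≠ 0 := smul_ne_zero_of_ne_zero τ hf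
  set gg : F := (τ • f) / f with hgg
  have hGU₁ : S.c₁.IsGU (algebraMap K F a₁ * f) := ⟨hm₁, by rw [S.c₁.rd_of_mem hm₁]; exact hψ₁⟩
  have hGU₂ : S.c₂.IsGU (algebraMap K F a₂ * f) := ⟨hm₂, by rw [S.c₂.rd_of_mem hm₂]; exact hψ₂⟩
  have hτGU₁ : S.c₁.IsGU (τ • (algebraMap K F a₁ * f)) ∧
      S.c₁.rd (τ • (algebraMap K F a₁ * f)) = τb ψ₁ := by
    have hm := hτ.mem₁ _ hm₁
    have hr : S.c₁.rd (τ • (algebraMap K F a₁ * f)) = τb ψ₁ := by
      rw [S.c₁.rd_of_mem hm, hτ.red₁ _ hm₁ hm]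
    exact ⟨⟨hm, by rw [hr]; exact (map_ne_zero τb).mpr hψ₁⟩, hr⟩
  have hτGU₂ : S.c₂.IsGU (τ • (algebraMap K F a₂ * f)) ∧
      S.c₂.rd (τ • (algebraMap K F a₂ * f)) = τb ψ₂ := by
    have hm := hτ.mem₂ _ hm₂
    have hr : S.c₂.rd (τ • (algebraMap K F a₂ * f)) = τb ψ₂ := by
      rw [S.c₂.rd_of_mem hm, hτ.red₂ _ hm₂ hm]
    exact ⟨⟨hm, by rw [hr]; exact (map_ne_zero τb).mpr hψ₂⟩, hr⟩
  have hsc₁ : algebraMap K F (SemilinearAut.baseAut τ a₁ / a₁) * gg =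
      (τ • (algebraMap K F a₁ * f)) / (algebraMap K F a₁ * f) := by
    rw [hgg, smul_mul', SemilinearAut.smul_algebraMap, map_div₀]
    field_simp
  have hsc₂ : algebraMap K F (SemilinearAut.baseAut τ a₂ / a₂) * gg =
      (τ • (algebraMap K F a₂ * f)) / (algebraMap K F a₂ * f) := by
    rw [hgg, smul_mul', SemilinearAut.smul_algebraMap, map_div₀]
    field_simp
  have hgm₁ : algebraMap K F (SemilinearAut.baseAut τ a₁ / a₁) * gg ∈ S.c₁.V := by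
    rw [hsc₁]; exact (hτGU₁.1.div hGU₁).1
  have hgm₂ : algebraMap K F (SemilinearAut.baseAut τ a₂ / a₂) * gg ∈ S.c₂.V := by
    rw [hsc₂]; exact (hτGU₂.1.div hGU₂).1
  have hgr₁ : S.c₁.rd (algebraMap K F (SemilinearAut.baseAut τ a₁ / a₁) * gg) =
      (algebraMap k E d₁ * (φb • hβ') / hα) ^ n := by
    rw [hsc₁, hτGU₁.1.rd_div hGU₁, hτGU₁.2, S.c₁.rd_of_mem hm₁, hpow₁]
  have hgr₂ : S.c₂.rd (algebraMap K F (SemilinearAut.baseAut τ a₂ / a₂) * gg) =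
      (algebraMap k E d₂ * (φb • hα) / hβ') ^ n := by
    rw [hsc₂, hτGU₂.1.rd_div hGU₂, hτGU₂.2, S.c₂.rd_of_mem hm₂, hpow₂]
  have hd₁0 : d₁ ≠ 0 := by
    rintro rfl
    rw [zero_pow hn0] at hd₁
    exact div_ne_zero ((map_ne_zero _).mpr hb₂0) hb₁0 hd₁.symm
  have hd₂0 : d₂ ≠ 0 := by
    rintro rfl
    rw [zero_pow hn0] at hd₂
    exact div_ne_zero ((map_ne_zero _).mpr hb₁0) hb₂0 hd₂.symm
  have hh₁0 : algebraMap k E d₁ * (φb • hβ') / hα ≠ 0 :=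
    div_ne_zero (mul_ne_zero (fun h0 => hd₁0 ((map_eq_zero (algebraMap k E)).mp h0)) hφβ0) hα0
  have hh₂0 : algebraMap k E d₂ * (φb • hα) / hβ' ≠ 0 :=
    div_ne_zero (mul_ne_zero (fun h0 => hd₂0 ((map_eq_zero (algebraMap k E)).mp h0)) hφα0) hβ0
  have hdivg : ∀ P : Place K F, (n : ℤ) ∣ P.ord gg := by
    intro P
    have h1 : P.ord (τ • f) = (τ⁻¹ • P).ord f := by
      have := SemilinearAut.ord_smul τ (τ⁻¹ • P) f
      rwa [smul_inv_smul] at this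
    rw [hgg, ord_div P hτf0 hf, h1]
    exact dvd_sub (hdiv _) (hdiv P)
  obtain ⟨t, ht⟩ := hG K F k E E S H HE HE g g₁ g₁ c c₁ c₁ hR hRE hRE hnum n hn τ τb τb Q hτ gg
    _ _ _ _ hh₁0 hh₂0 hgm₁ hgr₁ hgm₂ hgr₂ hdivg
  refine ⟨t, ?_⟩
  have h1 : f ^ Q ≠ 0 := pow_ne_zero _ hf
  have h2 : (τ • f) ^ Q ≠ 0 := pow_ne_zero _ hτf0
  have h3 : τ • gg = (τ • (τ • f)) / (τ • f) := by
    rw [hgg]
    exact map_div₀ (SemilinearAut.toRingAut τ) _ _
  rw [ht, h3, hgg, div_pow, pow_succ]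
  field_simp

end Fermat.Agent.S35.H89
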