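import Fermat.Agent.S36.H44_Crux

/-!
# S35, leaf DESC-St (helper44): `F_{Nℓ} = F_N (j (q ^ (ℓ d)))` for `d ∣ N`

`ℓ` prime, `ℓ ∤ N`, `d ∣ N`, `F_N ⊂ F_{Nℓ}` (structure `α`).  The `ℓ + 1` embeddings
`sigmaK c ∘ ρ'` of `F_{Nℓ}` over `F_N` (helper95) take pairwise distinct values on
`β (j (q ^ d)) = j (q ^ (ℓ d))`, because `ρ' ∘ β = ρ ∘ α` and the `sigmaK c ∘ ρ` are separated by
`j (q ^ d)` (`S36.H44.sigmaK_rho_jdF_d_injective`).
-/

set_option autoImplicit false
set_option linter.style.haveILetI false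
set_option linter.unusedSectionVars false

noncomputable section

namespace Fermat.Agent.S35.H44

open Fermat.Agent.S24 ModularCurve Fermat.Agent.RED.H95 Matrix ModularGroup CongruenceSubgroup
  UpperHalfPlane
open scoped MatrixGroups

variable {N : ℕ} [NeZero N] {ℓ : ℕ} [NeZero ℓ]

attribute [local instance] algAlpha algPhiAlpha

/-- `β (j (q ^ d))`, `d ∣ N`, has degree `ℓ + 1` over `F_N ⊂ F_{Nℓ}`. -/
theorem natDegree_minpoly_alpha_jdF (hℓ : ℓ.Prime) (hN : ¬ ℓ ∣ N) (d : ℕ) [NeZero d]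
    (hd : d ∣ N) :
    (minpoly (FN N) (heckeBetaBar Kbar N ℓ (jdF N d hd))).natDegree = ℓ + 1 := by
  obtain ⟨u, v, h⟩ := exists_bezout hℓ hN
  haveI := finiteDimensional_alpha (N := N) (ℓ := ℓ) hℓ hN
  set y := heckeBetaBar Kbar N ℓ (jdF N d hd) with hy
  have hint : IsIntegral (FN N) y := Algebra.IsIntegral.isIntegral y
  apply le_antisymm
  · exact (minpoly.natDegree_le y).trans_eq (finrank_alpha hℓ hN)
  · classical
    let r : Option (Fin ℓ) → LN (N * ℓ) := fun c => sigmaK u v h c (rhoWK u v h y)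
    have hr : ∀ c, r c = sigmaK u v h c (rhoK hℓ (jdF (N * ℓ) d (dvd_mul_of_dvd_left hd ℓ))) := by
      intro c
      show sigmaK u v h c (rhoWK u v h y) = _
      rw [rhoWK_apply, hy, rhoW_beta hℓ, alpha_jdF, rhoK_apply]
    have hrinj : Function.Injective r := by
      intro c c' hcc
      apply Fermat.Agent.S36.H44.sigmaK_rho_jdF_d_injective hℓ hN u v h d hd
      show sigmaK u v h c (rhoK hℓ (jdF (N * ℓ) d (dvd_mul_of_dvd_left hd ℓ)))
        = sigmaK u v h c' (rhoK hℓ (jdF (N * ℓ) d (dvd_mul_of_dvd_left hd ℓ)))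
      rw [← hr c, ← hr c']
      exact hcc
    have hp0 : (minpoly (FN N) y).map (algebraMap (FN N) (LN (N * ℓ))) ≠ 0 :=
      Polynomial.map_ne_zero (minpoly.ne_zero hint)
    have hroot : ∀ c, r c ∈ ((minpoly (FN N) y).map (algebraMap (FN N) (LN (N * ℓ)))).roots := by
      intro c
      rw [Polynomial.mem_roots hp0, Polynomial.IsRoot.def, Polynomial.eval_map,
        ← Polynomial.aeval_def]
      show Polynomial.aeval (((sigmaK u v h c).comp (rhoWK u v h)) y) (minpoly (FN N) y) = 0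
      rw [Polynomial.aeval_algHom_apply, minpoly.aeval, map_zero]
    have hsub : (Finset.univ.image r).val
        ⊆ ((minpoly (FN N) y).map (algebraMap (FN N) (LN (N * ℓ)))).roots := by
      intro z hz
      rw [Finset.mem_val, Finset.mem_image] at hz
      obtain ⟨c, -, rfl⟩ := hz
      exact hroot c
    have hcard := Polynomial.card_le_degree_of_subset_roots hsub
    rw [Finset.card_image_of_injective _ hrinj, Finset.card_univ, Fintype.card_option,
      Fintype.card_fin, Polynomial.natDegree_map] at hcard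
    exact hcard

/-- `F_{Nℓ} = F_N (j (q ^ (ℓ d)))` for `d ∣ N`. -/
theorem adjoin_alpha_jdF (hℓ : ℓ.Prime) (hN : ¬ ℓ ∣ N) (d : ℕ) [NeZero d] (hd : d ∣ N) :
    IntermediateField.adjoin (FN N) {heckeBetaBar Kbar N ℓ (jdF N d hd)} = ⊤ := by
  haveI := finiteDimensional_alpha (N := N) (ℓ := ℓ) hℓ hN
  rw [Field.primitive_element_iff_minpoly_natDegree_eq, natDegree_minpoly_alpha_jdF hℓ hN d hd,
    finrank_alpha hℓ hN]

end Fermat.Agent.S35.H44
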