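import Fermat.Agent.S35.H89_StCore
import Fermat.Agent.S35.H44_CruxAlpha
import Fermat.Agent.S36.H44_PushComm
import Fermat.Agent.S36.H44_BetaNorm
import Fermat.Agent.RED.KD.H22_KD

/-!
# S35, leaf DESC-St (helper44): tame descent of the Steinberg relation

`stCore_descend : Stmt_StCore (r * M) q → Stmt_StCore M q` for `q` prime, `q ∤ M`, `r ∣ 36`,
`q ∤ r` (in particular `r = 2, 3`, `r ≠ q`), and
`stCore_all : (∀ tame (M, q), Stmt_StCore M q) → ∀ M q, q prime, q ∤ M → Stmt_StCore M q`.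

Proof: `f` of level `M q` is viewed at level `r M q`.  The `q`-new condition lifts by base change
of the norm in the squares `F_M → F_{Mq}`, `F_{rM} → F_{rMq}` (for `α` and for `β`), and the
conclusion descends by Kummer descent (`RED.Stmt_KD`, helper22).
-/

set_option autoImplicit false
set_option linter.style.haveILetI false
set_option linter.unusedSectionVars false

noncomputable section

namespace Fermat.Agent.S35.H44

open AlgebraicCurve ModularCurve Fermat.Agent.S24 Fermat.Agent.Lib.HeckeComm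
  Fermat.Agent.S36.H44 Fermat.Agent.BAD Fermat.Agent.S35.H89

local notation "Kb" => AlgebraicClosure ℚ

section Square

variable (M q r : ℕ) [NeZero M] [NeZero q] [NeZero r]

theorem dvd_lo : M ∣ r * M := dvd_mul_left M r

theorem dvd_up : M * q ∣ r * M * q := ⟨r, by ring⟩

/-- `F_M ⊂ F_{rM}`. -/
def inclLo : FN M →ₐ[Kb] FN (r * M) := inclFN M (r * M) (dvd_lo M r)

/-- `F_{Mq} ⊂ F_{rMq}`. -/
def inclUp : FN (M * q) →ₐ[Kb] FN (r * M * q) := inclFN (M * q) (r * M * q) (dvd_up M q r)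

theorem coe_inclLo (x : FN M) : (inclLo M r x : LaurentSeries Kb) = (x : LaurentSeries Kb) :=
  coe_inclFN _ _ _ x

theorem coe_inclUp (x : FN (M * q)) :
    (inclUp M q r x : LaurentSeries Kb) = (x : LaurentSeries Kb) :=
  coe_inclFN _ _ _ x

theorem inclLo_integral : (inclLo M r).toRingHom.IsIntegral :=
  (Fermat.Agent.RED.H51.stmt_FFB_finite Kb _ _ (isFF_FN M) (isFF_FN (r * M)) (inclLo M r)).1

theorem inclUp_integral : (inclUp M q r).toRingHom.IsIntegral :=
  (Fermat.Agent.RED.H51.stmt_FFB_finite Kb _ _ (isFF_FN (M * q)) (isFF_FN (r * M * q))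
    (inclUp M q r)).1

/-- Base change of the norm along `α` from level `M` to level `r M`. -/
theorem norm_alpha_up (hq : q.Prime) (hqM : ¬ q ∣ M) (hqr : ¬ q ∣ r) (x : FN (M * q)) :
    inclLo M r (normAlongHom (heckeAlphaBar Kb M q).toRingHom x)
      = normAlongHom (heckeAlphaBar Kb (r * M) q).toRingHom (inclUp M q r x) := by
  have hqrM : ¬ q ∣ r * M := fun h => (hq.dvd_mul.mp h).elim hqr hqM
  refine normAlongHom_baseChange (heckeAlphaBar Kb M q).toRingHom
    (heckeAlphaBar Kb (r * M) q).toRingHom (inclLo M r).toRingHom (inclUp M q r).toRingHom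
    ?_ (alpha_finite M q) (alpha_finite (r * M) q) (jdF (M * q) (M * q) dvd_rfl)
    (stmt_GenJ M (M * q) (dvd_mul_right M q)) ?_ ?_ x
  · intro a
    apply Subtype.ext
    simp only [AlgHom.toRingHom_eq_coe, RingHom.coe_coe, coe_heckeAlphaBar, coe_inclUp,
      coe_inclLo]
  · have e : (inclUp M q r).toRingHom (jdF (M * q) (M * q) dvd_rfl)
        = heckeBetaBar Kb (r * M) q (jdF (r * M) M (dvd_lo M r)) := by
      apply Subtype.ext
      simp only [AlgHom.toRingHom_eq_coe, RingHom.coe_coe, coe_inclUp, coe_heckeBetaBar,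
        Fermat.Agent.RED.H95.coe_jdF, qExpand_qExpand]
      exact qExpand_congr (mul_comm M q) _
    rw [e]
    exact adjoin_alpha_jdF hq hqrM M (dvd_lo M r)
  · exact (Fermat.Agent.RED.H95.finrankAlong_alpha hq hqM).trans
      (Fermat.Agent.RED.H95.finrankAlong_alpha hq hqrM).symm

/-- Base change of the norm along `β` from level `M` to level `r M`. -/
theorem norm_beta_up (hq : q.Prime) (hqM : ¬ q ∣ M) (hqr : ¬ q ∣ r) (x : FN (M * q)) :
    inclLo M r (normAlongHom (heckeBetaBar Kb M q).toRingHom x)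
      = normAlongHom (heckeBetaBar Kb (r * M) q).toRingHom (inclUp M q r x) := by
  have hqrM : ¬ q ∣ r * M := fun h => (hq.dvd_mul.mp h).elim hqr hqM
  refine normAlongHom_baseChange (heckeBetaBar Kb M q).toRingHom
    (heckeBetaBar Kb (r * M) q).toRingHom (inclLo M r).toRingHom (inclUp M q r).toRingHom
    ?_ (beta_finite M q) (beta_finite (r * M) q) (jF (M * q))
    (adjoin_beta_jF M q) ?_ ?_ x
  · intro a
    apply Subtype.ext
    simp only [AlgHom.toRingHom_eq_coe, RingHom.coe_coe, coe_heckeBetaBar, coe_inclUp,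
      coe_inclLo]
  · have e : (inclUp M q r).toRingHom (jF (M * q)) = jF (r * M * q) :=
      inclFN_jF _ _ _
    rw [e]
    exact adjoin_beta_jF (r * M) q
  · exact (Fermat.Agent.RED.H95.finrankAlong_beta hq hqM).trans
      (Fermat.Agent.RED.H95.finrankAlong_beta hq hqrM).symm

/-- The `q`-new condition lifts from level `M q` to level `r M q`. -/
theorem push_up (φ : FN M →ₐ[Kb] FN (M * q)) (φ' : FN (r * M) →ₐ[Kb] FN (r * M * q))
    (hφ : φ.toRingHom.IsIntegral) (hφ' : φ'.toRingHom.IsIntegral)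
    (hbc : ∀ x : FN (M * q), inclLo M r (normAlongHom φ.toRingHom x)
      = normAlongHom φ'.toRingHom (inclUp M q r x))
    (n : ℕ) (f : FN (M * q)) (hf0 : f ≠ 0) (D : Divisor Kb (FN (M * q)))
    (hD : ∀ P, D P = P.ord f) (g : FN M)
    (hg : ∀ Q : Place Kb (FN M), Divisor.pushforwardAlong φ hφ D Q = n * Q.ord g)
    (D' : Divisor Kb (FN (r * M * q))) (hD' : ∀ P, D' P = P.ord (inclUp M q r f))
    (Q' : Place Kb (FN (r * M))) :
    Divisor.pushforwardAlong φ' hφ' D' Q' = n * Q'.ord (inclLo M r g) := by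
  have hfin : FiniteAlong Kb φ :=
    (Fermat.Agent.RED.H51.stmt_FFB_finite Kb _ _ (isFF_FN M) (isFF_FN (M * q)) φ).2
  have hN : NormFormulaAlong Kb φ hfin :=
    Fermat.Agent.RED.H51.stmt_FFB_norm Kb _ _ (isFF_FN M) (isFF_FN (M * q)) _ _
  have hfin' : FiniteAlong Kb φ' :=
    (Fermat.Agent.RED.H51.stmt_FFB_finite Kb _ _ (isFF_FN (r * M)) (isFF_FN (r * M * q)) φ').2
  have hN' : NormFormulaAlong Kb φ' hfin' :=
    Fermat.Agent.RED.H51.stmt_FFB_norm Kb _ _ (isFF_FN (r * M)) (isFF_FN (r * M * q)) _ _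
  have hf'0 : inclUp M q r f ≠ 0 := fun h0 =>
    hf0 ((inclUp M q r).toRingHom.injective (by simpa using h0))
  rw [pushforwardAlong_ord φ' hφ' hfin' hN' hf'0 D' hD' Q', ← hbc,
    Place.ord_restrictAlong (inclLo M r) (inclLo_integral M r),
    Place.ord_restrictAlong (inclLo M r) (inclLo_integral M r),
    ← pushforwardAlong_ord φ hφ hfin hN hf0 D hD, hg]
  ring

end Square

/-- The inclusion commutes with the coefficientwise Galois action. -/
theorem inclUp_galF (M q r : ℕ) [NeZero M] [NeZero q] [NeZero r] (σ : GalQ) (x : FN (M * q)) :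
    inclUp M q r (galF (M * q) σ • x) = galF (r * M * q) σ • inclUp M q r x := by
  apply Subtype.ext
  rw [coe_inclUp, coe_arithmeticGalois_smul, coe_arithmeticGalois_smul, coe_inclUp]

/-- **DESC-St**: the Kummer form of the Steinberg relation descends from level `r M q` to level
`M q`. -/
theorem stCore_descend_gen (M q r : ℕ) [NeZero M] [NeZero q] [NeZero r] (hq : q.Prime)
    (hqM : ¬ q ∣ M) (hr36 : r ∣ 36) (hqr : ¬ q ∣ r) (h : Stmt_StCore (r * M) q) :
    Stmt_StCore M q := by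
  intro A hA σ hσ n hqn f hf0 hdiv hαI hβI D hD hDα hDβ
  obtain ⟨g, hg0, hg⟩ := hDα
  obtain ⟨g', hg'0, hg'⟩ := hDβ
  have hn0 : 0 < n := Nat.pos_of_ne_zero (by rintro rfl; exact hqn (dvd_zero q))
  -- the function at the upper level
  have hf'0 : inclUp M q r f ≠ 0 := fun h0 =>
    hf0 ((inclUp M q r).toRingHom.injective (by simpa using h0))
  set f' : FN (r * M * q) := inclUp M q r f with hf'
  have hdiv' : ∀ P' : Place Kb (FN (r * M * q)), (n : ℤ) ∣ P'.ord f' := by
    intro P'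
    rw [hf', Place.ord_restrictAlong (inclUp M q r) (inclUp_integral M q r)]
    exact Dvd.dvd.mul_left (hdiv _) _
  haveI := hasPrincipalDivisors_FN (r * M * q)
  obtain ⟨D', hD', -⟩ := HasPrincipalDivisors.exists_divisor (K := Kb) f' hf'0
  have hinj : ∀ x : FN M, x ≠ 0 → inclLo M r x ≠ 0 := fun x hx h0 =>
    hx ((inclLo M r).toRingHom.injective (by simpa using h0))
  obtain ⟨t', ht'⟩ := h A hA σ hσ n hqn f' hf'0 hdiv' (alpha_integral (r * M) q)
    (beta_integral (r * M) q) D' hD'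
    ⟨inclLo M r g, hinj g hg0, fun Q' =>
      push_up M q r (heckeAlphaBar Kb M q) (heckeAlphaBar Kb (r * M) q) hαI
        (alpha_integral (r * M) q) (norm_alpha_up M q r hq hqM hqr) n f hf0 D hD g hg D' hD' Q'⟩
    ⟨inclLo M r g', hinj g' hg'0, fun Q' =>
      push_up M q r (heckeBetaBar Kb M q) (heckeBetaBar Kb (r * M) q) hβI
        (beta_integral (r * M) q) (norm_beta_up M q r hq hqM hqr) n f hf0 D hD g' hg' D' hD' Q'⟩
  -- the right hand side at level `M q`
  set τ : SemilinearAut Kb (FN (M * q)) := galF (M * q) (σ * σ) with hτ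
  set R : FN (M * q) := (τ • (τ • f)) * f ^ (q ^ 2) / (τ • f) ^ (q ^ 2 + 1) with hR
  have hτf0 : τ • f ≠ 0 := smul_ne_zero_of_ne_zero τ hf0
  have hττf0 : τ • (τ • f) ≠ 0 := smul_ne_zero_of_ne_zero τ hτf0
  have hdivτ : ∀ (P : Place Kb (FN (M * q))) (y : FN (M * q)),
      (∀ P₀ : Place Kb (FN (M * q)), (n : ℤ) ∣ P₀.ord y) → (n : ℤ) ∣ P.ord (τ • y) := by
    intro P y hy
    rw [hτ, Fermat.Agent.BAD.H91.ord_galF_smul]
    exact hy _
  have hdivR : ∀ P : Place Kb (FN (M * q)), (n : ℤ) ∣ P.ord R := by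
    intro P
    rw [hR, div_eq_mul_inv, Place.ord_mul _ (mul_ne_zero hττf0 (pow_ne_zero _ hf0))
      (inv_ne_zero (pow_ne_zero _ hτf0)), Place.ord_mul _ hττf0 (pow_ne_zero _ hf0),
      Place.ord_inv, Fermat.Agent.RED.H17.ord_pow, Fermat.Agent.RED.H17.ord_pow]
    have h1 : (n : ℤ) ∣ P.ord (τ • (τ • f)) := hdivτ P _ (fun P₀ => hdivτ P₀ f hdiv)
    have h2 : (n : ℤ) ∣ P.ord f := hdiv P
    have h3 : (n : ℤ) ∣ P.ord (τ • f) := hdivτ P f hdiv
    exact dvd_add (dvd_add h1 (Dvd.dvd.mul_left h2 _)) ((dvd_neg).2 (Dvd.dvd.mul_left h3 _))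
  have hup : inclUp M q r R
      = (galF (r * M * q) (σ * σ) • (galF (r * M * q) (σ * σ) • f')) * f' ^ (q ^ 2)
        / (galF (r * M * q) (σ * σ) • f') ^ (q ^ 2 + 1) := by
    rw [hR, map_div₀, map_mul, map_pow, map_pow, hτ, inclUp_galF, inclUp_galF]
  have hM36 : r * M * q ∣ 36 * (M * q) := by
    obtain ⟨c, hc⟩ := hr36
    exact ⟨c, by rw [hc]; ring⟩
  refine Fermat.Agent.RED.KD.H22.stmt_KD (M * q) (r * M * q) n (dvd_up M q r) hM36 hn0 R hdivR
    ⟨(t' : LaurentSeries Kb), t'.2, ?_⟩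
  have h3 := congrArg (Subtype.val : FN (r * M * q) → LaurentSeries Kb) (ht'.trans hup.symm)
  have h4 : ((t' : FN (r * M * q)) : LaurentSeries Kb) ^ n
      = ((inclUp M q r R : FN (r * M * q)) : LaurentSeries Kb) := h3
  rw [h4, coe_inclUp]

/-- **DESC-St** for `r = 2, 3`. -/
theorem stCore_descend (M q r : ℕ) [NeZero M] [NeZero q] (hq : q.Prime) (hqM : ¬ q ∣ M)
    (hr : r = 2 ∨ r = 3) (hrq : r ≠ q)
    (h : haveI : NeZero r := ⟨by rcases hr with rfl | rfl <;> norm_num⟩
      Stmt_StCore (r * M) q) : Stmt_StCore M q := by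
  haveI : NeZero r := ⟨by rcases hr with rfl | rfl <;> norm_num⟩
  have hrp : r.Prime := by rcases hr with rfl | rfl <;> norm_num
  have hr36 : r ∣ 36 := by rcases hr with rfl | rfl <;> norm_num
  have hqr : ¬ q ∣ r := fun hd => hrq ((Nat.prime_dvd_prime_iff_eq hq hrp).mp hd).symm
  exact stCore_descend_gen M q r hq hqM hr36 hqr h

/-- **The Kummer form of (St) at every `(M, q)`, `q ∤ M`, from the tame levels.**  The tame
condition is `BAD.H91.TameAt M q`, unfolded. -/
theorem stCore_all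
    (h : ∀ (M q : ℕ) [NeZero M] [NeZero q], q.Prime → ¬ q ∣ M →
      (5 ≤ q ∨ (q = 3 ∧ 2 ∣ M) ∨ (q = 2 ∧ 3 ∣ M)) → Stmt_StCore M q)
    (M q : ℕ) [NeZero M] [NeZero q] (hq : q.Prime) (hqM : ¬ q ∣ M) : Stmt_StCore M q := by
  by_cases h5 : 5 ≤ q
  · exact h M q hq hqM (Or.inl h5)
  have hq2 : 2 ≤ q := hq.two_le
  have h23 : q = 2 ∨ q = 3 ∨ q = 4 := by omega
  rcases h23 with rfl | rfl | rfl
  · -- `q = 2`, auxiliary level `3 M`
    refine stCore_descend M 2 3 hq hqM (Or.inr rfl) (by norm_num) ?_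
    refine h (3 * M) 2 hq ?_ (Or.inr (Or.inr ⟨rfl, dvd_mul_right 3 M⟩))
    intro hd
    rcases (Nat.Prime.dvd_mul Nat.prime_two).mp hd with h1 | h1
    · norm_num at h1
    · exact hqM h1
  · -- `q = 3`, auxiliary level `2 M`
    refine stCore_descend M 3 2 hq hqM (Or.inl rfl) (by norm_num) ?_
    refine h (2 * M) 3 hq ?_ (Or.inr (Or.inl ⟨rfl, dvd_mul_right 2 M⟩))
    intro hd
    rcases (Nat.Prime.dvd_mul Nat.prime_three).mp hd with h1 | h1
    · norm_num at h1
    · exact hqM h1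
  · exact absurd hq (by norm_num)

end Fermat.Agent.S35.H44
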