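import Fermat.Agent.S35.H89_FrobDefs
import Fermat.Agent.BAD.H94_SepLift
import Fermat.Agent.BAD.H30_Sigma1

/-!
# S35, SIGMA package, leaf Σ-fix (helper30): the nodes are fixed by `β²`

`sigmaFix_of : Stmt_FrobRho → Stmt_SigmaFix`.

Let `z∞ = ρ (∞)`.  The cusp `∞` is Galois-invariant, so (F-b) gives `β z∞ = z∞`.  For a node
`z ≠ z∞`, helper94's separating lift gives a function `x₀` of level `M`, Gauss-integral, with
its only pole at `∞`, whose reduction separates `κ (β⁻¹ z)` from `κ (β z)`.  The test function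
`f = β_q^* x₀` lies in `R_z` (a pole `P` of `f` has `P|β = ∞`, hence `P|α = ∞` by Σ1 and
`ρ P = z∞ ≠ z`), with `rd₁ f = Fr x`, `rd₂ f = x`; helper89's `sigma_fix_of_sep` concludes.
-/

set_option autoImplicit false
set_option linter.style.haveILetI false
set_option synthInstance.maxHeartbeats 400000
set_option maxHeartbeats 1000000
set_option linter.unusedSectionVars false

noncomputable section

open HahnSeries IntermediateField AlgebraicCurve ModularCurve
open Fermat.Agent.S28.H73 Fermat.Agent.RED.H73 Fermat.Agent.RED Fermat.Agent.S24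
open Fermat.Agent.BAD.H88 Fermat.Agent.BAD
open Fermat.Agent.RED.KD.H22 (cuspInf mem_laurentPlace_iff)

namespace Fermat.Agent.S35.H30

open Fermat.Agent.S35.H89

section Cusp

theorem sigmaFix_coeffMap_eq_zero_iff {R S : Type*} [CommRing R] [CommRing S] (f : R →+* S)
    (hf : Function.Injective f) (x : LaurentSeries R) : coeffMap f x = 0 ↔ x = 0 := by
  constructor
  · intro h
    ext k
    have := congrArg (fun y : LaurentSeries S => y.coeff k) h
    simp only [coeffMap_coeff, HahnSeries.coeff_zero] at this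
    rw [HahnSeries.coeff_zero]
    exact hf (by rw [this, map_zero])
  · rintro rfl
    exact map_zero _

theorem sigmaFix_order_coeffMap {R S : Type*} [CommRing R] [CommRing S] (f : R →+* S)
    (hf : Function.Injective f) (x : LaurentSeries R) : (coeffMap f x).order = x.order := by
  by_cases hx : x = 0
  · rw [hx, map_zero, order_zero, order_zero]
  have hx' : coeffMap f x ≠ 0 := fun h => hx ((sigmaFix_coeffMap_eq_zero_iff f hf x).mp h)
  apply le_antisymm
  · apply HahnSeries.order_le_of_coeff_ne_zero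
    rw [coeffMap_coeff]
    intro h
    have h1 : x.coeff x.order = 0 := hf (by rw [h, map_zero])
    exact hx (HahnSeries.coeff_order_eq_zero.mp h1)
  · apply HahnSeries.order_le_of_coeff_ne_zero
    intro h
    have h1 := HahnSeries.coeff_order_eq_zero.not.mpr hx'
    rw [coeffMap_coeff] at h1
    exact h1 (by rw [h, map_zero])

/-- The cusp `∞` is fixed by the coefficientwise Galois action. -/
theorem sigmaFix_smul_cuspInf (N : ℕ) [NeZero N] (σ : GalQ) :
    galF N σ • cuspInf N = cuspInf N := by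
  apply Place.ext
  rw [SemilinearAut.smul_toValuationSubring]
  ext x
  rw [ValuationSubring.mem_pointwise_smul_iff_inv_smul_mem]
  unfold cuspInf
  rw [mem_laurentPlace_iff, mem_laurentPlace_iff]
  have h1 : (((galF N σ)⁻¹ • x : FN N) : LaurentSeries Kbar)
      = coeffMap ((σ⁻¹ : GalQ) : Kbar →+* Kbar) (x : LaurentSeries Kbar) := by
    show (((arithmeticGalois (modularFunctionFieldFull N) σ)⁻¹ • x : FN N) : LaurentSeries Kbar)
      = _
    rw [← map_inv]
    rfl
  have h2 : ((galF N σ)⁻¹ • x : FN N) = 0 ↔ x = 0 := smul_eq_zero_iff_eq _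
  rw [h2, h1, sigmaFix_order_coeffMap _ (RingHom.injective _)]

/-- The cusp `∞` of level `M q` lies over the cusp `∞` of level `M`. -/
theorem sigmaFix_restrict_cuspInf (M q : ℕ) [NeZero M] [NeZero (M * q)] :
    (cuspInf (M * q)).restrictAlong (H91.incl M q) (H91.incl_isIntegral M q) = cuspInf M := by
  apply Place.ext
  ext x
  rw [H91.mem_restrictAlong_iff]
  unfold cuspInf
  rw [mem_laurentPlace_iff, mem_laurentPlace_iff, H91.coe_incl]
  constructor
  · rintro (h | h)
    · left
      exact (map_eq_zero_iff _ (H91.incl M q).toRingHom.injective).mp h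
    · exact Or.inr h
  · rintro (h | h)
    · left
      rw [h, map_zero]
    · exact Or.inr h

end Cusp

section Gen

variable {k X : Type*} [Field k] [Field X] [Algebra k X]

theorem sigmaFix_coe_sub_const {E₁ E₂ : IntermediateField k X} (y₁ : ↥E₁) (y₂ : ↥E₂)
    (hy : (y₁ : X) = (y₂ : X)) (a : k) :
    ((y₁ - algebraMap k ↥E₁ a : ↥E₁) : X) = ((y₂ - algebraMap k ↥E₂ a : ↥E₂) : X) := by
  rw [AddSubgroupClass.coe_sub, AddSubgroupClass.coe_sub, hy]
  rfl

/-- `VanAt` is transported by `placeCongr`. -/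
theorem sigmaFix_vanAt_placeCongr {E₁ E₂ : IntermediateField k X} (h : E₁ = E₂)
    (w : Place k ↥E₁) (y₁ : ↥E₁) (y₂ : ↥E₂) (hy : (y₁ : X) = (y₂ : X)) :
    RED.H17.VanAt w y₁ ↔ RED.H17.VanAt (H91.placeCongr h w) y₂ := by
  subst h
  have e : y₁ = y₂ := Subtype.ext hy
  rw [e]
  rfl

end Gen

section Main

/-- **(Σ-fix)** from (F-b). -/
theorem sigmaFix_of (hFb : Stmt_FrobRho) : Stmt_SigmaFix := by
  intro A q M a b hab hq _ _ _ hA hqM ht σ hσ z hz
  haveI : IsAlgClosed (kV A) := isAlgClosed_kV A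
  -- the point `z∞`
  set zinf : Place (kV A) (F1 A q M) := H91.rhoF1 a b hab hq hA hqM ht (cuspInf (M * q))
    with hzinf
  have hβinf : (betaMod A q M a b hab hq hA).symm zinf = zinf := by
    have h := hFb A q M a b hab hq hA hqM ht σ hσ (cuspInf (M * q))
    rw [sigmaFix_smul_cuspInf] at h
    exact h.symm
  have hβinf' : betaMod A q M a b hab hq hA zinf = zinf := by
    conv_lhs => rw [← hβinf]
    exact Equiv.apply_symm_apply _ _
  have hκinf : H91.kappa A q M a b hab hq hA zinf = H91.rM hq hqM ht hA (cuspInf M) := by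
    rw [hzinf, H91.kappa_rhoF1]
    unfold H91.rhoM
    rw [sigmaFix_restrict_cuspInf]
  by_cases hzz : z = zinf
  · rw [hzz, hβinf', hβinf']
  -- the general case
  refine sigma_fix_of_sep (modTot A q M a b hab hq hA hqM ht) (FrMod A q M a b hab hq hA)
    hq.pos (fun z g => BAD.H73.betaF1_ord_Fr A q M hq hA M
      (H82.redField_eq_fullC q M a b hab hq A hA) z g) hz ?_
  intro hne
  have hne' : (betaMod A q M a b hab hq hA).symm z ≠ betaMod A q M a b hab hq hA z := hne
  have hFF : IsFF Kbar ↥(FNbar M) := H95.stmt_HKA_isFF M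
  have hFF' : IsFF (kV A) ↥(H91.redM A M) := H91.isFF_redM hq hqM ht hA
  have H := RED.H17.ffHyp_of_isFF _ _ hFF
  have H' := RED.H17.ffHyp_of_isFF _ _ hFF'
  obtain ⟨g', c', hg⟩ := RED.H17.exists_isGenus _ _ hFF'
  have h12 : H91.kappa A q M a b hab hq hA ((betaMod A q M a b hab hq hA).symm z)
      ≠ H91.kappa A q M a b hab hq hA (betaMod A q M a b hab hq hA z) :=
    fun h => hne' ((H91.kappa A q M a b hab hq hA).injective h)
  have h1 : H91.kappa A q M a b hab hq hA ((betaMod A q M a b hab hq hA).symm z)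
      ≠ (H91.seM hq hqM ht hA).r (cuspInf M) := by
    intro h
    have h' := (H91.kappa A q M a b hab hq hA).injective (h.trans hκinf.symm)
    apply hzz
    rw [Equiv.symm_apply_eq] at h'
    rw [h', hβinf']
  have h2 : H91.kappa A q M a b hab hq hA (betaMod A q M a b hab hq hA z)
      ≠ (H91.seM hq hqM ht hA).r (cuspInf M) := by
    intro h
    have h' := (H91.kappa A q M a b hab hq hA).injective (h.trans hκinf.symm)
    apply hzz
    rw [← Equiv.eq_symm_apply] at h'
    rw [h', hβinf]
  obtain ⟨x₀, a₀, hx₀V, hx₀reg, hv1, hv2⟩ :=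
    H94.exists_sep_lift_val (H91.seM hq hqM ht hA) H H' (H91.seM_genusLE' hq hqM ht hA) hg
      (cuspInf M) h12 h1 h2
  have hxM : x₀ ∈ VM A M := hx₀V
  have hf1 : heckeBetaBar Kbar M q x₀ ∈ V1 A q M := (beta_mem_V1_iff A q M x₀).mpr hxM
  have hf2 : heckeBetaBar Kbar M q x₀ ∈ V2 A q M a b hab hq :=
    (beta_mem_V2_iff A q M a b hab hq x₀).mpr hxM
  -- the series of the three reductions
  have e2 : ((red2 A q M a b hab hq ⟨_, hf2⟩ : F1 A q M) : LaurentSeries (kV A))
      = (((H91.seM hq hqM ht hA).rd x₀ : ↥(H91.redM A M)) : LaurentSeries (kV A)) := by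
    rw [(H91.seM hq hqM ht hA).rd_of_mem hx₀V]
    exact red2_beta A q M a b hab hq x₀ hxM hf2
  -- transfer of `VanAt` through `κ`
  have hvan : ∀ w : Place (kV A) (F1 A q M),
      RED.H17.VanAt w (red2 A q M a b hab hq ⟨_, hf2⟩ - algebraMap (kV A) (F1 A q M) a₀) ↔
      RED.H17.VanAt (H91.kappa A q M a b hab hq hA w)
        ((H91.seM hq hqM ht hA).rd x₀ - algebraMap (kV A) ↥(H91.redM A M) a₀) := fun w =>
    sigmaFix_vanAt_placeCongr (H82.redField_eq_redField q M a b hab hq A hA) w _ _
      (sigmaFix_coe_sub_const _ _ e2 a₀)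
  refine ⟨heckeBetaBar Kbar M q x₀, red2 A q M a b hab hq ⟨_, hf2⟩, a₀, ⟨hf1, hf2, ?_⟩,
    ?_, ?_, ?_, ?_⟩
  · -- regular on the fibre of `z`
    intro P hP
    obtain ⟨hα, hβ, hS1⟩ := BAD.H30.sigma1_exists M q hq hqM
    by_cases hc : P.restrictAlong (heckeBetaBar Kbar M q) hβ = cuspInf M
    · exfalso
      have h3 := hS1 P hc
      apply hzz
      have hP' : H91.rhoF1 a b hab hq hA hqM ht P = z := hP
      rw [← hP']
      apply (H91.kappa A q M a b hab hq hA).injective
      rw [hκinf, H91.kappa_rhoF1]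
      unfold H91.rhoM
      exact congrArg (H91.rM hq hqM ht hA) h3
    · have h3 := hx₀reg _ hc
      have h4 : x₀ ∈ (P.restrictAlong (heckeBetaBar Kbar M q) hβ).toValuationSubring :=
        (RED.H17.regAt_iff_mem _ _).mp (RED.H17.regAt_of_ord_nonneg h3)
      rw [RED.H17.regAt_iff_mem]
      exact (H91.mem_restrictAlong_iff (heckeBetaBar Kbar M q) hβ P x₀).mp h4
  · -- `rd₁ f = Fr x`
    rw [(modTot A q M a b hab hq hA hqM ht).p₁.rd_of_mem hf1]
    apply Subtype.ext
    rw [BAD.H73.coe_FrF1]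
    exact (red1_beta A q M x₀ hxM hf1).trans
      (congrArg (qExpand (kV A) q) (red2_beta A q M a b hab hq x₀ hxM hf2).symm)
  · -- `rd₂ f = x`
    exact (modTot A q M a b hab hq hA hqM ht).p₂.rd_of_mem hf2
  · exact (hvan _).mpr hv1
  · exact fun h => hv2 ((hvan _).mp h)

end Main

end Fermat.Agent.S35.H30
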