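import Fermat.Agent.S35.H89_FrobDefs
import Fermat.Agent.RED.H33_UniGal

/-!
# S35, SIGMA package, leaf F-d (helper44): `Stmt_FrobRed`

A Frobenius element `σ` at `A` (over `q`) preserves the two Gauss valuation rings `V₁`, `V₂` of
`F_{Mq}` and acts on the reductions by the coefficientwise Frobenius `φ`.

* `V₁`: the coefficientwise action of an element of the decomposition group preserves the Gauss
  ring and reduces to the coefficientwise action of its residue automorphism
  (`RED.H33.coeffMap_mem_gaussRingV`, `gaussRedV_coeffMap`), which for a Frobenius element is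
  `a ↦ a ^ q` (`RED.H33.autkHom_frobenius`).
* `V₂ = V₁ ∘ w_q`, `red₂ = red₁ ∘ w_q`, and `w_q` commutes with the coefficientwise Galois action
  (`BAD.H88.wq_arith`).
-/

set_option autoImplicit false
set_option linter.style.haveILetI false
set_option synthInstance.maxHeartbeats 400000
set_option maxHeartbeats 400000
set_option linter.unusedSectionVars false

noncomputable section

open HahnSeries IntermediateField AlgebraicCurve ModularCurve
open Fermat.Agent.S28.H73 Fermat.Agent.RED.H73 Fermat.Agent.RED Fermat.Agent.S24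
open Fermat.Agent.BAD.H88 Fermat.Agent.BAD Fermat.Agent.S35.H89

namespace Fermat.Agent.S35.H44

section FrobRed

variable (A : ValuationSubring Kbar) (q M : ℕ) (a b : ℤ) (hab : a * q + b * M = 1)
  (hq : q.Prime) [NeZero M] [NeZero (M * q)] (hA : A.LiesOverPrime q)

/-- The decomposition group preserves the first Gauss valuation ring. -/
theorem galF_mem_V1 {σ : GalQ} (hσ : σ ∈ A.decompositionSubgroup ℚ) {f : FN (M * q)}
    (hf : f ∈ V1 A q M) : galF (M * q) σ • f ∈ V1 A q M := by
  show ((galF (M * q) σ • f : FN (M * q)) : LaurentSeries Kbar) ∈ gaussRingV A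
  rw [coe_arithmeticGalois_smul]
  exact H33.coeffMap_mem_gaussRingV A σ.toRingEquiv
    (H33.mem_iff_of_mem_decompositionSubgroup A hσ) hf

/-- The series of the first reduction of `σ f`, for `σ` in the decomposition group. -/
theorem coe_red1_galF {σ : GalQ} (hσ : σ ∈ A.decompositionSubgroup ℚ) (f : FN (M * q))
    (h : f ∈ V1 A q M) (h' : galF (M * q) σ • f ∈ V1 A q M) :
    ((red1 A q M ⟨_, h'⟩ : F1 A q M) : LaurentSeries (kV A))
      = coeffMap (H33.autkHom A σ.toRingEquiv (H33.mem_iff_of_mem_decompositionSubgroup A hσ))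
          ((red1 A q M ⟨f, h⟩ : F1 A q M) : LaurentSeries (kV A)) := by
  rw [coe_gaussResF'_eq, coe_gaussResF'_eq]
  exact H33.gaussRedV_coeffMap A σ.toRingEquiv (H33.mem_iff_of_mem_decompositionSubgroup A hσ) h

/-- A Frobenius element acts on the first reduction by `φ`. -/
theorem red1_galF {σ : GalQ} (hσ : A.IsFrobeniusAt σ q) (f : FN (M * q))
    (h : f ∈ V1 A q M) (h' : galF (M * q) σ • f ∈ V1 A q M) :
    red1 A q M ⟨_, h'⟩ = phiMod A q M a b hab hq hA (red1 A q M ⟨f, h⟩) := by
  apply Subtype.ext
  rw [coe_red1_galF A q M hσ.mem_decompositionSubgroup f h h']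
  ext n
  rw [coeffMap_coeff, BAD.H73.coe_phiF1_coeff, H33.autkHom_frobenius A hσ]

/-- `w_q` commutes with the coefficientwise Galois action (in the `galF` vocabulary). -/
theorem wq_galF (σ : GalQ) (f : FN (M * q)) :
    wq q M a b hab hq (galF (M * q) σ • f) = galF (M * q) σ • wq q M a b hab hq f :=
  wq_arith q M a b hab hq σ f

/-- **(F-d)** -/
theorem stmt_FrobRed : Stmt_FrobRed := by
  intro A q M a b hab hq _ _ hA σ hσ
  have hdec := hσ.mem_decompositionSubgroup
  refine ⟨fun f hf => galF_mem_V1 A q M hdec hf, ?_, ?_, ?_⟩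
  · intro f hf
    rw [mem_V2_iff, wq_galF]
    exact galF_mem_V1 A q M hdec hf
  · intro f h h'
    exact red1_galF A q M a b hab hq hA hσ f h h'
  · intro f h h'
    have e := wq_galF q M a b hab hq σ f
    have hm : galF (M * q) σ • wq q M a b hab hq f ∈ V1 A q M := e ▸ h'
    have key : red1 A q M ⟨wq q M a b hab hq (galF (M * q) σ • f), h'⟩
        = red1 A q M ⟨_, hm⟩ := by
      congr 1
      exact Subtype.ext e
    show red1 A q M ⟨wq q M a b hab hq (galF (M * q) σ • f), h'⟩
      = phiMod A q M a b hab hq hA (red1 A q M ⟨wq q M a b hab hq f, h⟩)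
    exact key.trans (red1_galF A q M a b hab hq hA hσ _ h hm)

end FrobRed

end Fermat.Agent.S35.H44
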