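import Fermat.Agent.S35.H89_FrobDefs

/-!
# S35, SIGMA package, leaf (F-b) (helper52): `ρ (σ P) = β⁻¹ (ρ P)` for a Frobenius element `σ`

`ρ = rhoF1 = κ⁻¹ ∘ rM ∘ (restriction to level M)`.  Restriction commutes with the coefficientwise
Galois action (`H91.restrictAlong_galF`), the Deuring reduction map of level `M` is equivariant
for the decomposition group (`RED.H33.isRed_decomposition`), the induced automorphism of the
reduced field is the coefficientwise `a ↦ a ^ q` for a Frobenius element
(`RED.H33.autkHom_frobenius`), which is `φ`; and `κ` (transport along an equality of subfields of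
`k((t))`) commutes with semilinear automorphisms given by the same formula on `k((t))`.

* `placeCongr_symm_smul` : the abstract transport statement;
* `stmt_FrobRho : H89.Stmt_FrobRho`.
-/

set_option autoImplicit false
set_option linter.style.haveILetI false
set_option synthInstance.maxHeartbeats 400000
set_option maxHeartbeats 400000
set_option linter.unusedSectionVars false

noncomputable section

open HahnSeries IntermediateField AlgebraicCurve ModularCurve
open Fermat.Agent.S28.H73 Fermat.Agent.RED.H73 Fermat.Agent.RED Fermat.Agent.S24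
open Fermat.Agent.BAD.H88 Fermat.Agent.BAD

namespace Fermat.Agent.S35.H52

section Abs

variable {k X : Type*} [Field k] [Field X] [Algebra k X]

/-- Two semilinear automorphisms with the same action on elements act in the same way on
places. -/
theorem smul_place_congr {E : Type*} [Field E] [Algebra k E] (s₁ s₂ : SemilinearAut k E)
    (e : ∀ y : E, s₁ • y = s₂ • y) (z : Place k E) : s₁ • z = s₂ • z := by
  apply Place.ext
  ext x
  rw [SemilinearAut.smul_toValuationSubring, SemilinearAut.smul_toValuationSubring,
    ValuationSubring.mem_pointwise_smul_iff_inv_smul_mem,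
    ValuationSubring.mem_pointwise_smul_iff_inv_smul_mem]
  have h : s₂⁻¹ • x = s₁⁻¹ • x := by
    have h1 := e (s₁⁻¹ • x)
    rw [smul_inv_smul] at h1
    exact inv_smul_eq_iff.mpr h1
  rw [h]

/-- Transport of places along an equality of intermediate fields commutes with semilinear
automorphisms given by the same formula on the ambient field. -/
theorem placeCongr_symm_smul {E₁ E₂ : IntermediateField k X} (h : E₁ = E₂)
    (s₁ : SemilinearAut k ↥E₁) (s₂ : SemilinearAut k ↥E₂)
    (hs : ∀ (y₁ : ↥E₁) (y₂ : ↥E₂), (y₁ : X) = (y₂ : X) →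
      ((s₁ • y₁ : ↥E₁) : X) = ((s₂ • y₂ : ↥E₂) : X))
    (z : Place k ↥E₂) :
    (H91.placeCongr h).symm (s₂ • z) = s₁ • (H91.placeCongr h).symm z := by
  subst h
  have e : ∀ y : ↥E₁, s₂ • y = s₁ • y := fun y => Subtype.ext (hs y y rfl).symm
  exact smul_place_congr s₂ s₁ e z

end Abs

/-- **(F-b)**: the reduction map is Frobenius-equivariant, `ρ (σ P) = β⁻¹ (ρ P)`. -/
theorem stmt_FrobRho : H89.Stmt_FrobRho := by
  intro A q M a b hab hq _ _ hA hqM ht σ hσ P
  haveI : IsAlgClosed (kV A) := isAlgClosed_kV A
  have hdec : σ ∈ A.decompositionSubgroup ℚ := hσ.mem_decompositionSubgroup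
  rw [H89.betaMod_symm_apply]
  unfold H91.rhoF1 H91.rhoM
  rw [H91.restrictAlong_galF]
  have h1 := RED.H33.isRed_decomposition A (modularFunctionFieldFull M)
    (hasScale_laurentBaseChange A M) (H95.stmt_HKA_isFF M) (H91.isFF_redM hq hqM ht hA)
    (H42.fracScalable_laurentBaseChange A M) hdec (H91.rM_isRed hq hqM ht hA)
    (P.restrictAlong (H91.incl M q) (H91.incl_isIntegral M q))
  refine (congrArg (H91.kappa A q M a b hab hq hA).symm h1).trans ?_
  refine placeCongr_symm_smul _ (H89.phiSemiMod A q M a b hab hq hA)
    (RED.H33.redGalois A (modularFunctionFieldFull M) (hasScale_laurentBaseChange A M) σ hdec)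
    ?_ _
  intro y₁ y₂ hy
  rw [H89.phiSemiMod_smul, RED.H33.coe_redGalois_smul, ← hy]
  ext n
  rw [coeffMap_coeff, RED.H33.autkHom_frobenius A hσ]
  exact H73.coe_phiF1_coeff A q M hq hA M (H82.redField_eq_fullC q M a b hab hq A hA) y₁ n

end Fermat.Agent.S35.H52
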