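import Fermat.Agent.S35.H89_ModStBody
import Fermat.Agent.S35.H30_SigmaFix
import Fermat.Agent.S35.H44_FrobRed
import Fermat.Agent.S35.H52_FrobRho

/-!
# S35: the modular side `Stmt_ModSt M q` at all tame `(M, q)`, unconditionally (helper89)

`stmt_ModSt_tame` from the assembly `modSt_tame_of` and the three leaves
(F-d) helper44, (F-b) helper52, (Σ-fix) helper30.
-/

set_option autoImplicit false

namespace Fermat.Agent.S35.H89

open Fermat.Agent.BAD

/-- **The modular side of S35 at all tame `(M, q)`.** -/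
theorem stmt_ModSt_tame (M q : ℕ) [NeZero M] [NeZero q] (hq : q.Prime) (hqM : ¬ q ∣ M)
    (ht : H91.TameAt M q) : Stmt_ModSt M q :=
  modSt_tame_of Fermat.Agent.S35.H44.stmt_FrobRed Fermat.Agent.S35.H52.stmt_FrobRho
    (Fermat.Agent.S35.H30.sigmaFix_of Fermat.Agent.S35.H52.stmt_FrobRho) M q hq hqM ht

end Fermat.Agent.S35.H89
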