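import Fermat.Agent.S35.H89_ModSt

/-!
# S35 (helper89): the Kummer form `Stmt_StCore` of the Steinberg relation

`Stmt_StCore M q` (`q ∤ M` is not assumed here): for every valuation ring `A` of `ℚ̄` over `q`,
every Frobenius `σ` at `A`, every `n` prime to `q` and every function `f ≠ 0` of level `M q` with
`n ∣ div f` whose divisor has push-forwards `n · div g`, `n · div g'` along the two degeneracy
maps to level `M`:

  `(σ⁴ f) · f ^ (q²) / (σ² f) ^ (q² + 1)` is an `n`-th power in `F_{M q} · ℚ̄`.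

* `torsSt_of_stCore : Stmt_StCore M q → Stmt_TorsSt M q p` (with `c = 0`);
* `stCore_of_modSt : Stmt_GlueFrobGen → Stmt_ModSt M q → Stmt_StCore M q`.

The Kummer form is the one which DESCENDS from the tame auxiliary level `r M q` (`r = 2, 3`) to
level `M q` (Kummer descent `RED.Stmt_KD` + base change of the norm), as for helper91's
`b1core_descend`.
-/

set_option autoImplicit false
set_option linter.style.haveILetI false
set_option maxHeartbeats 1000000

noncomputable section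

open AlgebraicCurve ModularCurve Fermat.Agent.S28.H73 Fermat.Agent.RED.H73

attribute [local instance] Classical.propDecidable

namespace Fermat.Agent.S35.H89

open Fermat.Agent.RED.H17 Fermat.Agent.RED Fermat.Agent.BAD

/-- **Kummer form of (St)** at `(M, q)`. -/
def Stmt_StCore (M q : ℕ) [NeZero M] [NeZero q] : Prop :=
  ∀ A : ValuationSubring (AlgebraicClosure ℚ), A.LiesOverPrime q →
    ∀ σ : GalQ, A.IsFrobeniusAt σ q → ∀ n : ℕ, ¬ q ∣ n →
    ∀ f : ↥(FNbar (M * q)), f ≠ 0 →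
      (∀ P : Place (AlgebraicClosure ℚ) ↥(FNbar (M * q)), (n : ℤ) ∣ P.ord f) →
    ∀ (hα : HeckeAlphaBarIntegral (AlgebraicClosure ℚ) M q)
      (hβ : HeckeBetaBarIntegral (AlgebraicClosure ℚ) M q)
      (D : Divisor (AlgebraicClosure ℚ) ↥(FNbar (M * q))), (∀ P, D P = P.ord f) →
      (∃ g : ↥(FNbar M), g ≠ 0 ∧ ∀ Q : Place (AlgebraicClosure ℚ) ↥(FNbar M),
        Divisor.pushforwardAlong (heckeAlphaBar (AlgebraicClosure ℚ) M q) hα D Q
          = n * Q.ord g) →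
      (∃ g : ↥(FNbar M), g ≠ 0 ∧ ∀ Q : Place (AlgebraicClosure ℚ) ↥(FNbar M),
        Divisor.pushforwardAlong (heckeBetaBar (AlgebraicClosure ℚ) M q) hβ D Q
          = n * Q.ord g) →
      ∃ t : ↥(FNbar (M * q)), t ^ n =
        (galF (M * q) (σ * σ) • (galF (M * q) (σ * σ) • f)) * f ^ (q ^ 2)
          / (galF (M * q) (σ * σ) • f) ^ (q ^ 2 + 1)

section Div

variable {K F : Type*} [Field K] [Field F] [Algebra K F]

/-- The divisor `D / n` for a divisor all of whose coefficients are divisible by `n`. -/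
def divBy (n : ℕ) (D : Divisor K F) : Divisor K F :=
  Finsupp.mapRange (fun a : ℤ => a / (n : ℤ)) (by simp) D

theorem divBy_apply (n : ℕ) (D : Divisor K F) (P : Place K F) :
    divBy n D P = D P / (n : ℤ) := by
  unfold divBy
  rw [Finsupp.mapRange_apply]

theorem nsmul_divBy (n : ℕ) (D : Divisor K F) (h : ∀ P, (n : ℤ) ∣ D P) :
    (n : ℤ) • divBy n D = D := by
  ext P
  rw [Finsupp.smul_apply, divBy_apply, smul_eq_mul]
  exact Int.mul_ediv_cancel' (h P)

end Div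

/-- **`Stmt_TorsSt` from the Kummer form** (with `c = 0`). -/
theorem torsSt_of_stCore (M q p : ℕ) [NeZero M] [NeZero q] (hS : Stmt_StCore M q) :
    Stmt_TorsSt M q p := by
  intro hq _ hp hqp
  refine ⟨0, ?_⟩
  intro A hA σ hσ x hx hnew
  obtain ⟨m, hm⟩ := hx
  obtain ⟨hαI, hβI, D, rfl, hDα, hDβ⟩ := hnew
  rw [pow_zero, one_smul]
  set n : ℕ := p ^ m with hn
  have hqn : ¬ q ∣ n := by
    intro h
    have := hq.dvd_of_dvd_pow h
    exact hqp ((Nat.prime_dvd_prime_iff_eq hq hp).mp this)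
  have hn0 : n ≠ 0 := pow_ne_zero _ hp.ne_zero
  -- the Kummer function
  have hprin : ((n • D : Divisor.degZero (K := AlgebraicClosure ℚ) (F := ↥(FNbar (M * q)))) :
      Divisor (AlgebraicClosure ℚ) ↥(FNbar (M * q))).IsPrincipal := by
    rw [← pic0_mk_eq_zero_iff, pic0_mk_nsmul]
    exact hm
  obtain ⟨f, hf0, hf⟩ := hprin
  have hfD : ∀ P : Place (AlgebraicClosure ℚ) ↥(FNbar (M * q)),
      P.ord f = n * (D : Divisor (AlgebraicClosure ℚ) ↥(FNbar (M * q))) P := by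
    intro P
    rw [← hf P]
    simp
  have hdiv : ∀ P : Place (AlgebraicClosure ℚ) ↥(FNbar (M * q)), (n : ℤ) ∣ P.ord f :=
    fun P => ⟨_, hfD P⟩
  -- the divisor of `f`
  set Df : Divisor (AlgebraicClosure ℚ) ↥(FNbar (M * q)) :=
    (n : ℤ) • (D : Divisor (AlgebraicClosure ℚ) ↥(FNbar (M * q))) with hDf
  have hDf' : ∀ P, Df P = P.ord f := by
    intro P
    rw [hfD P, hDf]
    simp
  have hpush : ∀ (φ : ↥(FNbar M) →ₐ[AlgebraicClosure ℚ] ↥(FNbar (M * q)))
      (hφ : φ.toRingHom.IsIntegral),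
      (Divisor.pushforwardAlong φ hφ
        (D : Divisor (AlgebraicClosure ℚ) ↥(FNbar (M * q)))).IsPrincipal →
      ∃ g : ↥(FNbar M), g ≠ 0 ∧ ∀ Q : Place (AlgebraicClosure ℚ) ↥(FNbar M),
        Divisor.pushforwardAlong φ hφ Df Q = n * Q.ord g := by
    rintro φ hφ ⟨g, hg0, hg⟩
    refine ⟨g, hg0, fun Q => ?_⟩
    rw [hDf, map_zsmul, Finsupp.smul_apply, smul_eq_mul, hg Q]
  obtain ⟨t, ht⟩ := hS A hA σ hσ n hqn f hf0 hdiv hαI hβI Df hDf'
    (hpush _ hαI hDα) (hpush _ hβI hDβ)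
  -- the class
  set τ : SemilinearAut (AlgebraicClosure ℚ) ↥(FNbar (M * q)) := galF (M * q) (σ * σ) with hτdef
  have hσ2 : ∀ y : JZero (M * q), σ • σ • y = τ • y := by
    intro y
    rw [← mul_smul]
    rfl
  rw [hσ2, hσ2, SemilinearAut.pic0_smul_mk, SemilinearAut.pic0_smul_mk,
    ← pic0_mk_nsmul, ← pic0_mk_nsmul, ← pic0_mk_sub, ← Pic0.mk_add, pic0_mk_eq_zero_iff]
  have hτf0 : τ • f ≠ 0 := smul_ne_zero_of_ne_zero τ hf0
  have hττf0 : τ • (τ • f) ≠ 0 := smul_ne_zero_of_ne_zero τ hτf0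
  have ht0 : t ≠ 0 := by
    rintro rfl
    rw [zero_pow hn0] at ht
    exact (div_ne_zero (mul_ne_zero hττf0 (pow_ne_zero _ hf0)) (pow_ne_zero _ hτf0)) ht.symm
  refine ⟨t, ht0, fun P => ?_⟩
  have hordτ : ∀ (P : Place (AlgebraicClosure ℚ) ↥(FNbar (M * q))) (y : ↥(FNbar (M * q))),
      P.ord (τ • y) = (τ⁻¹ • P).ord y := fun P y => ord_smul_eq τ P y
  have h1 : (n : ℤ) * P.ord t = P.ord ((τ • (τ • f)) * f ^ (q ^ 2) / (τ • f) ^ (q ^ 2 + 1)) := by
    rw [← ht, ord_pow]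
  rw [ord_div P (mul_ne_zero hττf0 (pow_ne_zero _ hf0)) (pow_ne_zero _ hτf0),
    P.ord_mul hττf0 (pow_ne_zero _ hf0), ord_pow, ord_pow, hordτ, hordτ, hordτ, hfD, hfD, hfD]
    at h1
  have hnZ : (n : ℤ) ≠ 0 := by exact_mod_cast hn0
  apply mul_left_cancel₀ hnZ
  rw [h1]
  simp only [AddSubgroup.coe_add, AddSubgroup.coe_sub, AddSubgroup.coe_nsmul,
    SemilinearAut.coe_degZeroSMulHom, Finsupp.add_apply, Finsupp.sub_apply, Finsupp.smul_apply,
    SemilinearAut.divisor_smul_apply, nsmul_eq_mul]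
  push_cast
  ring

/-- **The Kummer form from GLUE and the modular datum.** -/
theorem stCore_of_modSt (hG : Stmt_GlueFrobGen) (M q : ℕ) [NeZero M] [NeZero q]
    (hq : q.Prime) (hS : Stmt_ModSt M q) : Stmt_StCore M q := by
  intro A hA σ hσ n hqn f hf0 hdiv hαI hβI D hD hDα hDβ
  obtain ⟨E, iE, iA, S, H, HE, g, g₁, c, c₁, φb, τb, ρ, ρ', β, hR, hRE, hnum, hτb, hτ, htot,
    htot', hβ, hcα, hcβ⟩ := hS A hA σ hσ
  haveI : IsAlgClosed (kV A) := isAlgClosed_kV A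
  have hnk : ((n : ℕ) : kV A) ≠ 0 := H91.natCast_kV_ne_zero A hq hA hqn
  have hn0 : n ≠ 0 := by
    rintro rfl
    exact hqn (dvd_zero q)
  have hnZ : (n : ℤ) ≠ 0 := by exact_mod_cast hn0
  -- the divisor `D / n`
  have hDn : ∀ P, (n : ℤ) ∣ D P := fun P => by rw [hD P]; exact hdiv P
  have hDeq : (n : ℤ) • divBy n D = D := nsmul_divBy n D hDn
  have hnew' : ∀ (φ : ↥(FNbar M) →ₐ[AlgebraicClosure ℚ] ↥(FNbar (M * q)))
      (hφ : φ.toRingHom.IsIntegral)
      (r : Place (AlgebraicClosure ℚ) ↥(FNbar (M * q)) → Place (kV A) E),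
      ((Divisor.pushforwardAlong φ hφ (divBy n D)).IsPrincipal →
        ∃ h : E, h ≠ 0 ∧ ∀ z : Place (kV A) E,
          Finsupp.mapDomain r (divBy n D) z = z.ord h) →
      (∃ g : ↥(FNbar M), g ≠ 0 ∧ ∀ Q : Place (AlgebraicClosure ℚ) ↥(FNbar M),
        Divisor.pushforwardAlong φ hφ D Q = n * Q.ord g) →
      ∃ h : E, h ≠ 0 ∧ ∀ D' : Divisor (AlgebraicClosure ℚ) ↥(FNbar (M * q)),
        (∀ P, D' P = P.ord f) → ∀ z : Place (kV A) E,
          Finsupp.mapDomain r D' z = n * z.ord h := by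
    rintro φ hφ r hc ⟨g, hg0, hg⟩
    have hprin : (Divisor.pushforwardAlong φ hφ (divBy n D)).IsPrincipal := by
      refine ⟨g, hg0, fun Q => ?_⟩
      have h1 := hg Q
      rw [← hDeq, map_zsmul, Finsupp.smul_apply, smul_eq_mul] at h1
      exact mul_left_cancel₀ hnZ h1
    obtain ⟨h, hh0, hh⟩ := hc hprin
    refine ⟨h, hh0, fun D' hD' z => ?_⟩
    have e : D' = (n : ℤ) • divBy n D := by
      rw [hDeq]
      ext P
      rw [hD' P, hD P]
    rw [e, Finsupp.mapDomain_smul, Finsupp.smul_apply, hh z, smul_eq_mul]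
  exact st_abs hG S H HE g g₁ c c₁ hR hRE hnum n hnk (galF (M * q) (σ * σ)) φb τb
    hτb (q ^ 2) hτ ρ ρ' β htot htot' hβ f hf0 hdiv
    (hnew' _ hαI ρ (hcα hαI _) hDα) (hnew' _ hβI ρ' (hcβ hβI _) hDβ)

end Fermat.Agent.S35.H89
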