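import Fermat.Agent.S35.H44_FrobRed
import Fermat.Agent.S35.H52_FrobRho
import Fermat.Agent.S35.H30_SigmaFix
attribute [local instance 10000] SubalgebraClass.toAlgebra
attribute [local instance 10000] HahnSeries.powerSeriesAlgebra

/-!
# S35, SIGMA package (helper44): the square of a Frobenius element is Frobenius-like for the
modular total conservation datum  (E1 of the assembly of `Stmt_ModSt`)

`q ∤ M` tame, `A` over `q`, `σ` a Frobenius element at `A`, `T = modTot`, `φ̄ = phiSemiMod`.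

* `tauBMod` : `τb = φ̄²` as a ring endomorphism of `F₁`;
* `totFrob_mod` : `TotFrob T (galF (σ σ)) τb (q²)`, from (F-d) `stmt_FrobRed`, (F-b)
  `H52.stmt_FrobRho` and (Σ-fix) `H30.sigmaFix_of`, by helper89's `totFrob_of`;
* `phiSemiMod_algebraMap`, `betaMod_ord`, `rhoF1_galF_inv` : the inputs, separately.
-/

set_option autoImplicit false
set_option linter.style.haveILetI false
set_option synthInstance.maxHeartbeats 400000
set_option maxHeartbeats 400000
set_option linter.unusedSectionVars false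

noncomputable section

open HahnSeries IntermediateField AlgebraicCurve ModularCurve
open Fermat.Agent.S28.H73 Fermat.Agent.RED.H73 Fermat.Agent.RED Fermat.Agent.S24
open Fermat.Agent.BAD.H88 Fermat.Agent.BAD Fermat.Agent.S35.H89

namespace Fermat.Agent.S35.H44

section TotFrobMod

variable (A : ValuationSubring Kbar) (q M : ℕ) (a b : ℤ) (hab : a * q + b * M = 1)
  (hq : q.Prime) [NeZero M] [NeZero (M * q)] (hA : A.LiesOverPrime q)

/-- `τb = φ̄²`, the square of the coefficientwise Frobenius of `F₁`. -/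
def tauBMod : F1 A q M →+* F1 A q M :=
  (phiMod A q M a b hab hq hA).toRingHom.comp (phiMod A q M a b hab hq hA).toRingHom

theorem tauBMod_apply (ψ : F1 A q M) :
    tauBMod A q M a b hab hq hA ψ
      = phiSemiMod A q M a b hab hq hA • (phiSemiMod A q M a b hab hq hA • ψ) := rfl

/-- `φ̄` on the constants. -/
theorem phiSemiMod_algebraMap (c : kV A) :
    phiSemiMod A q M a b hab hq hA • algebraMap (kV A) (F1 A q M) c
      = algebraMap (kV A) (F1 A q M) (c ^ q) := by
  haveI : Fact q.Prime := ⟨hq⟩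
  haveI := BAD.H82.charP_kV A hq hA
  haveI := BAD.H73.perfectRing_kV (A := A) (q := q)
  rw [phiSemiMod_smul]
  exact BAD.H73.frobE_algebraMap
    (BAD.H73.frobStable_F1 A q M hq hA M (H82.redField_eq_fullC q M a b hab hq A hA)) c

/-- `ord_{β z} ψ = ord_z (φ̄ ψ)`. -/
theorem betaMod_ord (z : Place (kV A) (F1 A q M)) (ψ : F1 A q M) :
    (betaMod A q M a b hab hq hA z).ord ψ = z.ord (phiSemiMod A q M a b hab hq hA • ψ) := by
  haveI : Fact q.Prime := ⟨hq⟩
  haveI := BAD.H82.charP_kV A hq hA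
  haveI := BAD.H73.perfectRing_kV (A := A) (q := q)
  exact BAD.H73.beta_ord
    (BAD.H73.frobStable_F1 A q M hq hA M (H82.redField_eq_fullC q M a b hab hq A hA)) z ψ

variable (hqM : ¬ q ∣ M) (ht : H91.TameAt M q)

/-- (F-b) for the inverse: `ρ (σ⁻¹ P) = β (ρ P)`. -/
theorem rhoF1_galF_inv {σ : GalQ} (hσ : A.IsFrobeniusAt σ q) (P : Place Kbar (FN (M * q))) :
    H91.rhoF1 a b hab hq hA hqM ht ((galF (M * q) σ)⁻¹ • P)
      = betaMod A q M a b hab hq hA (H91.rhoF1 a b hab hq hA hqM ht P) := by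
  have h := H52.stmt_FrobRho A q M a b hab hq hA hqM ht σ hσ ((galF (M * q) σ)⁻¹ • P)
  rw [smul_inv_smul] at h
  rw [h, Equiv.apply_symm_apply]

/-- **E1**: the square of a Frobenius element is Frobenius-like of exponent `q²` for the modular
total conservation datum, with `τ₁ = τ₂ = φ̄²`. -/
theorem totFrob_mod [NeZero q] {σ : GalQ} (hσ : A.IsFrobeniusAt σ q) :
    TotFrob (modTot A q M a b hab hq hA hqM ht) (galF (M * q) (σ * σ))
      (tauBMod A q M a b hab hq hA) (q ^ 2) := by
  obtain ⟨m1, m2, r1, r2⟩ := stmt_FrobRed A q M a b hab hq hA σ hσ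
  have hmul : galF (M * q) (σ * σ) = galF (M * q) σ * galF (M * q) σ :=
    map_mul (arithmeticGalois (modularFunctionFieldFull (M * q))) σ σ
  have hsm : ∀ f : FN (M * q),
      galF (M * q) (σ * σ) • f = galF (M * q) σ • (galF (M * q) σ • f) := by
    intro f
    rw [hmul, mul_smul]
  refine totFrob_of (phiSemiMod A q M a b hab hq hA) (tauBMod_apply A q M a b hab hq hA)
    (phiSemiMod_algebraMap A q M a b hab hq hA) (betaMod_ord A q M a b hab hq hA)
    (H30.sigmaFix_of H52.stmt_FrobRho A q M a b hab hq hA hqM ht σ hσ) ?_ ?_ ?_ ?_ ?_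
  · intro P
    have e : (galF (M * q) (σ * σ))⁻¹ • P
        = (galF (M * q) σ)⁻¹ • ((galF (M * q) σ)⁻¹ • P) := by
      rw [hmul, mul_inv_rev, mul_smul]
    show H91.rhoF1 a b hab hq hA hqM ht ((galF (M * q) (σ * σ))⁻¹ • P)
      = betaMod A q M a b hab hq hA
          (betaMod A q M a b hab hq hA (H91.rhoF1 a b hab hq hA hqM ht P))
    rw [e, rhoF1_galF_inv A q M a b hab hq hA hqM ht hσ,
      rhoF1_galF_inv A q M a b hab hq hA hqM ht hσ]
  · intro f hf
    rw [hsm]
    exact m1 _ (m1 f hf)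
  · intro f hf
    rw [hsm]
    exact m2 _ (m2 f hf)
  · intro f h h'
    have h1 : galF (M * q) σ • f ∈ V1 A q M := m1 f h
    have h2 : galF (M * q) σ • (galF (M * q) σ • f) ∈ V1 A q M := m1 _ h1
    have key : red1 A q M ⟨galF (M * q) (σ * σ) • f, h'⟩ = red1 A q M ⟨_, h2⟩ :=
      congrArg (red1 A q M) (Subtype.ext (hsm f))
    show red1 A q M ⟨galF (M * q) (σ * σ) • f, h'⟩
      = tauBMod A q M a b hab hq hA (red1 A q M ⟨f, h⟩)
    rw [key, r1 _ h1 h2, r1 f h h1]
    rfl
  · intro f h h'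
    have h1 : galF (M * q) σ • f ∈ V2 A q M a b hab hq := m2 f h
    have h2 : galF (M * q) σ • (galF (M * q) σ • f) ∈ V2 A q M a b hab hq := m2 _ h1
    have key : red2 A q M a b hab hq ⟨galF (M * q) (σ * σ) • f, h'⟩
        = red2 A q M a b hab hq ⟨_, h2⟩ :=
      congrArg (red2 A q M a b hab hq) (Subtype.ext (hsm f))
    show red2 A q M a b hab hq ⟨galF (M * q) (σ * σ) • f, h'⟩
      = tauBMod A q M a b hab hq hA (red2 A q M a b hab hq ⟨f, h⟩)
    rw [key, r2 _ h1 h2, r2 f h h1]
    rfl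

end TotFrobMod

end Fermat.Agent.S35.H44
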