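import Mathlib
import Fermat.Prelude.Def_ModularCurve_HeckeModule
import Fermat.Prelude.Def_ModularCurve_HeckeOperator
import Fermat.Prelude.Def_ModularCurve_ArithmeticGalois
import Fermat.Prelude.Def_FLTPrelim_Ramification
import Fermat.Prelude.Def_EllipticCurve_FrobeniusTrace

/-!
# Torsion-level interfaces of S35 / S36  (helper89; rows 34, 35; item 65)

Level `M * q`; the two degeneracy maps `α, β : X₀(M q) → X₀(M)` are the prelude embeddings
`heckeAlphaBar ℚ̄ M q`, `heckeBetaBar ℚ̄ M q : F_M ℚ̄ → F_{M q} ℚ̄`.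

* `IsQNew M q x` : the class `x ∈ J₀(M q)` is `q`-new: `α_* x = 0` and `β_* x = 0` in `J₀(M)`.
* `Stmt_TorsSt M q p` (**Steinberg**, `q ∤ M`): a power `p^c` kills
  `(φ² - 1)(φ² - q²) x` for every Frobenius lift `φ` at `q` and every `q`-new `x ∈ J₀(M q)[p^∞]`.
* `Stmt_TorsNU M q p` (**Carayol**, `q ∥ M`): a power `p^c` kills every `q`-new
  `x ∈ J₀(M q)[p^∞]` fixed by an inertia group at `q`.

These are the torsion-level inputs of `Stmt_TatePieceSt`, `Stmt_TatePieceNU`
(`Fermat/Agent/S35/H89_Final.lean`).  Definitions only.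
-/

set_option autoImplicit false

noncomputable section

open AlgebraicCurve ModularCurve

namespace Fermat.Agent.S35.H89

/-- `x ∈ J₀(M q)` is **`q`-new**: it has a representative `D` of degree `0` whose pushforwards
along both degeneracy maps to level `M` are principal. -/
def IsQNew (M q : ℕ) [NeZero M] [NeZero q] (x : JZero (M * q)) : Prop :=
  ∃ (hα : HeckeAlphaBarIntegral (AlgebraicClosure ℚ) M q)
    (hβ : HeckeBetaBarIntegral (AlgebraicClosure ℚ) M q)
    (D : Divisor.degZero (K := AlgebraicClosure ℚ) (F := ↥(modularFunctionFieldBar (M * q)))),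
    x = Pic0.mk D ∧
    (Divisor.pushforwardAlong (heckeAlphaBar (AlgebraicClosure ℚ) M q) hα
      (D : Divisor (AlgebraicClosure ℚ) ↥(modularFunctionFieldBar (M * q)))).IsPrincipal ∧
    (Divisor.pushforwardAlong (heckeBetaBar (AlgebraicClosure ℚ) M q) hβ
      (D : Divisor (AlgebraicClosure ℚ) ↥(modularFunctionFieldBar (M * q)))).IsPrincipal

/-- **(St)**: at a prime `q ∤ M`, `p` prime, `q ≠ p`: up to a bounded power of `p`, every Frobenius lift
`φ` at `q` satisfies `(φ² - 1)(φ² - q²) = 0` on the `q`-new `p`-power torsion of `J₀(M q)`. -/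
def Stmt_TorsSt (M q p : ℕ) [NeZero M] [NeZero q] : Prop :=
  q.Prime → ¬ q ∣ M → p.Prime → q ≠ p →
    ∃ c : ℕ, ∀ A : ValuationSubring (AlgebraicClosure ℚ), A.LiesOverPrime q →
      ∀ σ : AlgebraicClosure ℚ ≃ₐ[ℚ] AlgebraicClosure ℚ, A.IsFrobeniusAt σ q →
        ∀ x : JZero (M * q), (∃ n : ℕ, p ^ n • x = 0) → IsQNew M q x →
          p ^ c • (σ • σ • σ • σ • x - (q ^ 2 + 1) • σ • σ • x + q ^ 2 • x) = 0

/-- **(NU)**: at a prime `q ∥ M`, `p` prime, `q ≠ p`: up to a bounded power of `p`, no `q`-new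
`p`-power torsion point of `J₀(M q)` is fixed by inertia at `q`. -/
def Stmt_TorsNU (M q p : ℕ) [NeZero M] [NeZero q] : Prop :=
  q.Prime → q ∣ M → ¬ q ^ 2 ∣ M → p.Prime → q ≠ p →
    ∃ A : ValuationSubring (AlgebraicClosure ℚ), A.LiesOverPrime q ∧
      ∃ c : ℕ, ∀ x : JZero (M * q), (∃ n : ℕ, p ^ n • x = 0) → IsQNew M q x →
        (∀ σ ∈ A.inertiaSubgroupIn ℚ, σ • x = x) → p ^ c • x = 0

end Fermat.Agent.S35.H89
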