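import Fermat.Agent.S35.H89_StAbs
import Fermat.Agent.S35.H89_TorsDefs
import Fermat.Agent.BAD.H91_Assemble

/-!
# S35 (helper89): the modular interface `Stmt_ModSt` and `Stmt_TorsSt` from it

`Stmt_ModSt M q` = what the modular side (item 65, BAD_q) has to provide for S35, for every
valuation ring `A` of `ℚ̄` over `q ∤ M` and every Frobenius element `σ` at `A`
(`F = F_{Mq} · ℚ̄`, `k` = residue field of `A`):

* a semistable Deuring datum `S` for `F` whose two residue fields are the SAME function field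
  `E / k` (modular: `E` = residue field of the Gauss valuation, `red₂ = red₁ ∘ w_q`), with
  Riemann's theorem and enough nodes (as in `BAD.Stmt_ModSSD`);
* a semilinear automorphism `φ̄` of `E / k` (coefficientwise Frobenius) such that `τ = σ²` is
  Frobenius-like of exponent `q²` with `τ₁ = τ₂ = φ̄²`;
* maps `ρ, ρ' : Place F → Place E` (reduction of the image of a point under the two degeneracy
  maps `α`, `β`) and `β : Place E → Place E` with the two laws of TOTAL conservation (helper79's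
  `tot` and its `w_q`-mirror) and `ord_{β z} ψ = ord_z (φ̄ ψ)`;
* conservation at level `M`: if `α_* D` is principal then `ρ_* D` is principal; same for `β`.

`torsSt_of_modSt : Stmt_GlueFrobGen → Stmt_ModSt M q → Stmt_TorsSt M q p`   (with `c = 0`).
-/

set_option autoImplicit false
set_option linter.style.haveILetI false
set_option maxHeartbeats 1000000

noncomputable section

open AlgebraicCurve ModularCurve Fermat.Agent.S28.H73 Fermat.Agent.RED.H73

attribute [local instance] Classical.propDecidable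

namespace Fermat.Agent.S35.H89

open Fermat.Agent.RED.H17 Fermat.Agent.RED Fermat.Agent.BAD

/-- **The modular side of S35** at `(M, q)`. -/
def Stmt_ModSt (M q : ℕ) [NeZero M] [NeZero q] : Prop :=
  ∀ A : ValuationSubring (AlgebraicClosure ℚ), A.LiesOverPrime q →
    ∀ σ : GalQ, A.IsFrobeniusAt σ q →
    ∃ (E : Type) (_ : Field E) (_ : Algebra (kV A) E)
      (S : SSD (AlgebraicClosure ℚ) ↥(FNbar (M * q)) (kV A) E E)
      (_ : FFHyp (AlgebraicClosure ℚ) ↥(FNbar (M * q))) (_ : FFHyp (kV A) E)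
      (g g₁ : ℕ) (c c₁ : ℤ) (φb : SemilinearAut (kV A) E) (τb : E →+* E)
      (ρ ρ' : Place (AlgebraicClosure ℚ) ↥(FNbar (M * q)) → Place (kV A) E)
      (β : Place (kV A) E → Place (kV A) E),
      IsGenus (AlgebraicClosure ℚ) ↥(FNbar (M * q)) g c ∧ IsGenus (kV A) E g₁ c₁ ∧
      g + 1 ≤ g₁ + g₁ + S.nodes.card ∧
      (∀ ψ : E, τb ψ = φb • (φb • ψ)) ∧
      S.IsFrobLike (galF (M * q) (σ * σ)) τb τb (q ^ 2) ∧
      (∀ (u₁ : S.c₁.V) (u₂ : S.c₂.V), S.c₁.red u₁ ≠ 0 → S.c₂.red u₂ ≠ 0 →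
        (∃ a : AlgebraicClosure ℚ, (u₂ : ↥(FNbar (M * q))) =
          algebraMap (AlgebraicClosure ℚ) ↥(FNbar (M * q)) a * (u₁ : ↥(FNbar (M * q)))) →
        ∀ D : Divisor (AlgebraicClosure ℚ) ↥(FNbar (M * q)),
          (∀ P, D P = P.ord (u₁ : ↥(FNbar (M * q)))) → ∀ z : Place (kV A) E,
          Finsupp.mapDomain ρ D z = z.ord (S.c₁.red u₁) + (β z).ord (S.c₂.red u₂)) ∧
      (∀ (u₁ : S.c₁.V) (u₂ : S.c₂.V), S.c₁.red u₁ ≠ 0 → S.c₂.red u₂ ≠ 0 →
        (∃ a : AlgebraicClosure ℚ, (u₂ : ↥(FNbar (M * q))) =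
          algebraMap (AlgebraicClosure ℚ) ↥(FNbar (M * q)) a * (u₁ : ↥(FNbar (M * q)))) →
        ∀ D : Divisor (AlgebraicClosure ℚ) ↥(FNbar (M * q)),
          (∀ P, D P = P.ord (u₁ : ↥(FNbar (M * q)))) → ∀ z : Place (kV A) E,
          Finsupp.mapDomain ρ' D z = z.ord (S.c₂.red u₂) + (β z).ord (S.c₁.red u₁)) ∧
      (∀ (z : Place (kV A) E) (ψ : E), (β z).ord ψ = z.ord (φb • ψ)) ∧
      (∀ (hα : HeckeAlphaBarIntegral (AlgebraicClosure ℚ) M q)
        (D : Divisor (AlgebraicClosure ℚ) ↥(FNbar (M * q))),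
        (Divisor.pushforwardAlong (heckeAlphaBar (AlgebraicClosure ℚ) M q) hα D).IsPrincipal →
        ∃ h : E, h ≠ 0 ∧ ∀ z : Place (kV A) E, Finsupp.mapDomain ρ D z = z.ord h) ∧
      (∀ (hβ : HeckeBetaBarIntegral (AlgebraicClosure ℚ) M q)
        (D : Divisor (AlgebraicClosure ℚ) ↥(FNbar (M * q))),
        (Divisor.pushforwardAlong (heckeBetaBar (AlgebraicClosure ℚ) M q) hβ D).IsPrincipal →
        ∃ h : E, h ≠ 0 ∧ ∀ z : Place (kV A) E, Finsupp.mapDomain ρ' D z = z.ord h)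

section Pic

variable {K F : Type*} [Field K] [Field F] [Algebra K F]

/-- A class is zero iff a representative is principal. -/
theorem pic0_mk_eq_zero_iff (D : Divisor.degZero (K := K) (F := F)) :
    Pic0.mk D = 0 ↔ (D : Divisor K F).IsPrincipal := by
  rw [Pic0.mk, QuotientAddGroup.eq_zero_iff, AddSubgroup.mem_addSubgroupOf]
  exact Divisor.mem_principal

theorem pic0_mk_nsmul (n : ℕ) (D : Divisor.degZero (K := K) (F := F)) :
    Pic0.mk (n • D) = n • Pic0.mk D := rfl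

theorem pic0_mk_sub (D D' : Divisor.degZero (K := K) (F := F)) :
    Pic0.mk (D - D') = Pic0.mk D - Pic0.mk D' := rfl

end Pic

/-- **`Stmt_TorsSt` from GLUE and the modular datum** (with `c = 0`). -/
theorem torsSt_of_modSt (hG : Stmt_GlueFrobGen) (M q p : ℕ) [NeZero M] [NeZero q]
    (hS : Stmt_ModSt M q) : Stmt_TorsSt M q p := by
  intro hq _ hp hqp
  refine ⟨0, ?_⟩
  intro A hA σ hσ x hx hnew
  obtain ⟨m, hm⟩ := hx
  obtain ⟨hαI, hβI, D, rfl, hDα, hDβ⟩ := hnew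
  rw [pow_zero, one_smul]
  obtain ⟨E, iE, iA, S, H, HE, g, g₁, c, c₁, φb, τb, ρ, ρ', β, hR, hRE, hnum, hτb, hτ, htot,
    htot', hβ, hcα, hcβ⟩ := hS A hA σ hσ
  haveI : IsAlgClosed (kV A) := isAlgClosed_kV A
  set n : ℕ := p ^ m with hn
  have hqn : ¬ q ∣ n := by
    intro h
    have := hq.dvd_of_dvd_pow h
    exact hqp ((Nat.prime_dvd_prime_iff_eq hq hp).mp this)
  have hnk : ((n : ℕ) : kV A) ≠ 0 := H91.natCast_kV_ne_zero A hq hA hqn
  have hn0 : n ≠ 0 := pow_ne_zero _ hp.ne_zero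
  -- the Kummer function
  have hprin : ((n • D : Divisor.degZero (K := AlgebraicClosure ℚ) (F := ↥(FNbar (M * q)))) :
      Divisor (AlgebraicClosure ℚ) ↥(FNbar (M * q))).IsPrincipal := by
    rw [← pic0_mk_eq_zero_iff, pic0_mk_nsmul]
    exact hm
  obtain ⟨f, hf0, hf⟩ := hprin
  have hfD : ∀ P : Place (AlgebraicClosure ℚ) ↥(FNbar (M * q)),
      P.ord f = n * (D : Divisor (AlgebraicClosure ℚ) ↥(FNbar (M * q))) P := by
    intro P
    rw [← hf P]
    simp
  have hdiv : ∀ P : Place (AlgebraicClosure ℚ) ↥(FNbar (M * q)), (n : ℤ) ∣ P.ord f :=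
    fun P => ⟨_, hfD P⟩
  -- `q`-newness, in reduced form
  have hnew' : ∀ (r : Place (AlgebraicClosure ℚ) ↥(FNbar (M * q)) → Place (kV A) E),
      (∃ h : E, h ≠ 0 ∧ ∀ z : Place (kV A) E,
        Finsupp.mapDomain r (D : Divisor (AlgebraicClosure ℚ) ↥(FNbar (M * q))) z = z.ord h) →
      ∃ h : E, h ≠ 0 ∧ ∀ D' : Divisor (AlgebraicClosure ℚ) ↥(FNbar (M * q)),
        (∀ P, D' P = P.ord f) → ∀ z : Place (kV A) E,
          Finsupp.mapDomain r D' z = n * z.ord h := by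
    rintro r ⟨h, hh0, hh⟩
    refine ⟨h, hh0, fun D' hD' z => ?_⟩
    have e : D' = (n : ℤ) • (D : Divisor (AlgebraicClosure ℚ) ↥(FNbar (M * q))) := by
      ext P
      rw [hD' P, hfD P]
      simp
    rw [e, Finsupp.mapDomain_smul, Finsupp.smul_apply, hh z, smul_eq_mul]
  obtain ⟨t, ht⟩ := st_abs hG S H HE g g₁ c c₁ hR hRE hnum n hnk (galF (M * q) (σ * σ)) φb τb
    hτb (q ^ 2) hτ ρ ρ' β htot htot' hβ f hf0 hdiv (hnew' ρ (hcα hαI _ hDα))
    (hnew' ρ' (hcβ hβI _ hDβ))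
  -- the class
  set τ : SemilinearAut (AlgebraicClosure ℚ) ↥(FNbar (M * q)) := galF (M * q) (σ * σ) with hτdef
  have hσ2 : ∀ y : JZero (M * q), σ • σ • y = τ • y := by
    intro y
    rw [← mul_smul]
    rfl
  rw [hσ2, hσ2, SemilinearAut.pic0_smul_mk, SemilinearAut.pic0_smul_mk,
    ← pic0_mk_nsmul, ← pic0_mk_nsmul, ← pic0_mk_sub, ← Pic0.mk_add, pic0_mk_eq_zero_iff]
  have hτf0 : τ • f ≠ 0 := smul_ne_zero_of_ne_zero τ hf0
  have hττf0 : τ • (τ • f) ≠ 0 := smul_ne_zero_of_ne_zero τ hτf0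
  have ht0 : t ≠ 0 := by
    rintro rfl
    rw [zero_pow hn0] at ht
    exact (div_ne_zero (mul_ne_zero hττf0 (pow_ne_zero _ hf0)) (pow_ne_zero _ hτf0)) ht.symm
  refine ⟨t, ht0, fun P => ?_⟩
  have hordτ : ∀ (P : Place (AlgebraicClosure ℚ) ↥(FNbar (M * q))) (y : ↥(FNbar (M * q))),
      P.ord (τ • y) = (τ⁻¹ • P).ord y := fun P y => ord_smul_eq τ P y
  have h1 : (n : ℤ) * P.ord t = P.ord ((τ • (τ • f)) * f ^ (q ^ 2) / (τ • f) ^ (q ^ 2 + 1)) := by
    rw [← ht, ord_pow]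
  rw [ord_div P (mul_ne_zero hττf0 (pow_ne_zero _ hf0)) (pow_ne_zero _ hτf0),
    P.ord_mul hττf0 (pow_ne_zero _ hf0), ord_pow, ord_pow, hordτ, hordτ, hordτ, hfD, hfD, hfD]
    at h1
  have hnZ : (n : ℤ) ≠ 0 := by exact_mod_cast hn0
  apply mul_left_cancel₀ hnZ
  rw [h1]
  simp only [AddSubgroup.coe_add, AddSubgroup.coe_sub, AddSubgroup.coe_nsmul,
    SemilinearAut.coe_degZeroSMulHom, Finsupp.add_apply, Finsupp.sub_apply, Finsupp.smul_apply,
    SemilinearAut.divisor_smul_apply, smul_eq_mul, nsmul_eq_mul]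
  push_cast
  ring

end Fermat.Agent.S35.H89
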