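import Fermat.Agent.S35.H89_FrobDefs
import Fermat.Agent.S35.H89_ModSt
import Fermat.Agent.BAD.H79_Mirror
import Fermat.Agent.BAD.H30_Sigma1

/-!
# S35, the modular side `Stmt_ModSt M q` at all tame `(M, q)` (helper89)

Assembly of the modular semistable Deuring datum with a Frobenius-like automorphism:

* `frobRed_sq`, `frobRho_sq` : the squares of (F-d), (F-b);
* `modTotFrob` : `TotFrob (modTot ..) (galF (σ σ)) (φ ∘ φ) (q ^ 2)`;
* `cons_alpha`, `cons_beta` : conservation at level `M` (helper79's (E4));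
* `modSt_tame_of : Stmt_FrobRed → Stmt_FrobRho → Stmt_SigmaFix → ∀ tame (M, q), Stmt_ModSt M q`.
-/

set_option autoImplicit false
set_option linter.style.haveILetI false
set_option linter.unusedSectionVars false
set_option synthInstance.maxHeartbeats 400000
set_option maxHeartbeats 1000000

noncomputable section

open HahnSeries IntermediateField AlgebraicCurve ModularCurve
open Fermat.Agent.S28.H73 Fermat.Agent.RED.H73 Fermat.Agent.RED Fermat.Agent.S24
open Fermat.Agent.BAD.H88 Fermat.Agent.BAD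

namespace Fermat.Agent.S35.H89

section Pieces

variable (A : ValuationSubring Kbar) (q M : ℕ) (a b : ℤ) (hab : a * q + b * M = 1)
  (hq : q.Prime) [NeZero M] [NeZero (M * q)] [NeZero q] (hA : A.LiesOverPrime q)

/-- `τb = φ ∘ φ`. -/
def tauMod : F1 A q M →+* F1 A q M :=
  ((phiMod A q M a b hab hq hA : F1 A q M →+* F1 A q M)).comp
    (phiMod A q M a b hab hq hA : F1 A q M →+* F1 A q M)

theorem tauMod_apply (ψ : F1 A q M) :
    tauMod A q M a b hab hq hA ψ
      = phiSemiMod A q M a b hab hq hA • (phiSemiMod A q M a b hab hq hA • ψ) := rfl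

theorem galF_sq_smul (σ : GalQ) (f : FN (M * q)) :
    galF (M * q) (σ * σ) • f = galF (M * q) σ • (galF (M * q) σ • f) := by
  show arithmeticGalois (modularFunctionFieldFull (M * q)) (σ * σ) • f = _
  rw [map_mul, mul_smul]

theorem galF_sq_inv_smul (σ : GalQ) (P : Place Kbar (FN (M * q))) :
    (galF (M * q) (σ * σ))⁻¹ • P = (galF (M * q) σ)⁻¹ • ((galF (M * q) σ)⁻¹ • P) := by
  show (arithmeticGalois (modularFunctionFieldFull (M * q)) (σ * σ))⁻¹ • P = _
  rw [map_mul, mul_inv_rev, mul_smul]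

variable (hRed : Stmt_FrobRed) (hRho : Stmt_FrobRho)

include hRed in
/-- The square of (F-d). -/
theorem frobRed_sq (σ : GalQ) (hσ : A.IsFrobeniusAt σ q) :
    (∀ f : FN (M * q), f ∈ V1 A q M → galF (M * q) (σ * σ) • f ∈ V1 A q M) ∧
    (∀ f : FN (M * q), f ∈ V2 A q M a b hab hq →
      galF (M * q) (σ * σ) • f ∈ V2 A q M a b hab hq) ∧
    (∀ (f : FN (M * q)) (h : f ∈ V1 A q M) (h' : galF (M * q) (σ * σ) • f ∈ V1 A q M),
      red1 A q M ⟨_, h'⟩ = tauMod A q M a b hab hq hA (red1 A q M ⟨f, h⟩)) ∧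
    (∀ (f : FN (M * q)) (h : f ∈ V2 A q M a b hab hq)
      (h' : galF (M * q) (σ * σ) • f ∈ V2 A q M a b hab hq),
      red2 A q M a b hab hq ⟨_, h'⟩
        = tauMod A q M a b hab hq hA (red2 A q M a b hab hq ⟨f, h⟩)) := by
  obtain ⟨m1, m2, r1, r2⟩ := hRed A q M a b hab hq hA σ hσ
  refine ⟨fun f hf => ?_, fun f hf => ?_, fun f h h' => ?_, fun f h h' => ?_⟩
  · rw [galF_sq_smul]
    exact m1 _ (m1 _ hf)
  · rw [galF_sq_smul]
    exact m2 _ (m2 _ hf)
  · have e := galF_sq_smul q M σ f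
    have h1 : galF (M * q) σ • f ∈ V1 A q M := m1 _ h
    have h2 : galF (M * q) σ • (galF (M * q) σ • f) ∈ V1 A q M := m1 _ h1
    have e' : (⟨galF (M * q) (σ * σ) • f, h'⟩ : ↥(V1 A q M))
        = ⟨galF (M * q) σ • (galF (M * q) σ • f), h2⟩ := Subtype.ext e
    rw [e', r1 _ h1 h2, r1 _ h h1]
    rfl
  · have e := galF_sq_smul q M σ f
    have h1 : galF (M * q) σ • f ∈ V2 A q M a b hab hq := m2 _ h
    have h2 : galF (M * q) σ • (galF (M * q) σ • f) ∈ V2 A q M a b hab hq := m2 _ h1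
    have e' : (⟨galF (M * q) (σ * σ) • f, h'⟩ : ↥(V2 A q M a b hab hq))
        = ⟨galF (M * q) σ • (galF (M * q) σ • f), h2⟩ := Subtype.ext e
    rw [e', r2 _ h1 h2, r2 _ h h1]
    rfl

variable (hqM : ¬ q ∣ M) (ht : H91.TameAt M q)

include hRho in
/-- (F-b) for the inverse. -/
theorem frobRho_inv (σ : GalQ) (hσ : A.IsFrobeniusAt σ q) (P : Place Kbar (FN (M * q))) :
    H91.rhoF1 a b hab hq hA hqM ht ((galF (M * q) σ)⁻¹ • P)
      = betaMod A q M a b hab hq hA (H91.rhoF1 a b hab hq hA hqM ht P) := by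
  have h := hRho A q M a b hab hq hA hqM ht σ hσ ((galF (M * q) σ)⁻¹ • P)
  rw [smul_inv_smul] at h
  rw [h, Equiv.apply_symm_apply]

include hRho in
/-- The square of (F-b). -/
theorem frobRho_sq (σ : GalQ) (hσ : A.IsFrobeniusAt σ q) (P : Place Kbar (FN (M * q))) :
    H91.rhoF1 a b hab hq hA hqM ht ((galF (M * q) (σ * σ))⁻¹ • P)
      = betaMod A q M a b hab hq hA
          (betaMod A q M a b hab hq hA (H91.rhoF1 a b hab hq hA hqM ht P)) := by
  rw [galF_sq_inv_smul, frobRho_inv A q M a b hab hq hA hRho hqM ht σ hσ,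
    frobRho_inv A q M a b hab hq hA hRho hqM ht σ hσ]

variable (hFix : Stmt_SigmaFix)

include hRed hRho hFix in
/-- **The Frobenius-like conditions for the modular total conservation datum.** -/
theorem modTotFrob (σ : GalQ) (hσ : A.IsFrobeniusAt σ q) :
    TotFrob (modTot A q M a b hab hq hA hqM ht) (galF (M * q) (σ * σ))
      (tauMod A q M a b hab hq hA) (q ^ 2) := by
  obtain ⟨m1, m2, r1, r2⟩ := frobRed_sq A q M a b hab hq hA hRed σ hσ
  refine totFrob_of (T := modTot A q M a b hab hq hA hqM ht)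
    (phiSemiMod A q M a b hab hq hA) (tauMod_apply A q M a b hab hq hA) ?_ ?_ ?_ ?_
    m1 m2 r1 r2
  · intro c
    exact BAD.H73.phiF1_algebraMap A q M hq hA M (H82.redField_eq_fullC q M a b hab hq A hA) c
  · intro z ψ
    exact BAD.H73.betaF1_ord A q M hq hA M (H82.redField_eq_fullC q M a b hab hq A hA) z ψ
  · intro z hz
    exact hFix A q M a b hab hq hA hqM ht σ hσ z hz
  · intro P
    exact frobRho_sq A q M a b hab hq hA hRho hqM ht σ hσ P

/-- Transport of a function of the reduced field of level `M` to `F₁`. -/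
def toF1 : ↥(H91.redM A M) →ₐ[kV A] F1 A q M :=
  IntermediateField.inclusion (le_of_eq (H82.redField_eq_redField q M a b hab hq A hA).symm)

theorem coe_toF1 (y : ↥(H91.redM A M)) :
    ((toF1 A q M a b hab hq hA y : F1 A q M) : LaurentSeries (kV A))
      = (y : LaurentSeries (kV A)) :=
  IntermediateField.coe_inclusion _ y

theorem toF1_ne_zero {y : ↥(H91.redM A M)} (hy : y ≠ 0) : toF1 A q M a b hab hq hA y ≠ 0 :=
  (map_ne_zero_iff _ (toF1 A q M a b hab hq hA).toRingHom.injective).2 hy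

theorem kappa_ord_toF1 (z : Place (kV A) (F1 A q M)) (y : ↥(H91.redM A M)) :
    (H91.kappa A q M a b hab hq hA z).ord y = z.ord (toF1 A q M a b hab hq hA y) :=
  H91.kappa_ord A q M a b hab hq hA z (toF1 A q M a b hab hq hA y) y
    (coe_toF1 A q M a b hab hq hA y)

/-- **(E4)** for `α` and `ρ`. -/
theorem cons_alpha (hα : HeckeAlphaBarIntegral Kbar M q) (D : Divisor Kbar (FN (M * q)))
    (hD : (Divisor.pushforwardAlong (heckeAlphaBar Kbar M q) hα D).IsPrincipal) :
    ∃ h : F1 A q M, h ≠ 0 ∧ ∀ z : Place (kV A) (F1 A q M),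
      Finsupp.mapDomain (H91.rhoF1 a b hab hq hA hqM ht) D z = z.ord h := by
  obtain ⟨h, h0, hh⟩ := H79.conserve_along (heckeAlphaBar Kbar M q) hα (H91.seM hq hqM ht hA)
    (fun w => BAD.H30.sigma1_inertiaDegAlong_eq_one (heckeAlphaBar Kbar M q) hα
      (fun v => S15.H22.place_deg_eq_one M v) (fun v => S15.H22.place_deg_eq_one (M * q) v) w)
    (H91.rhoF1 a b hab hq hA hqM ht) (H91.kappa A q M a b hab hq hA)
    (H91.kappa A q M a b hab hq hA).injective
    (fun P => H91.kappa_rhoF1 a b hab hq hA hqM ht P) D hD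
  refine ⟨toF1 A q M a b hab hq hA h, toF1_ne_zero A q M a b hab hq hA h0, fun z => ?_⟩
  rw [hh z, kappa_ord_toF1]

/-- **(E4)** for `β` and the mirrored reduction map `ρ' = ρ ∘ w_q`. -/
theorem cons_beta (hβ : HeckeBetaBarIntegral Kbar M q) (D : Divisor Kbar (FN (M * q)))
    (hD : (Divisor.pushforwardAlong (heckeBetaBar Kbar M q) hβ D).IsPrincipal) :
    ∃ h : F1 A q M, h ≠ 0 ∧ ∀ z : Place (kV A) (F1 A q M),
      Finsupp.mapDomain
        (fun P => H91.rhoF1 a b hab hq hA hqM ht (wq q M a b hab hq • P)) D z = z.ord h := by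
  obtain ⟨h, h0, hh⟩ := H79.conserve_along_mirror (heckeAlphaBar Kbar M q)
    (H91.incl_isIntegral M q) (wq q M a b hab hq) (wq_wq q M a b hab hq)
    (heckeBetaBar Kbar M q) hβ (fun x => (wq_alpha q M a b hab hq x).symm)
    (H91.seM hq hqM ht hA)
    (fun w => BAD.H30.sigma1_inertiaDegAlong_eq_one (heckeBetaBar Kbar M q) hβ
      (fun v => S15.H22.place_deg_eq_one M v) (fun v => S15.H22.place_deg_eq_one (M * q) v) w)
    (H91.rhoF1 a b hab hq hA hqM ht) (H91.kappa A q M a b hab hq hA)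
    (H91.kappa A q M a b hab hq hA).injective
    (fun P => H91.kappa_rhoF1 a b hab hq hA hqM ht P) D hD
  refine ⟨toF1 A q M a b hab hq hA h, toF1_ne_zero A q M a b hab hq hA h0, fun z => ?_⟩
  rw [hh z, kappa_ord_toF1]

end Pieces

end Fermat.Agent.S35.H89
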