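import Fermat.Agent.BAD.H60_GlueFrob

/-!
# S35 (helper89): GLUE for Frobenius-like automorphisms, general form

`Stmt_GlueFrobGen`: helper28's `Stmt_GlueFrob` with the hypotheses "`red₁ f = 1`,
`red₂ (f / c₀ ^ n) = 1`" replaced by "the two (scaled) reductions of `f` are `n`-th powers"
(this is the form in which the toric part `T = ker red₁ ∩ ker red₂` appears in S35; passing from
one form to the other would need an approximation theorem).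

* `glueCore` : a unit `F_h` for both valuations without zero or pole on the fibres of the nodes,
  whose reductions are `n`-th powers and whose divisor is divisible by `n`, satisfies
  `τ F_h / F_h ^ Q ∈ (F^×)^n`  (second half of helper60's proof of `Stmt_GlueFrob`).
* `glueFrobGen_of : Stmt_Moving → Stmt_GoodLift → Stmt_TIss → Stmt_GlueFrobGen`.
-/

set_option autoImplicit false
set_option linter.style.haveILetI false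
set_option maxHeartbeats 1000000

noncomputable section

open AlgebraicCurve

attribute [local instance] Classical.propDecidable

namespace Fermat.Agent.S35.H89

open Fermat.Agent.RED.H17 Fermat.Agent.RED Fermat.Agent.BAD Fermat.Agent.BAD.H60

/-- **GLUE, Frobenius form, general hypotheses.** -/
def Stmt_GlueFrobGen : Prop :=
  ∀ (K F k F₁ F₂ : Type) [Field K] [Field F] [Algebra K F] [Field k] [Field F₁]
    [Algebra k F₁] [Field F₂] [Algebra k F₂] [IsAlgClosed K] [IsAlgClosed k]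
    (S : SSD K F k F₁ F₂) (_ : FFHyp K F) (_ : FFHyp k F₁) (_ : FFHyp k F₂)
    (g g₁ g₂ : ℕ) (c c₁ c₂ : ℤ), IsGenus K F g c → IsGenus k F₁ g₁ c₁ → IsGenus k F₂ g₂ c₂ →
    g + 1 ≤ g₁ + g₂ + S.nodes.card →
    ∀ (n : ℕ), (n : k) ≠ 0 →
    ∀ (τ : SemilinearAut K F) (τ₁ : F₁ →+* F₁) (τ₂ : F₂ →+* F₂) (Q : ℕ),
      S.IsFrobLike τ τ₁ τ₂ Q →
    ∀ (f : F) (a₁ a₂ : K) (h₁ : F₁) (h₂ : F₂), h₁ ≠ 0 → h₂ ≠ 0 →
      algebraMap K F a₁ * f ∈ S.c₁.V → S.c₁.rd (algebraMap K F a₁ * f) = h₁ ^ n →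
      algebraMap K F a₂ * f ∈ S.c₂.V → S.c₂.rd (algebraMap K F a₂ * f) = h₂ ^ n →
      (∀ P : Place K F, (n : ℤ) ∣ P.ord f) →
      ∃ t : F, t ^ n = (τ • f) / f ^ Q

/-- The core of GLUE: for a unit `F_h` for both valuations, without zero or pole on the fibres
of the nodes, with reductions `ψ₁ ^ n`, `ψ₂ ^ n` and divisor divisible by `n`, the function
`τ F_h / F_h ^ Q` is an `n`-th power. -/
theorem glueCore (hGL : Stmt_GoodLift) (hTI : Stmt_TIss)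
    {K F k F₁ F₂ : Type} [Field K] [Field F] [Algebra K F] [Field k] [Field F₁]
    [Algebra k F₁] [Field F₂] [Algebra k F₂] [IsAlgClosed K] [IsAlgClosed k]
    (S : SSD K F k F₁ F₂) (H : FFHyp K F) (H₁ : FFHyp k F₁) (H₂ : FFHyp k F₂)
    (g g₁ g₂ : ℕ) (c c₁ c₂ : ℤ) (hR : IsGenus K F g c) (hR₁ : IsGenus k F₁ g₁ c₁)
    (hR₂ : IsGenus k F₂ g₂ c₂) (hnum : g + 1 ≤ g₁ + g₂ + S.nodes.card)
    (n : ℕ) (hn : (n : k) ≠ 0)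
    (τ : SemilinearAut K F) (τ₁ : F₁ →+* F₁) (τ₂ : F₂ →+* F₂) (Q : ℕ)
    (hτ : S.IsFrobLike τ τ₁ τ₂ Q)
    (Fh : F) (ψ₁ : F₁) (ψ₂ : F₂) (hFh₁ : S.c₁.IsGU Fh) (hFh₂ : S.c₂.IsGU Fh)
    (hrdF₁ : S.c₁.rd Fh = ψ₁ ^ n) (hrdF₂ : S.c₂.rd Fh = ψ₂ ^ n)
    (hordF : ∀ P : Place K F, (n : ℤ) ∣ P.ord Fh)
    (hnode : ∀ P : Place K F, S.IsNodeP P → P.ord Fh = 0) :
    ∃ t : F, t ^ n = (τ • Fh) / Fh ^ Q := by
  have hn0 : n ≠ 0 := by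
    rintro rfl
    exact hn Nat.cast_zero
  have hFh0 : Fh ≠ 0 := hFh₁.ne_zero
  have hψ₁0 : ψ₁ ≠ 0 := by
    rintro rfl
    apply hFh₁.2
    rw [hrdF₁, zero_pow hn0]
  have hψ₂0 : ψ₂ ≠ 0 := by
    rintro rfl
    apply hFh₂.2
    rw [hrdF₂, zero_pow hn0]
  have hordψ : ∀ s ∈ S.nodes, s.1.ord ψ₁ = 0 ∧ s.2.ord ψ₂ = 0 := by
    intro s hs
    obtain ⟨h1, h2⟩ := ord_rd_eq_zero_of_node S H.principal hFh₁ hFh₂ hnode hs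
    rw [hrdF₁, ord_pow] at h1
    rw [hrdF₂, ord_pow] at h2
    have hnZ : (n : ℤ) ≠ 0 := by exact_mod_cast hn0
    exact ⟨(mul_eq_zero.mp h1).resolve_left hnZ, (mul_eq_zero.mp h2).resolve_left hnZ⟩
  -- the functions `u₁`, `u₂`
  set u₁ : F₁ := τ₁ ψ₁ / ψ₁ ^ Q with hu₁
  set u₂ : F₂ := τ₂ ψ₂ / ψ₂ ^ Q with hu₂
  have hτψ₁0 : τ₁ ψ₁ ≠ 0 := (map_ne_zero τ₁).mpr hψ₁0
  have hτψ₂0 : τ₂ ψ₂ ≠ 0 := (map_ne_zero τ₂).mpr hψ₂0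
  have hu₁0 : u₁ ≠ 0 := div_ne_zero hτψ₁0 (pow_ne_zero _ hψ₁0)
  have hu₂0 : u₂ ≠ 0 := div_ne_zero hτψ₂0 (pow_ne_zero _ hψ₂0)
  have hval₁ : ∀ s ∈ S.nodes, VanAt s.1 (u₁ - algebraMap k F₁ 1) := by
    intro s hs
    obtain ⟨b, hb0, hb⟩ := exists_value_ne_zero (H₁.deg_one s.1) hψ₁0 (hordψ s hs).1
    exact vanAt_div_sub_one (pow_ne_zero Q hb0) (hτ.val₁ s hs ψ₁ b hb) (vanAt_pow_sub hb Q)
  have hval₂ : ∀ s ∈ S.nodes, VanAt s.2 (u₂ - algebraMap k F₂ 1) := by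
    intro s hs
    obtain ⟨b, hb0, hb⟩ := exists_value_ne_zero (H₂.deg_one s.2) hψ₂0 (hordψ s hs).2
    exact vanAt_div_sub_one (pow_ne_zero Q hb0) (hτ.val₂ s hs ψ₂ b hb) (vanAt_pow_sub hb Q)
  -- the lift `u`
  obtain ⟨u, hu1, hu2, hrdu₁, hrdu₂, -, -, hureg⟩ := hGL K F k F₁ F₂ S H H₁ H₂ g g₁ g₂ c c₁ c₂
    hR hR₁ hR₂ hnum u₁ u₂ ∅ ∅ (fun Q hQ => absurd hQ (Finset.notMem_empty Q))
    (fun Q hQ => absurd hQ (Finset.notMem_empty Q)) (fun s hs => ⟨1, hval₁ s hs, hval₂ s hs⟩)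
  have huGU₁ : S.c₁.IsGU u := ⟨hu1, by rw [hrdu₁]; exact hu₁0⟩
  have huGU₂ : S.c₂.IsGU u := ⟨hu2, by rw [hrdu₂]; exact hu₂0⟩
  have hu0 : u ≠ 0 := huGU₁.ne_zero
  have hunode : ∀ P, S.IsNodeP P → P.ord u = 0 :=
    ord_eq_zero_of_isNodeP S H.principal huGU₁ huGU₂ hureg
      (fun s hs => by rw [hrdu₁]; exact (ord_eq_zero_of_vanAt_sub one_ne_zero (hval₁ s hs)).2)
      (fun s hs => by rw [hrdu₂]; exact (ord_eq_zero_of_vanAt_sub one_ne_zero (hval₂ s hs)).2)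
  -- `τ F_h`
  have hτ₁ : S.c₁.IsGU (τ • Fh) ∧ S.c₁.rd (τ • Fh) = τ₁ ψ₁ ^ n := by
    have hm := hτ.mem₁ Fh hFh₁.1
    have hr : S.c₁.rd (τ • Fh) = τ₁ ψ₁ ^ n := by
      rw [S.c₁.rd_of_mem hm, hτ.red₁ Fh hFh₁.1 hm, ← S.c₁.rd_of_mem hFh₁.1, hrdF₁, map_pow]
    exact ⟨⟨hm, by rw [hr]; exact pow_ne_zero _ hτψ₁0⟩, hr⟩
  have hτ₂ : S.c₂.IsGU (τ • Fh) ∧ S.c₂.rd (τ • Fh) = τ₂ ψ₂ ^ n := by
    have hm := hτ.mem₂ Fh hFh₂.1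
    have hr : S.c₂.rd (τ • Fh) = τ₂ ψ₂ ^ n := by
      rw [S.c₂.rd_of_mem hm, hτ.red₂ Fh hFh₂.1 hm, ← S.c₂.rd_of_mem hFh₂.1, hrdF₂, map_pow]
    exact ⟨⟨hm, by rw [hr]; exact pow_ne_zero _ hτψ₂0⟩, hr⟩
  -- the function `gg = τ F_h / (F_h ^ Q u ^ n)`
  set gg : F := (τ • Fh) / (Fh ^ Q * u ^ n) with hgg
  have hden₁ : S.c₁.IsGU (Fh ^ Q * u ^ n) := (hFh₁.pow Q).mul (huGU₁.pow n)
  have hden₂ : S.c₂.IsGU (Fh ^ Q * u ^ n) := (hFh₂.pow Q).mul (huGU₂.pow n)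
  have hgg₁ : S.c₁.IsGU gg := hτ₁.1.div hden₁
  have hgg₂ : S.c₂.IsGU gg := hτ₂.1.div hden₂
  have hggrd₁ : S.c₁.rd gg = 1 := by
    rw [hτ₁.1.rd_div hden₁, hτ₁.2, S.c₁.rd_mul (hFh₁.pow Q).1 (huGU₁.pow n).1,
      S.c₁.rd_pow hFh₁.1, S.c₁.rd_pow hu1, hrdF₁, hrdu₁, hu₁]
    exact pow_div_aux _ _ n Q hτψ₁0 hψ₁0
  have hggrd₂ : S.c₂.rd gg = 1 := by
    rw [hτ₂.1.rd_div hden₂, hτ₂.2, S.c₂.rd_mul (hFh₂.pow Q).1 (huGU₂.pow n).1,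
      S.c₂.rd_pow hFh₂.1, S.c₂.rd_pow hu2, hrdF₂, hrdu₂, hu₂]
    exact pow_div_aux _ _ n Q hτψ₂0 hψ₂0
  -- orders
  have hordτ : ∀ (P : Place K F) (y : F), P.ord (τ • y) = (τ⁻¹ • P).ord y := by
    intro P y
    have := SemilinearAut.ord_smul τ (τ⁻¹ • P) y
    rwa [smul_inv_smul] at this
  have hordg : ∀ P : Place K F,
      P.ord gg = (τ⁻¹ • P).ord Fh - (Q * P.ord Fh + n * P.ord u) := by
    intro P
    rw [hgg, ord_div P hτ₁.1.ne_zero hden₁.ne_zero, hordτ,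
      P.ord_mul (pow_ne_zero _ hFh0) (pow_ne_zero _ hu0), ord_pow, ord_pow]
  have hdivg : ∀ P : Place K F, (n : ℤ) ∣ P.ord gg := by
    intro P
    rw [hordg]
    exact dvd_sub (hordF _) (dvd_add (dvd_mul_of_dvd_right (hordF P) _) (dvd_mul_right _ _))
  have hnodeg : ∀ P : Place K F, S.IsNodeP P → P.ord gg = 0 := by
    intro P hP
    rw [hordg, hnode P hP, hnode _ (hτ.node P hP), hunode P hP]
    ring
  obtain ⟨t, ht⟩ := hTI K F k F₁ F₂ S H H₁ H₂ g g₁ g₂ c c₁ c₂ hR hR₁ hR₂ hnum n hn gg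
    hgg₁.1 hgg₂.1 hggrd₁ hggrd₂ hdivg hnodeg
  refine ⟨t * u, ?_⟩
  rw [mul_pow, ht, hgg]
  have h1 : Fh ^ Q ≠ 0 := pow_ne_zero _ hFh0
  have h2 : u ^ n ≠ 0 := pow_ne_zero _ hu0
  field_simp

/-- **GLUE, Frobenius form, general hypotheses**, from the moving lemma, good lifts and
TI-ss-gp. -/
theorem glueFrobGen_of (hMv : Stmt_Moving) (hGL : Stmt_GoodLift) (hTI : Stmt_TIss) :
    Stmt_GlueFrobGen := by
  intro K F k F₁ F₂ _ _ _ _ _ _ _ _ _ _ S H H₁ H₂ g g₁ g₂ c c₁ c₂ hR hR₁ hR₂ hnum n hn τ τ₁ τ₂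
    Q hτ f a₁ a₂ h₁ h₂ hh₁ hh₂ hm₁ hr₁ hm₂ hr₂ hdiv
  have hn0 : n ≠ 0 := by
    rintro rfl
    exact hn Nat.cast_zero
  have hnpos : 0 < n := Nat.pos_of_ne_zero hn0
  have hGU₁ : S.c₁.IsGU (algebraMap K F a₁ * f) := ⟨hm₁, by rw [hr₁]; exact pow_ne_zero _ hh₁⟩
  have hGU₂ : S.c₂.IsGU (algebraMap K F a₂ * f) := ⟨hm₂, by rw [hr₂]; exact pow_ne_zero _ hh₂⟩
  have hf0 : f ≠ 0 := right_ne_zero_of_mul hGU₁.ne_zero
  have hA₁ : algebraMap K F a₁ ≠ 0 := left_ne_zero_of_mul hGU₁.ne_zero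
  have hA₂ : algebraMap K F a₂ ≠ 0 := left_ne_zero_of_mul hGU₂.ne_zero
  have ha₁ : a₁ ≠ 0 := fun h0 => hA₁ (by rw [h0, map_zero])
  have ha₂ : a₂ ≠ 0 := fun h0 => hA₂ (by rw [h0, map_zero])
  -- lifts of `h₁`, `h₂`
  obtain ⟨X₁, hX₁m, hX₁r⟩ := S.c₁.exists_rd_eq h₁
  obtain ⟨X₂, hX₂m, hX₂r⟩ := S.c₂.exists_rd_eq h₂
  have hX₁ : S.c₁.IsGU X₁ := ⟨hX₁m, by rw [hX₁r]; exact hh₁⟩
  have hX₂ : S.c₂.IsGU X₂ := ⟨hX₂m, by rw [hX₂r]; exact hh₂⟩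
  have hX₁0 : X₁ ≠ 0 := hX₁.ne_zero
  have hX₂0 : X₂ ≠ 0 := hX₂.ne_zero
  obtain ⟨e, he⟩ := IsAlgClosed.exists_pow_nat_eq (a₁ / a₂) hnpos
  have he0 : e ≠ 0 := by
    rintro rfl
    rw [zero_pow hn0] at he
    exact div_ne_zero ha₁ ha₂ he.symm
  have hE0 : algebraMap K F e ≠ 0 := fun h0 => he0 ((map_eq_zero (algebraMap K F)).mp h0)
  have hEn : algebraMap K F e ^ n = algebraMap K F a₁ / algebraMap K F a₂ := by
    rw [← map_pow, he, map_div₀]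
  -- the normalised function and the twist
  set f' : F := algebraMap K F a₁ * f / X₁ ^ n with hf'
  set ϑ : F := algebraMap K F e * X₂ / X₁ with hϑ
  have hϑ0 : ϑ ≠ 0 := div_ne_zero (mul_ne_zero hE0 hX₂0) hX₁0
  have hf'GU : S.c₁.IsGU f' := hGU₁.div (hX₁.pow n)
  have hf'rd : S.c₁.rd f' = 1 := by
    rw [hf', hGU₁.rd_div (hX₁.pow n), hr₁, S.c₁.rd_pow hX₁m, hX₁r,
      div_self (pow_ne_zero _ hh₁)]
  have key : f' / ϑ ^ n = algebraMap K F a₂ * f / X₂ ^ n := by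
    rw [hf', hϑ, div_pow, mul_pow, hEn]
    have h1 : X₁ ^ n ≠ 0 := pow_ne_zero _ hX₁0
    have h2 : X₂ ^ n ≠ 0 := pow_ne_zero _ hX₂0
    field_simp
  have hf'₂ : S.c₂.IsGU (f' / ϑ ^ n) := by
    rw [key]
    exact hGU₂.div (hX₂.pow n)
  have hf'₂rd : S.c₂.rd (f' / ϑ ^ n) = 1 := by
    rw [key, hGU₂.rd_div (hX₂.pow n), hr₂, S.c₂.rd_pow hX₂m, hX₂r,
      div_self (pow_ne_zero _ hh₂)]
  have hf'0 : f' ≠ 0 := hf'GU.ne_zero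
  have hdiv' : ∀ P : Place K F, (n : ℤ) ∣ P.ord f' := by
    intro P
    rw [hf', ord_div P (mul_ne_zero hA₁ hf0) (pow_ne_zero _ hX₁0), P.ord_mul hA₁ hf0,
      ord_algebraMap, zero_add, ord_pow]
    exact dvd_sub (hdiv P) (dvd_mul_right _ _)
  let x : S.Twist n :=
    { f := f'
      ϑ := ϑ
      hϑ := hϑ0
      hf₁ := hf'GU.1
      hrd₁ := hf'rd
      hf₂ := hf'₂
      hdiv := hdiv'
      hγ := fun s _ => by rw [hf'₂rd, Place.ord_one] }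
  obtain ⟨h, hhG₁, hhG₂, hnode⟩ :=
    hMv K F k F₁ F₂ S H H₁ H₂ g g₁ g₂ c c₁ c₂ hR hR₁ hR₂ hnum n hn x
  change S.c₂.IsGU (ϑ * h) at hhG₂
  change ∀ P : Place K F, S.IsNodeP P → P.ord (f' * h ^ n) = 0 at hnode
  have hh0 : h ≠ 0 := hhG₁.ne_zero
  set Fh : F := f' * h ^ n with hFh
  have hFh₁ : S.c₁.IsGU Fh := hf'GU.mul (hhG₁.pow n)
  have eFh : Fh = (f' / ϑ ^ n) * (ϑ * h) ^ n := by
    have hϑn : ϑ ^ n ≠ 0 := pow_ne_zero _ hϑ0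
    rw [hFh, mul_pow]
    field_simp
  have hFh₂ : S.c₂.IsGU Fh := by
    rw [eFh]
    exact hf'₂.mul (hhG₂.pow n)
  have hrdF₁ : S.c₁.rd Fh = S.c₁.rd h ^ n := by
    rw [hFh, S.c₁.rd_mul hf'GU.1 (hhG₁.pow n).1, hf'rd, one_mul, S.c₁.rd_pow hhG₁.1]
  have hrdF₂ : S.c₂.rd Fh = S.c₂.rd (ϑ * h) ^ n := by
    rw [eFh, S.c₂.rd_mul hf'₂.1 (hhG₂.pow n).1, hf'₂rd, one_mul, S.c₂.rd_pow hhG₂.1]
  have hordF : ∀ P : Place K F, (n : ℤ) ∣ P.ord Fh := by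
    intro P
    rw [hFh, P.ord_mul hf'0 (pow_ne_zero _ hh0), ord_pow]
    exact dvd_add (hdiv' P) (dvd_mul_right _ _)
  obtain ⟨t, ht⟩ := glueCore hGL hTI S H H₁ H₂ g g₁ g₂ c c₁ c₂ hR hR₁ hR₂ hnum n hn τ τ₁ τ₂ Q hτ
    Fh (S.c₁.rd h) (S.c₂.rd (ϑ * h)) hFh₁ hFh₂ hrdF₁ hrdF₂ hordF hnode
  -- conclusion
  set y : F := h / X₁ with hy
  have hy0 : y ≠ 0 := div_ne_zero hh0 hX₁0
  have hFy : Fh = algebraMap K F a₁ * f * y ^ n := by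
    rw [hFh, hf', hy, div_pow]
    have h1 : X₁ ^ n ≠ 0 := pow_ne_zero _ hX₁0
    field_simp
  have hτy0 : τ • y ≠ 0 := by
    intro h0
    apply hy0
    have := congrArg (fun z => τ⁻¹ • z) h0
    simpa using this
  have hτf0 : τ • f ≠ 0 := by
    intro h0
    apply hf0
    have := congrArg (fun z => τ⁻¹ • z) h0
    simpa using this
  set b : K := SemilinearAut.baseAut τ a₁ with hb
  have hb0 : b ≠ 0 := by
    rw [hb]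
    exact (map_ne_zero _).mpr ha₁
  have hB0 : algebraMap K F b ≠ 0 := fun h0 => hb0 ((map_eq_zero (algebraMap K F)).mp h0)
  have hτF : τ • Fh = algebraMap K F b * (τ • f) * (τ • y) ^ n := by
    rw [hFy, smul_mul', smul_mul', smul_pow', SemilinearAut.smul_algebraMap]
  obtain ⟨κ, hκ⟩ := IsAlgClosed.exists_pow_nat_eq (a₁ ^ Q / b) hnpos
  have hKn : algebraMap K F κ ^ n = algebraMap K F a₁ ^ Q / algebraMap K F b := by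
    rw [← map_pow, hκ, map_div₀, map_pow]
  refine ⟨t * algebraMap K F κ * y ^ Q / (τ • y), ?_⟩
  rw [div_pow, mul_pow, mul_pow, ht, hKn, hτF, hFy]
  have h3 : y ^ n ≠ 0 := pow_ne_zero _ hy0
  have h4 : (τ • y) ^ n ≠ 0 := pow_ne_zero _ hτy0
  have h5 : f ^ Q ≠ 0 := pow_ne_zero _ hf0
  have h6 : algebraMap K F a₁ ^ Q ≠ 0 := pow_ne_zero _ hA₁
  field_simp
  ring

end Fermat.Agent.S35.H89
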