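import Fermat.Agent.S35.H89_Final
import Fermat.Agent.S35.H89_StCore
import Fermat.Agent.S35.H89_ModSt
import Fermat.Agent.S35.H89_GlueGen
import Fermat.Agent.S35.H44_DescSt
import Fermat.Agent.GTor.H81_TXFinal
import Fermat.Agent.S30.H29_Assemble
import Fermat.Agent.Lib.FrobDensity.Main
import Fermat.Agent.BAD.ABS

/-!
# S35 (helper81): the chain from the modular datum at the tame levels to the frozen statement

* `glueFrobGen_final : Stmt_GlueFrobGen` (GLUE, from package ABS);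
* `torsSt_of_modSt_tame` : `Stmt_ModSt M q` at the tame `(M, q)` gives `Stmt_TorsSt M q p`
  at every `(M, q, p)`;
* `tatePieceSt_of_modSt_tame` : ... gives `S35.Stmt_TatePieceSt`;
* `s35_of_modSt_tame` : ... gives the frozen type of S35.
-/

set_option autoImplicit false

open Polynomial
open CuspForm CuspForm.IsNewform

namespace Fermat.Agent.S35.H81

open Fermat.Agent.S35.H89

/-- The hypothesis: the modular datum of S35 at the tame levels
(`BAD.H91.TameAt M q`, unfolded). -/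
def Stmt_ModStTame : Prop :=
  ∀ (M q : ℕ) [NeZero M] [NeZero q], q.Prime → ¬ q ∣ M →
    (5 ≤ q ∨ (q = 3 ∧ 2 ∣ M) ∨ (q = 2 ∧ 3 ∣ M)) → Stmt_ModSt M q

/-- GLUE for Frobenius-like automorphisms, unconditional. -/
theorem glueFrobGen_final : Stmt_GlueFrobGen :=
  glueFrobGen_of Fermat.Agent.BAD.stmt_Moving Fermat.Agent.BAD.H28.stmt_GoodLift
    Fermat.Agent.BAD.H28.stmt_TIss

/-- `(St)` at every `(M, q, p)` from the modular datum at the tame levels. -/
theorem torsSt_of_modSt_tame (h : Stmt_ModStTame) (M q p : ℕ) [NeZero M] [NeZero q] :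
    Stmt_TorsSt M q p := by
  intro hq hqM hp hqp
  exact torsSt_of_stCore M q p
    (Fermat.Agent.S35.H44.stCore_all
      (fun M' q' _ _ hq' hqM' ht => stCore_of_modSt glueFrobGen_final M' q' hq'
        (h M' q' hq' hqM' ht)) M q hq hqM) hq hqM hp hqp

/-- The Steinberg Tate piece from the modular datum at the tame levels. -/
theorem tatePieceSt_of_modSt_tame (h : Stmt_ModStTame) : Fermat.Agent.S35.Stmt_TatePieceSt :=
  Fermat.Agent.GTor.H81.tatePieceSt_final (fun M q p _ _ => torsSt_of_modSt_tame h M q p)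

/-- **S35 from the modular datum at the tame levels.** -/
theorem s35_of_modSt_tame (h : Stmt_ModStTame)
    {M : ℕ} [NeZero M] {g : CuspForm (CongruenceSubgroup.Gamma0 M) 2} (hg : g.IsNewform)
    (lam : ℕ) [Fact lam.Prime]
    (S : Finset ℕ)
    (O' : Type) [CommRing O'] [IsDomain O'] [IsDiscreteValuationRing O']
    [IsAdicComplete (IsLocalRing.maximalIdeal O') O'] [Finite (IsLocalRing.ResidueField O')]
    [CharZero O'] (hlamO' : (lam : O') ∈ IsLocalRing.maximalIdeal O')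
    (chig : CuspForm.heckeAlgebra M 2 (↑S : Set ℕ) →+* ℂ)
    (hchig : ∀ (ℓ : ℕ) (hℓ : ℓ.Prime) (hℓM : ¬ ℓ ∣ M) (hℓS : ℓ ∉ (↑S : Set ℕ)),
      chig (CuspForm.heckeAlgebra.T hℓ hℓM hℓS) = ModularFormClass.qCoeff g ℓ)
    (iota : chig.range →+* O')
    (hlamS : lam ∈ S) (hMS : ∀ q : ℕ, q.Prime → q ∣ M → q ∈ S)
    :
    ∃ (O'' : Type) (_ : CommRing O'') (_ : IsDomain O'') (_ : IsDiscreteValuationRing O'')
      (_ : IsAdicComplete (IsLocalRing.maximalIdeal O'') O'') (_ : Finite (IsLocalRing.ResidueField O''))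
      (_ : CharZero O'') (_ : Algebra O' O'') (_ : Module.Finite O' O'') (_ : IsLocalHom (algebraMap O' O'')),
      Function.Injective (algebraMap O' O'') ∧
      ∃ ρ : GaloisRepAdic O'',
        (∀ (ℓ : ℕ) (hℓ : ℓ.Prime) (hℓM : ¬ ℓ ∣ M) (hℓS : ℓ ∉ (↑S : Set ℕ)),
          ∀ A : ValuationSubring (AlgebraicClosure ℚ), A.LiesOverPrime ℓ →
            ∀ σ : AlgebraicClosure ℚ ≃ₐ[ℚ] AlgebraicClosure ℚ, A.IsFrobeniusAt σ ℓ →
              LinearMap.charpoly (ρ.ρ σ) =
                X ^ 2 - C (algebraMap O' O'' ((iota.comp chig.rangeRestrict) (CuspForm.heckeAlgebra.T hℓ hℓM hℓS))) * X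
                  + C ((ℓ : O''))) ∧
        (∀ q : ℕ, q.Prime → q ≠ lam → q ∣ M → ¬ q ^ 2 ∣ M →
          ∀ A : ValuationSubring (AlgebraicClosure ℚ), A.LiesOverPrime q →
            ∀ σ : AlgebraicClosure ℚ ≃ₐ[ℚ] AlgebraicClosure ℚ, A.IsFrobeniusAt σ q →
              LinearMap.charpoly (ρ.ρ σ) = X ^ 2 - C ((q : O'') + 1) * X + C ((q : O'')) ∨
              LinearMap.charpoly (ρ.ρ σ) = X ^ 2 + C ((q : O'') + 1) * X + C ((q : O''))) :=
  Fermat.Agent.S35.s35_of
    (Fermat.Agent.S30.H29.assembleS_of_FD Fermat.Agent.Lib.FrobDensity.stmt_FD)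
    (tatePieceSt_of_modSt_tame h) hg lam S O' hlamO' chig hchig iota hlamS hMS

end Fermat.Agent.S35.H81
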