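import Fermat.Agent.BAD.H79_Inert
import Fermat.Agent.BAD.H28_GlueStmt

/-!
# S35 (helper89), package SIGMA, abstract part: Frobenius-like automorphisms of a total
conservation datum

`T : TotData K L k E E` (both residue fields are `E`; modular: `E = F1`, `red₂ = red₁ ∘ w_q`).

* `TotFrob T τ τb Q` : `τ` preserves the two valuation rings, induces `τb` on the reductions,
  fixes `ρ` on the fibres of the nodes, and `τb` raises the values at the two branches of every
  node to the `Q`-th power.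
* `TotFrob.isFrobLike` : then `τ` is Frobenius-like (helper28's `SSD.IsFrobLike`) for
  `T.toSSD`.
* `totFrob_of` : the conditions at the nodes from `ord_{β z} ψ = ord_z (φ̄ ψ)`, `τb = φ̄²`,
  `ρ (τ⁻¹ P) = β (β (ρ P))` and **(Σ-fix)** `β (β z) = z` for every node `z`.
* `sigma_fix_of_sep` : **(Σ-fix)** at a node `z` from a test function `f ∈ R_z` with
  `rd₁ f = Fr x`, `rd₂ f = x` (modular: `f = β_q^* h`, `h` of level `M`), where
  `ord_{β z} (Fr g) = q · ord_z g`, and `x` separates `β⁻¹ z` from `β z`.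
-/

set_option autoImplicit false
set_option linter.style.haveILetI false

noncomputable section

open AlgebraicCurve

attribute [local instance] Classical.propDecidable

namespace Fermat.Agent.S35.H89

open Fermat.Agent.RED.H17 Fermat.Agent.RED Fermat.Agent.BAD Fermat.Agent.BAD.H79

variable {K L k E : Type*} [Field K] [Field L] [Algebra K L] [Field k] [Field E]
  [Algebra k E]

/-- `τ` is Frobenius-like of exponent `Q` for the total conservation datum `T`. -/
structure TotFrob (T : TotData K L k E E) (τ : SemilinearAut K L) (τb : E →+* E) (Q : ℕ) :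
    Prop where
  mem₁ : ∀ f : L, f ∈ T.b₁.V → τ • f ∈ T.b₁.V
  mem₂ : ∀ f : L, f ∈ T.b₂.V → τ • f ∈ T.b₂.V
  red₁ : ∀ (f : L) (h : f ∈ T.b₁.V) (h' : τ • f ∈ T.b₁.V),
    T.b₁.red ⟨_, h'⟩ = τb (T.b₁.red ⟨f, h⟩)
  red₂ : ∀ (f : L) (h : f ∈ T.b₂.V) (h' : τ • f ∈ T.b₂.V),
    T.b₂.red ⟨_, h'⟩ = τb (T.b₂.red ⟨f, h⟩)
  ρ_node : ∀ P : Place K L, T.IsNode (T.ρ P) → T.ρ (τ⁻¹ • P) = T.ρ P
  val₁ : ∀ z : Place k E, T.IsNode z → ∀ (ψ : E) (a : k), VanAt z (ψ - algebraMap k E a) →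
    VanAt z (τb ψ - algebraMap k E (a ^ Q))
  val₂ : ∀ z : Place k E, T.IsNode z → ∀ (ψ : E) (a : k),
    VanAt (T.β z) (ψ - algebraMap k E a) → VanAt (T.β z) (τb ψ - algebraMap k E (a ^ Q))

/-- **A Frobenius-like automorphism of the total conservation datum is Frobenius-like for the
semistable Deuring datum.** -/
theorem TotFrob.isFrobLike [Infinite k] [IsAlgClosed K] {T : TotData K L k E E}
    {τ : SemilinearAut K L} {τb : E →+* E} {Q : ℕ} (h : TotFrob T τ τb Q)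
    (hP : HasPrincipalDivisors K L) (hd : ∀ v : Place K L, v.deg = 1)
    (hP₁ : HasPrincipalDivisors k E) (hd₁ : ∀ v : Place k E, v.deg = 1)
    (hne : ∃ z, T.IsNode z) :
    (T.toSSD hP hd hP₁ hd₁ hd₁ hne).IsFrobLike τ τb τb Q where
  mem₁ := h.mem₁
  mem₂ := h.mem₂
  red₁ := h.red₁
  red₂ := h.red₂
  node := by
    rintro P ⟨s, hs, hr⟩
    rw [TotData.toSSD_nodes, TotData.mem_nodes] at hs
    rw [TotData.toSSD_c₁_r, TotData.r₁_eq_some_iff] at hr
    have hz : T.IsNode (T.ρ P) := by rw [hr.1]; exact hs.1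
    have e := h.ρ_node P hz
    have hz' : T.IsNode (T.ρ (τ⁻¹ • P)) := by rw [e]; exact hz
    refine ⟨s, (by rw [TotData.toSSD_nodes, TotData.mem_nodes]; exact hs), ?_⟩
    rw [TotData.toSSD_c₁_r, TotData.r₁_eq_some_iff]
    exact ⟨e.trans hr.1, TotData.IsNode.onSide₁ hP hz'⟩
  val₁ := by
    intro s hs ψ a hv
    rw [TotData.toSSD_nodes, TotData.mem_nodes] at hs
    exact h.val₁ s.1 hs.1 ψ a hv
  val₂ := by
    intro s hs ψ a hv
    rw [TotData.toSSD_nodes, TotData.mem_nodes] at hs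
    rw [hs.2] at hv ⊢
    exact h.val₂ s.1 hs.1 ψ a hv

section Val

variable (φb : SemilinearAut k E)

/-- `VanAt` is transported by a semilinear automorphism with `ord_{b z} ψ = ord_z (φ̄ ψ)`. -/
theorem vanAt_smul_of_ord (b : Place k E → Place k E)
    (hb : ∀ (z : Place k E) (ψ : E), (b z).ord ψ = z.ord (φb • ψ)) (z : Place k E) (ψ : E) :
    VanAt z (φb • ψ) ↔ VanAt (b z) ψ := by
  rw [vanAt_iff_ord, vanAt_iff_ord, hb, H79.smul_eq_zero_iff']

end Val

/-- **The conditions at the nodes** from `(Σ-fix)`. -/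
theorem totFrob_of {T : TotData K L k E E} {τ : SemilinearAut K L} (φb : SemilinearAut k E)
    {τb : E →+* E} (hτb : ∀ ψ : E, τb ψ = φb • (φb • ψ)) {q : ℕ}
    (hbase : ∀ a : k, φb • algebraMap k E a = algebraMap k E (a ^ q))
    (hβ : ∀ (z : Place k E) (ψ : E), (T.β z).ord ψ = z.ord (φb • ψ))
    (hfix : ∀ z : Place k E, T.IsNode z → T.β (T.β z) = z)
    (hρ : ∀ P : Place K L, T.ρ (τ⁻¹ • P) = T.β (T.β (T.ρ P)))
    (mem₁ : ∀ f : L, f ∈ T.b₁.V → τ • f ∈ T.b₁.V)
    (mem₂ : ∀ f : L, f ∈ T.b₂.V → τ • f ∈ T.b₂.V)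
    (red₁ : ∀ (f : L) (h : f ∈ T.b₁.V) (h' : τ • f ∈ T.b₁.V),
      T.b₁.red ⟨_, h'⟩ = τb (T.b₁.red ⟨f, h⟩))
    (red₂ : ∀ (f : L) (h : f ∈ T.b₂.V) (h' : τ • f ∈ T.b₂.V),
      T.b₂.red ⟨_, h'⟩ = τb (T.b₂.red ⟨f, h⟩)) :
    TotFrob T τ τb (q ^ 2) := by
  have key : ∀ (w : Place k E), T.β (T.β w) = w → ∀ (ψ : E) (a : k),
      VanAt w (ψ - algebraMap k E a) → VanAt w (τb ψ - algebraMap k E (a ^ q ^ 2)) := by
    intro w hw ψ a hv
    have e : τb ψ - algebraMap k E (a ^ q ^ 2) = φb • (φb • (ψ - algebraMap k E a)) := by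
      rw [hτb, smul_sub, smul_sub, hbase, hbase, ← pow_mul, pow_two]
    rw [e, vanAt_smul_of_ord φb (fun z => T.β z) hβ, vanAt_smul_of_ord φb (fun z => T.β z) hβ,
      hw]
    exact hv
  refine ⟨mem₁, mem₂, red₁, red₂, fun P hz => ?_, fun z hz => key z (hfix z hz),
    fun z hz => key (T.β z) ?_⟩
  · rw [hρ, hfix _ hz]
  · rw [hfix z hz]

/-- **(Σ-fix), abstract form**: a node `z` is fixed by `β²` if there is a test function
`f ∈ R_z` with `rd₁ f = Fr x`, `rd₂ f = x` such that `x` separates `β⁻¹ z` and `β z`. -/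
theorem sigma_fix_of_sep (T : TotData K L k E E) (Fr : E →ₐ[k] E) {q : ℕ} (hq : 0 < q)
    (hFr : ∀ (z : Place k E) (g : E), (T.β z).ord (Fr g) = q * z.ord g)
    {z : Place k E} (hz : T.IsNode z)
    (hsep : T.β.symm z ≠ T.β z → ∃ (f : L) (x : E) (a : k), T.InR z f ∧ T.p₁.rd f = Fr x ∧
      T.p₂.rd f = x ∧ VanAt (T.β.symm z) (x - algebraMap k E a) ∧
      ¬ VanAt (T.β z) (x - algebraMap k E a)) :
    T.β (T.β z) = z := by
  by_contra hne
  have hne' : T.β.symm z ≠ T.β z := by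
    intro h
    apply hne
    rw [← h, Equiv.apply_symm_apply]
  obtain ⟨f, x, a, hf, h1, h2, hv, hnv⟩ := hsep hne'
  apply hnv
  have hnode := hz f hf a
  rw [h1, h2] at hnode
  refine hnode.mp ?_
  have e : Fr x - algebraMap k E a = Fr (x - algebraMap k E a) := by
    rw [map_sub, AlgHom.commutes]
  rw [e, vanAt_iff_ord]
  rw [vanAt_iff_ord] at hv
  rcases hv with h0 | hpos
  · left
    rw [h0, map_zero]
  · right
    have h3 := hFr (T.β.symm z) (x - algebraMap k E a)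
    rw [Equiv.apply_symm_apply] at h3
    rw [h3]
    positivity

end Fermat.Agent.S35.H89
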