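import Fermat.Agent.BAD.H91_ModSSD
import Fermat.Agent.BAD.H23_TotMod
import Fermat.Agent.S35.H89_TotFrob

/-!
# S35, SIGMA package, modular part (helper89): the objects and the three leaf statements

`q ∤ M` tame, `A` over `q`, `σ` a Frobenius element at `A`.

* `phiMod`, `FrMod`, `betaMod`, `phiSemiMod` : helper73's `φ`, `Fr`, `β` at the modular datum
  (`hD := H82.redField_eq_fullC`);
* `modTot` : the modular total conservation datum (`H91.modT` with helper23's `tot_mod`);
* `Stmt_FrobRed` (F-d) : `σ` preserves `V₁`, `V₂` and acts on the reductions by `φ`;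
* `Stmt_FrobRho` (F-b) : `ρ (σ P) = β⁻¹ (ρ P)`;
* `Stmt_SigmaFix` (Σ-fix) : the nodes are fixed by `β²`.
-/

set_option autoImplicit false
set_option linter.style.haveILetI false
set_option synthInstance.maxHeartbeats 400000
set_option maxHeartbeats 400000
set_option linter.unusedSectionVars false

noncomputable section

open HahnSeries IntermediateField AlgebraicCurve ModularCurve
open Fermat.Agent.S28.H73 Fermat.Agent.RED.H73 Fermat.Agent.RED Fermat.Agent.S24
open Fermat.Agent.BAD.H88 Fermat.Agent.BAD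

namespace Fermat.Agent.S35.H89

section Objects

variable (A : ValuationSubring Kbar) (q M : ℕ) (a b : ℤ) (hab : a * q + b * M = 1)
  (hq : q.Prime) [NeZero M] [NeZero (M * q)] (hA : A.LiesOverPrime q)

/-- The coefficientwise Frobenius `φ` of `F₁`. -/
abbrev phiMod : F1 A q M ≃+* F1 A q M :=
  BAD.H73.phiF1 A q M hq hA M (H82.redField_eq_fullC q M a b hab hq A hA)

/-- `Fr : t ↦ t ^ q` on `F₁`. -/
abbrev FrMod : F1 A q M →ₐ[kV A] F1 A q M :=
  BAD.H73.FrF1 A q M hq hA M (H82.redField_eq_fullC q M a b hab hq A hA)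

/-- The bijection `β` of the places of `F₁`. -/
abbrev betaMod : Place (kV A) (F1 A q M) ≃ Place (kV A) (F1 A q M) :=
  BAD.H73.betaF1 A q M hq hA M (H82.redField_eq_fullC q M a b hab hq A hA)

/-- `φ` as a semilinear automorphism of `F₁ / k`. -/
def phiSemiMod : SemilinearAut (kV A) (F1 A q M) :=
  @BAD.H73.frobSemi (kV A) _ q ⟨hq⟩ (BAD.H82.charP_kV A hq hA)
    (@BAD.H73.perfectRing_kV _ _ _ A q ⟨hq⟩ (BAD.H82.charP_kV A hq hA)) _
    (BAD.H73.frobStable_F1 A q M hq hA M (H82.redField_eq_fullC q M a b hab hq A hA))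

theorem phiSemiMod_smul (y : F1 A q M) :
    phiSemiMod A q M a b hab hq hA • y = phiMod A q M a b hab hq hA y := rfl

theorem betaMod_symm_apply (z : Place (kV A) (F1 A q M)) :
    (betaMod A q M a b hab hq hA).symm z = phiSemiMod A q M a b hab hq hA • z :=
  @BAD.H73.beta_symm_apply (kV A) _ q ⟨hq⟩ (BAD.H82.charP_kV A hq hA)
    (@BAD.H73.perfectRing_kV _ _ _ A q ⟨hq⟩ (BAD.H82.charP_kV A hq hA)) _
    (BAD.H73.frobStable_F1 A q M hq hA M (H82.redField_eq_fullC q M a b hab hq A hA)) z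

theorem betaMod_apply (z : Place (kV A) (F1 A q M)) :
    betaMod A q M a b hab hq hA z = (phiSemiMod A q M a b hab hq hA)⁻¹ • z := rfl

variable (hqM : ¬ q ∣ M) (ht : H91.TameAt M q)

/-- **The modular total conservation datum** (`ρ = rhoF1`, `β = betaF1`). -/
def modTot [NeZero q] : H79.TotData Kbar (FN (M * q)) (kV A) (F1 A q M) (F1 A q M) :=
  H91.modT a b hab hq hA hqM ht (betaMod A q M a b hab hq hA)
    (BAD.H23.tot_mod A q M a b hab hq hA hqM ht (H82.redField_eq_fullC q M a b hab hq A hA))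

end Objects

/-- **(F-d)**: a Frobenius element preserves the two Gauss valuation rings and acts on the
reductions by the coefficientwise Frobenius `φ`. -/
def Stmt_FrobRed : Prop :=
  ∀ (A : ValuationSubring Kbar) (q M : ℕ) (a b : ℤ) (hab : a * q + b * M = 1) (hq : q.Prime)
    [NeZero M] [NeZero (M * q)] (hA : A.LiesOverPrime q) (σ : GalQ), A.IsFrobeniusAt σ q →
    (∀ f : FN (M * q), f ∈ V1 A q M → galF (M * q) σ • f ∈ V1 A q M) ∧
    (∀ f : FN (M * q), f ∈ V2 A q M a b hab hq → galF (M * q) σ • f ∈ V2 A q M a b hab hq) ∧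
    (∀ (f : FN (M * q)) (h : f ∈ V1 A q M) (h' : galF (M * q) σ • f ∈ V1 A q M),
      red1 A q M ⟨_, h'⟩ = phiMod A q M a b hab hq hA (red1 A q M ⟨f, h⟩)) ∧
    (∀ (f : FN (M * q)) (h : f ∈ V2 A q M a b hab hq)
      (h' : galF (M * q) σ • f ∈ V2 A q M a b hab hq),
      red2 A q M a b hab hq ⟨_, h'⟩
        = phiMod A q M a b hab hq hA (red2 A q M a b hab hq ⟨f, h⟩))

/-- **(F-b)**: the reduction map is equivariant, `ρ (σ P) = β⁻¹ (ρ P)`. -/
def Stmt_FrobRho : Prop :=
  ∀ (A : ValuationSubring Kbar) (q M : ℕ) (a b : ℤ) (hab : a * q + b * M = 1) (hq : q.Prime)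
    [NeZero M] [NeZero (M * q)] (hA : A.LiesOverPrime q) (hqM : ¬ q ∣ M) (ht : H91.TameAt M q)
    (σ : GalQ), A.IsFrobeniusAt σ q → ∀ P : Place Kbar (FN (M * q)),
      H91.rhoF1 a b hab hq hA hqM ht (galF (M * q) σ • P)
        = (betaMod A q M a b hab hq hA).symm (H91.rhoF1 a b hab hq hA hqM ht P)

/-- **(Σ-fix)**: the nodes of the modular datum are fixed by `β²`. -/
def Stmt_SigmaFix : Prop :=
  ∀ (A : ValuationSubring Kbar) (q M : ℕ) (a b : ℤ) (hab : a * q + b * M = 1) (hq : q.Prime)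
    [NeZero M] [NeZero (M * q)] [NeZero q] (hA : A.LiesOverPrime q) (hqM : ¬ q ∣ M)
    (ht : H91.TameAt M q) (σ : GalQ), A.IsFrobeniusAt σ q →
    ∀ z : Place (kV A) (F1 A q M), (modTot A q M a b hab hq hA hqM ht).IsNode z →
      betaMod A q M a b hab hq hA (betaMod A q M a b hab hq hA z) = z

end Fermat.Agent.S35.H89
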