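import Fermat.Agent.S35.H89_ModStFinal

/-!
# S35, the modular side `Stmt_ModSt M q` at all tame `(M, q)`: the body (helper89)

* `modSt_body` : the body of `Stmt_ModSt M q` at `A`, `σ` from the three leaves (F-d), (F-b),
  (Σ-fix);
* `modSt_tame_of : Stmt_FrobRed → Stmt_FrobRho → Stmt_SigmaFix → ∀ tame (M, q), Stmt_ModSt M q`.
-/

set_option autoImplicit false
set_option linter.style.haveILetI false
set_option linter.unusedSectionVars false
set_option synthInstance.maxHeartbeats 400000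
set_option maxHeartbeats 1000000

noncomputable section

open HahnSeries IntermediateField AlgebraicCurve ModularCurve
open Fermat.Agent.S28.H73 Fermat.Agent.RED.H73 Fermat.Agent.RED Fermat.Agent.S24
open Fermat.Agent.BAD.H88 Fermat.Agent.BAD

namespace Fermat.Agent.S35.H89

section Body

variable (hRed : Stmt_FrobRed) (hRho : Stmt_FrobRho) (hFix : Stmt_SigmaFix)

include hRed hRho hFix in
/-- The body of `Stmt_ModSt M q` at `A`, `σ`, for `q ∤ M` tame. -/
theorem modSt_body (A : ValuationSubring Kbar) (q M : ℕ) (a b : ℤ)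
    (hab : a * q + b * M = 1) (hq : q.Prime) [NeZero M] [NeZero (M * q)] [NeZero q]
    (hA : A.LiesOverPrime q) (hqM : ¬ q ∣ M) (ht : H91.TameAt M q)
    (σ : GalQ) (hσ : A.IsFrobeniusAt σ q) :
    ∃ (E : Type) (_ : Field E) (_ : Algebra (kV A) E)
      (S : SSD (AlgebraicClosure ℚ) ↥(FNbar (M * q)) (kV A) E E)
      (_ : RED.H17.FFHyp (AlgebraicClosure ℚ) ↥(FNbar (M * q))) (_ : RED.H17.FFHyp (kV A) E)
      (g g₁ : ℕ) (c c₁ : ℤ) (φb : SemilinearAut (kV A) E) (τb : E →+* E)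
      (ρ ρ' : Place (AlgebraicClosure ℚ) ↥(FNbar (M * q)) → Place (kV A) E)
      (β : Place (kV A) E → Place (kV A) E),
      RED.H17.IsGenus (AlgebraicClosure ℚ) ↥(FNbar (M * q)) g c ∧
      RED.H17.IsGenus (kV A) E g₁ c₁ ∧
      g + 1 ≤ g₁ + g₁ + S.nodes.card ∧
      (∀ ψ : E, τb ψ = φb • (φb • ψ)) ∧
      S.IsFrobLike (galF (M * q) (σ * σ)) τb τb (q ^ 2) ∧
      (∀ (u₁ : S.c₁.V) (u₂ : S.c₂.V), S.c₁.red u₁ ≠ 0 → S.c₂.red u₂ ≠ 0 →
        (∃ a : AlgebraicClosure ℚ, (u₂ : ↥(FNbar (M * q))) =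
          algebraMap (AlgebraicClosure ℚ) ↥(FNbar (M * q)) a * (u₁ : ↥(FNbar (M * q)))) →
        ∀ D : Divisor (AlgebraicClosure ℚ) ↥(FNbar (M * q)),
          (∀ P, D P = P.ord (u₁ : ↥(FNbar (M * q)))) → ∀ z : Place (kV A) E,
          Finsupp.mapDomain ρ D z = z.ord (S.c₁.red u₁) + (β z).ord (S.c₂.red u₂)) ∧
      (∀ (u₁ : S.c₁.V) (u₂ : S.c₂.V), S.c₁.red u₁ ≠ 0 → S.c₂.red u₂ ≠ 0 →
        (∃ a : AlgebraicClosure ℚ, (u₂ : ↥(FNbar (M * q))) =
          algebraMap (AlgebraicClosure ℚ) ↥(FNbar (M * q)) a * (u₁ : ↥(FNbar (M * q)))) →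
        ∀ D : Divisor (AlgebraicClosure ℚ) ↥(FNbar (M * q)),
          (∀ P, D P = P.ord (u₁ : ↥(FNbar (M * q)))) → ∀ z : Place (kV A) E,
          Finsupp.mapDomain ρ' D z = z.ord (S.c₂.red u₂) + (β z).ord (S.c₁.red u₁)) ∧
      (∀ (z : Place (kV A) E) (ψ : E), (β z).ord ψ = z.ord (φb • ψ)) ∧
      (∀ (hα : HeckeAlphaBarIntegral (AlgebraicClosure ℚ) M q)
        (D : Divisor (AlgebraicClosure ℚ) ↥(FNbar (M * q))),
        (Divisor.pushforwardAlong (heckeAlphaBar (AlgebraicClosure ℚ) M q) hα D).IsPrincipal →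
        ∃ h : E, h ≠ 0 ∧ ∀ z : Place (kV A) E, Finsupp.mapDomain ρ D z = z.ord h) ∧
      (∀ (hβ : HeckeBetaBarIntegral (AlgebraicClosure ℚ) M q)
        (D : Divisor (AlgebraicClosure ℚ) ↥(FNbar (M * q))),
        (Divisor.pushforwardAlong (heckeBetaBar (AlgebraicClosure ℚ) M q) hβ D).IsPrincipal →
        ∃ h : E, h ≠ 0 ∧ ∀ z : Place (kV A) E, Finsupp.mapDomain ρ' D z = z.ord h) := by
  haveI : IsAlgClosed (kV A) := isAlgClosed_kV A
  -- function fields, Riemann's theorem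
  have hFFL : IsFF Kbar ↥(FNbar (M * q)) := H95.stmt_HKA_isFF (M * q)
  have hFF1 : IsFF (kV A) (F1 A q M) := H91.isFF_F1 a b hab hq hA hqM ht
  have H := RED.H17.ffHyp_of_isFF _ _ hFFL
  have H₁ := RED.H17.ffHyp_of_isFF _ _ hFF1
  obtain ⟨g, c, hg⟩ := RED.H17.exists_isGenus _ _ hFFL
  obtain ⟨g₁, c₁, hg₁⟩ := RED.H17.exists_isGenus _ _ hFF1
  have hg₁' : RED.H17.IsGenus (kV A) ↥(H91.redM A M) g₁ c₁ :=
    H91.isGenus_congr (H82.redField_eq_redField q M a b hab hq A hA) hg₁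
  -- NUM
  obtain ⟨Z, hZne, hZc, hZo, hnum⟩ :=
    Fermat.Agent.BAD.H30.num_final_tame M q hq ht hqM A hA (Dvd.intro_left M rfl)
  -- the nodes
  have hZ' : ∀ z ∈ Z.map (H91.kappa A q M a b hab hq hA).symm.toEmbedding,
      (modTot A q M a b hab hq hA hqM ht).IsNode z := by
    intro z hz
    obtain ⟨z₀, hz₀, rfl⟩ := Finset.mem_map.mp hz
    exact H91.isNode_modT a b hab hq hA hqM ht _ _ _ z₀ (hZc z₀ hz₀) (hZo z₀ hz₀)
  have hnum' : g + 1 ≤ g₁ + g₁
      + (Z.map (H91.kappa A q M a b hab hq hA).symm.toEmbedding).card := by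
    rw [Finset.card_map]
    exact Fermat.Agent.BAD.H17.genus_ineq hq hqM ht hA hg hg₁' Z.card hnum
  have hne : ∃ z, (modTot A q M a b hab hq hA hqM ht).IsNode z := by
    obtain ⟨z, hz⟩ := hZne.map (f := (H91.kappa A q M a b hab hq hA).symm.toEmbedding)
    exact ⟨z, hZ' z hz⟩
  have hcard := (modTot A q M a b hab hq hA hqM ht).card_le_toSSD_nodes H.principal H.deg_one
    H₁.principal H₁.deg_one H₁.deg_one hne _ hZ'
  refine ⟨F1 A q M, inferInstance, inferInstance,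
    (modTot A q M a b hab hq hA hqM ht).toSSD H.principal H.deg_one H₁.principal H₁.deg_one
      H₁.deg_one hne, H, H₁, g, g₁, c, c₁, phiSemiMod A q M a b hab hq hA,
    tauMod A q M a b hab hq hA, H91.rhoF1 a b hab hq hA hqM ht,
    fun P => H91.rhoF1 a b hab hq hA hqM ht (wq q M a b hab hq • P),
    betaMod A q M a b hab hq hA, hg, hg₁, ?_, tauMod_apply A q M a b hab hq hA, ?_, ?_, ?_,
    ?_, ?_, ?_⟩
  · omega
  · exact (modTotFrob A q M a b hab hq hA hRed hRho hqM ht hFix σ hσ).isFrobLike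
      H.principal H.deg_one H₁.principal H₁.deg_one hne
  · exact (modTot A q M a b hab hq hA hqM ht).toSSD_tot H.principal H.deg_one H₁.principal
      H₁.deg_one H₁.deg_one hne
  · exact (modTot A q M a b hab hq hA hqM ht).toSSD_mirror H.principal H.deg_one H₁.principal
      H₁.deg_one H₁.deg_one hne (wq q M a b hab hq) (fun P => wq q M a b hab hq • P)
      (wq_wq q M a b hab hq) (fun c x => by rw [map_mul, AlgEquiv.commutes])
      (fun P f => by
        have h := Place.ord_smul (wq q M a b hab hq) P (wq q M a b hab hq f)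
        rw [wq_wq] at h
        exact h)
      (fun x => Iff.rfl) (fun x h₂ h₁ => rfl)
  · intro z ψ
    exact BAD.H73.betaF1_ord A q M hq hA M (H82.redField_eq_fullC q M a b hab hq A hA) z ψ
  · intro hα D hD
    exact cons_alpha A q M a b hab hq hA hqM ht hα D hD
  · intro hβ D hD
    exact cons_beta A q M a b hab hq hA hqM ht hβ D hD

include hRed hRho hFix in
/-- **The modular side of S35 at all tame `(M, q)`.** -/
theorem modSt_tame_of (M q : ℕ) [NeZero M] [NeZero q] (hq : q.Prime) (hqM : ¬ q ∣ M)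
    (ht : H91.TameAt M q) : Stmt_ModSt M q := by
  intro A hA σ hσ
  haveI : NeZero (M * q) := ⟨Nat.mul_ne_zero (NeZero.ne M) (NeZero.ne q)⟩
  obtain ⟨a, b, hab⟩ : ∃ a b : ℤ, a * q + b * M = 1 := by
    have hcop : Nat.Coprime q M := (Nat.Prime.coprime_iff_not_dvd hq).2 hqM
    obtain ⟨a, b, h⟩ := Nat.isCoprime_iff_coprime.2 hcop
    exact ⟨a, b, h⟩
  exact modSt_body hRed hRho hFix A q M a b hab hq hA hqM ht σ hσ

end Body

end Fermat.Agent.S35.H89
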